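import Fermat.Agent.S52.Transfer
import Fermat.Agent.EllTorsion.Card

/-!
# The 5-congruence between members of the family: preparations
-/

set_option autoImplicit false

open Polynomial WeierstrassCurve WeierstrassCurve.Affine
open scoped WeierstrassCurve.Affine

namespace Fermat.Agent.S52T

/-- The Weierstrass curve with given `a₁, a₂, a₃, c₄, c₆` (`h` is an inverse of `6`). -/
def withC {R : Type*} [CommRing R] (h a₁ a₂ a₃ c₄ c₆ : R) : WeierstrassCurve R where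
  a₁ := a₁
  a₂ := a₂
  a₃ := a₃
  a₄ := 3 * h * (9 * h ^ 3 * ((a₁ ^ 2 + 4 * a₂) ^ 2 - c₄) - a₁ * a₃)
  a₆ := 9 * h ^ 2 * (h ^ 3 * (-c₆ - (a₁ ^ 2 + 4 * a₂) ^ 3
    + 36 * (a₁ ^ 2 + 4 * a₂) * (9 * h ^ 3 * ((a₁ ^ 2 + 4 * a₂) ^ 2 - c₄))) - a₃ ^ 2)

section

variable {R : Type*} [CommRing R] {h : R} (hh : 6 * h = 1) (a₁ a₂ a₃ c₄ c₆ : R)

include hh

theorem withC_b₄ : (withC h a₁ a₂ a₃ c₄ c₆).b₄ = 9 * h ^ 3 * ((a₁ ^ 2 + 4 * a₂) ^ 2 - c₄) := by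
  simp only [WeierstrassCurve.b₄, withC]
  linear_combination (9 * h ^ 3 * ((a₁ ^ 2 + 4 * a₂) ^ 2 - c₄) - a₁ * a₃) * hh

theorem withC_c₄ : (withC h a₁ a₂ a₃ c₄ c₆).c₄ = c₄ := by
  rw [WeierstrassCurve.c₄, withC_b₄ hh]
  simp only [WeierstrassCurve.b₂, withC]
  have h3 : 216 * h ^ 3 = 1 := by
    linear_combination ((6 * h) ^ 2 + 6 * h + 1) * hh
  linear_combination -((a₁ ^ 2 + 4 * a₂) ^ 2 - c₄) * h3

theorem withC_b₆ : (withC h a₁ a₂ a₃ c₄ c₆).b₆ = h ^ 3 * (-c₆ - (a₁ ^ 2 + 4 * a₂) ^ 3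
    + 36 * (a₁ ^ 2 + 4 * a₂) * (9 * h ^ 3 * ((a₁ ^ 2 + 4 * a₂) ^ 2 - c₄))) := by
  simp only [WeierstrassCurve.b₆, withC]
  linear_combination (6 * h + 1) * (h ^ 3 * (-c₆ - (a₁ ^ 2 + 4 * a₂) ^ 3
    + 36 * (a₁ ^ 2 + 4 * a₂) * (9 * h ^ 3 * ((a₁ ^ 2 + 4 * a₂) ^ 2 - c₄))) - a₃ ^ 2) * hh

theorem withC_c₆ : (withC h a₁ a₂ a₃ c₄ c₆).c₆ = c₆ := by
  rw [WeierstrassCurve.c₆, withC_b₄ hh, withC_b₆ hh]
  simp only [WeierstrassCurve.b₂, withC]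
  have h3 : 216 * h ^ 3 = 1 := by
    linear_combination ((6 * h) ^ 2 + 6 * h + 1) * hh
  linear_combination (c₆ + (a₁ ^ 2 + 4 * a₂) ^ 3
    - 36 * (a₁ ^ 2 + 4 * a₂) * (9 * h ^ 3 * ((a₁ ^ 2 + 4 * a₂) ^ 2 - c₄))) * h3

end

theorem map_withC {R S : Type*} [CommRing R] [CommRing S] (f : R →+* S)
    (h a₁ a₂ a₃ c₄ c₆ : R) :
    (withC h a₁ a₂ a₃ c₄ c₆).map f = withC (f h) (f a₁) (f a₂) (f a₃) (f c₄) (f c₆) := by
  ext <;> simp only [withC, WeierstrassCurve.map, map_add, map_sub, map_mul, map_pow, map_neg,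
    map_ofNat]

theorem eq_withC {R : Type*} [CommRing R] (W : WeierstrassCurve R) {h : R} (hh : 6 * h = 1) :
    W = withC h W.a₁ W.a₂ W.a₃ W.c₄ W.c₆ := by
  have h3 : 216 * h ^ 3 = 1 := by
    linear_combination ((6 * h) ^ 2 + 6 * h + 1) * hh
  have e4 : 9 * h ^ 3 * ((W.a₁ ^ 2 + 4 * W.a₂) ^ 2 - W.c₄) = W.b₄ := by
    rw [WeierstrassCurve.c₄, WeierstrassCurve.b₂]
    linear_combination W.b₄ * h3
  have e6 : h ^ 3 * (-W.c₆ - (W.a₁ ^ 2 + 4 * W.a₂) ^ 3 + 36 * (W.a₁ ^ 2 + 4 * W.a₂) * W.b₄)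
      = W.b₆ := by
    rw [WeierstrassCurve.c₆, WeierstrassCurve.b₂]
    linear_combination W.b₆ * h3
  ext
  · rfl
  · rfl
  · rfl
  · simp only [withC]
    rw [e4, WeierstrassCurve.b₄]
    linear_combination -W.a₄ * hh
  · simp only [withC]
    rw [e4, e6, WeierstrassCurve.b₆]
    linear_combination -(6 * h + 1) * W.a₆ * hh

section

variable {k : Type*} [Field k]

/-- Convenient form of `transfer`. -/
theorem transfer' [DecidableEq k] (h6 : (6 : k) ≠ 0) (h5 : (5 : k) ≠ 0)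
    (E : WeierstrassCurve k[X]) {W₀ W₁ : WeierstrassCurve k}
    (e₀ : E.map (evalRingHom 0) = W₀) (e₁ : E.map (evalRingHom 1) = W₁)
    (hΔ0 : W₀.Δ ≠ 0) (hΔ1 : W₁.Δ ≠ 0)
    {ι : Type*} (s : Finset ι) (n : ι → ℤ) (p q : ι → k[X]) (h : ∀ i, IsParam E (p i) (q i))
    (p₀ q₀ p₁ q₁ : ι → k) (hp₀ : ∀ i, (p i).eval 0 = p₀ i) (hq₀ : ∀ i, (q i).eval 0 = q₀ i)
    (hp₁ : ∀ i, (p i).eval 1 = p₁ i) (hq₁ : ∀ i, (q i).eval 1 = q₁ i)
    (h₀ : ∀ i, IsParam W₀ (p₀ i) (q₀ i)) (h₁ : ∀ i, IsParam W₁ (p₁ i) (q₁ i))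
    (hsum : ∑ i ∈ s, n i • T5 hΔ0 h6 (h₀ i) = 0) :
    ∑ i ∈ s, n i • T5 hΔ1 h6 (h₁ i) = 0 := by
  subst e₀ e₁
  obtain rfl : p₀ = fun i => (p i).eval 0 := funext fun i => (hp₀ i).symm
  obtain rfl : q₀ = fun i => (q i).eval 0 := funext fun i => (hq₀ i).symm
  obtain rfl : p₁ = fun i => (p i).eval 1 := funext fun i => (hp₁ i).symm
  obtain rfl : q₁ = fun i => (q i).eval 1 := funext fun i => (hq₁ i).symm
  exact transfer h6 h5 E hΔ0 hΔ1 s n p q h hsum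

theorem exists_five_torsion [DecidableEq k] [IsAlgClosed k] (h5 : (5 : k) ≠ 0)
    (W : WeierstrassCurve k) (hΔ : W.Δ ≠ 0) :
    ∃ P : W.toAffine.Point, P ≠ 0 ∧ 5 • P = 0 := by
  have : W.IsElliptic := ⟨isUnit_iff_ne_zero.mpr hΔ⟩
  have hc := Fermat.Agent.EllTorsion.card_nsmul_eq_zero (W := W) (n := 5) (by exact_mod_cast h5)
  by_contra hcon
  push Not at hcon
  have h1 : Subsingleton {P : W.toAffine.Point // 5 • P = 0} := by
    constructor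
    rintro ⟨P, hP⟩ ⟨Q, hQ⟩
    have hP0 : P = 0 := by
      by_contra h; exact hcon P h hP
    have hQ0 : Q = 0 := by
      by_contra h; exact hcon Q h hQ
    exact Subtype.ext (hP0.trans hQ0.symm)
  have h2 := Finite.card_le_one_iff_subsingleton.mpr h1
  omega

end

section Frob

variable {F₀ : Type*} [Field F₀] {k : Type*} [Field k] [DecidableEq k] [Algebra F₀ k]

omit [DecidableEq k] in
theorem isParam_baseChange_map (W : WeierstrassCurve F₀) (φ : k →ₐ[F₀] k) {p q : k}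
    (h : IsParam (W⁄k) p q) : IsParam (W⁄k) (φ p) (φ q) := by
  have h4 := congrArg φ h.c4
  have h6 := congrArg φ h.c6
  have e4 : (W⁄k).c₄ = algebraMap F₀ k W.c₄ := WeierstrassCurve.map_c₄ W _
  have e6 : (W⁄k).c₆ = algebraMap F₀ k W.c₆ := WeierstrassCurve.map_c₆ W _
  rw [e4, φ.commutes, ← e4] at h4
  rw [e6, φ.commutes, ← e6] at h6
  exact ⟨h4.trans (map_c4f (φ : k →+* k) p q), h6.trans (map_c6f (φ : k →+* k) p q)⟩

theorem map_T5 (W : WeierstrassCurve F₀) (φ : k →ₐ[F₀] k) (hΔ : (W⁄k).Δ ≠ 0)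
    (h6 : (6 : k) ≠ 0) {p q : k} (h : IsParam (W⁄k) p q) (h' : IsParam (W⁄k) (φ p) (φ q)) :
    Point.map (W' := W) (S := F₀) φ (T5 hΔ h6 h) = T5 hΔ h6 h' := by
  have ex : φ (tx (W⁄k) p q) = tx (W⁄k) (φ p) (φ q) := by
    have hb : (W⁄k).b₂ = algebraMap F₀ k W.b₂ := WeierstrassCurve.map_b₂ W _
    simp only [tx, hb, map_div₀, map_sub, map_add, map_mul, map_pow, φ.commutes, map_ofNat]
  have ey : φ (ty (W⁄k) p q) = ty (W⁄k) (φ p) (φ q) := by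
    have h1 : (W⁄k).a₁ = algebraMap F₀ k W.a₁ := rfl
    have h3 : (W⁄k).a₃ = algebraMap F₀ k W.a₃ := rfl
    simp only [ty, ex, h1, h3, map_div₀, map_sub, map_neg, map_mul, map_pow, φ.commutes, map_ofNat]
  rw [T5, T5, Point.map_some, Point.some.injEq]
  exact ⟨ex, ey⟩

end Frob

section Main

variable {F₀ : Type*} [Field F₀] {k : Type*} [Field k] [DecidableEq k] [Algebra F₀ k]

/-- Abstract form of the 5-congruence: a family of curves over the affine line, given by its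
`c₄`, `c₆` and parametrised points of order 5, equivariant for `φ`. -/
theorem relation_transfer (h6 : (6 : k) ≠ 0) (h5 : (5 : k) ≠ 0) (W W' : WeierstrassCurve F₀)
    (h₁ : W'.a₁ = W.a₁) (h₂ : W'.a₂ = W.a₂) (h₃ : W'.a₃ = W.a₃)
    (hΔ : (W⁄k).Δ ≠ 0) (hΔ' : (W'⁄k).Δ ≠ 0) (φ : k →ₐ[F₀] k)
    (P4 P6 : k[X]) (PP QQ : k → k → k[X])
    (h4₀ : P4.eval 0 = (W⁄k).c₄) (h6₀ : P6.eval 0 = (W⁄k).c₆)
    (h4₁ : P4.eval 1 = (W'⁄k).c₄) (h6₁ : P6.eval 1 = (W'⁄k).c₆)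
    (hP₀ : ∀ p q, (PP p q).eval 0 = p) (hQ₀ : ∀ p q, (QQ p q).eval 0 = q)
    (hP₁ : ∀ p q, (PP (φ p) (φ q)).eval 1 = φ ((PP p q).eval 1))
    (hQ₁ : ∀ p q, (QQ (φ p) (φ q)).eval 1 = φ ((QQ p q).eval 1))
    (hpar4 : ∀ p q, IsParam (W⁄k) p q → P4 = c4f (PP p q) (QQ p q))
    (hpar6 : ∀ p q, IsParam (W⁄k) p q → P6 = c6f (PP p q) (QQ p q))
    (a b : ℤ) (P : (W⁄k).Point) (hP : P ≠ 0) (hP5 : 5 • P = 0)
    (hrel : Point.map (W' := W) (S := F₀) φ (Point.map (W' := W) (S := F₀) φ P)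
      + a • Point.map (W' := W) (S := F₀) φ P + b • P = 0) :
    ∃ P' : (W'⁄k).Point, P' ≠ 0 ∧ 5 • P' = 0 ∧
      Point.map (W' := W') (S := F₀) φ (Point.map (W' := W') (S := F₀) φ P')
      + a • Point.map (W' := W') (S := F₀) φ P' + b • P' = 0 := by
  obtain ⟨i, hi⟩ : ∃ i : k, 6 * i = 1 := ⟨6⁻¹, mul_inv_cancel₀ h6⟩
  have hiX : (6 : k[X]) * C i = 1 := by
    rw [← C_1, ← hi, C_mul]; congr 1
  -- the family
  let E : WeierstrassCurve k[X] :=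
    withC (C i) (C (W⁄k).a₁) (C (W⁄k).a₂) (C (W⁄k).a₃) P4 P6
  have hE4 : E.c₄ = P4 := withC_c₄ hiX _ _ _ _ _
  have hE6 : E.c₆ = P6 := withC_c₆ hiX _ _ _ _ _
  have e₀ : E.map (evalRingHom 0) = (W⁄k) := by
    rw [map_withC, eq_withC (W⁄k) hi]
    simp only [coe_evalRingHom, eval_C, h4₀, h6₀, withC]
  have e₁ : E.map (evalRingHom 1) = (W'⁄k) := by
    have b₁ : (W'⁄k).a₁ = (W⁄k).a₁ := congrArg (algebraMap F₀ k) h₁
    have b₂ : (W'⁄k).a₂ = (W⁄k).a₂ := congrArg (algebraMap F₀ k) h₂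
    have b₃ : (W'⁄k).a₃ = (W⁄k).a₃ := congrArg (algebraMap F₀ k) h₃
    rw [map_withC, eq_withC (W'⁄k) hi]
    simp only [coe_evalRingHom, eval_C, h4₁, h6₁, b₁, b₂, b₃]
  have hE : ∀ p q, IsParam (W⁄k) p q → IsParam E (PP p q) (QQ p q) := fun p q h =>
    ⟨hE4.trans (hpar4 p q h), hE6.trans (hpar6 p q h)⟩
  have hE₁ : ∀ p q, IsParam (W⁄k) p q → IsParam (W'⁄k) ((PP p q).eval 1) ((QQ p q).eval 1) := by
    intro p q h
    have := (hE p q h).map (evalRingHom 1)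
    rw [e₁] at this
    exact this
  obtain ⟨p, q, hpq, rfl⟩ := exists_param hΔ h6 P hP hP5
  have hpq1 := isParam_baseChange_map W φ hpq
  have hpq2 := isParam_baseChange_map W φ hpq1
  rw [map_T5 W φ hΔ h6 hpq hpq1, map_T5 W φ hΔ h6 hpq1 hpq2] at hrel
  have hpq' := hE₁ p q hpq
  have hpq1' := isParam_baseChange_map W' φ hpq'
  have hpq2' := isParam_baseChange_map W' φ hpq1'
  refine ⟨T5 hΔ' h6 hpq', T5_ne_zero _ _ _, five_nsmul_T5 _ _ _, ?_⟩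
  rw [map_T5 W' φ hΔ' h6 hpq' hpq1', map_T5 W' φ hΔ' h6 hpq1' hpq2']
  -- index set `Fin 3`
  have key := transfer' h6 h5 E e₀ e₁ hΔ hΔ' (Finset.univ : Finset (Fin 3)) ![1, a, b]
    ![PP (φ (φ p)) (φ (φ q)), PP (φ p) (φ q), PP p q]
    ![QQ (φ (φ p)) (φ (φ q)), QQ (φ p) (φ q), QQ p q]
    (by
      intro i; fin_cases i
      · exact hE _ _ hpq2
      · exact hE _ _ hpq1
      · exact hE _ _ hpq)
    ![φ (φ p), φ p, p] ![φ (φ q), φ q, q]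
    ![φ (φ ((PP p q).eval 1)), φ ((PP p q).eval 1), (PP p q).eval 1]
    ![φ (φ ((QQ p q).eval 1)), φ ((QQ p q).eval 1), (QQ p q).eval 1]
    (by intro i; fin_cases i <;> exact hP₀ _ _)
    (by intro i; fin_cases i <;> exact hQ₀ _ _)
    (by
      intro i; fin_cases i
      · change (PP (φ (φ p)) (φ (φ q))).eval 1 = φ (φ ((PP p q).eval 1))
        rw [hP₁, hP₁]
      · exact hP₁ _ _
      · rfl)
    (by
      intro i; fin_cases i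
      · change (QQ (φ (φ p)) (φ (φ q))).eval 1 = φ (φ ((QQ p q).eval 1))
        rw [hQ₁, hQ₁]
      · exact hQ₁ _ _
      · rfl)
    (by
      intro i; fin_cases i
      · exact hpq2
      · exact hpq1
      · exact hpq)
    (by
      intro i; fin_cases i
      · exact hpq2'
      · exact hpq1'
      · exact hpq')
    (by
      rw [Fin.sum_univ_three]
      rw [← hrel]
      change (1 : ℤ) • T5 hΔ h6 hpq2 + a • T5 hΔ h6 hpq1 + b • T5 hΔ h6 hpq = _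
      rw [one_smul])
  rw [Fin.sum_univ_three] at key
  rw [← key]
  change _ = (1 : ℤ) • T5 hΔ' h6 hpq2' + a • T5 hΔ' h6 hpq1' + b • T5 hΔ' h6 hpq'
  rw [one_smul]

/-- Abstract form of the conclusion `5 ∣ a' - a`. -/
theorem five_dvd_sub [IsAlgClosed k] (h6 : (6 : k) ≠ 0) (h5 : (5 : k) ≠ 0)
    (W W' : WeierstrassCurve F₀)
    (h₁ : W'.a₁ = W.a₁) (h₂ : W'.a₂ = W.a₂) (h₃ : W'.a₃ = W.a₃)
    (hΔ : (W⁄k).Δ ≠ 0) (hΔ' : (W'⁄k).Δ ≠ 0) (φ : k →ₐ[F₀] k)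
    (P4 P6 : k[X]) (PP QQ : k → k → k[X])
    (h4₀ : P4.eval 0 = (W⁄k).c₄) (h6₀ : P6.eval 0 = (W⁄k).c₆)
    (h4₁ : P4.eval 1 = (W'⁄k).c₄) (h6₁ : P6.eval 1 = (W'⁄k).c₆)
    (hP₀ : ∀ p q, (PP p q).eval 0 = p) (hQ₀ : ∀ p q, (QQ p q).eval 0 = q)
    (hP₁ : ∀ p q, (PP (φ p) (φ q)).eval 1 = φ ((PP p q).eval 1))
    (hQ₁ : ∀ p q, (QQ (φ p) (φ q)).eval 1 = φ ((QQ p q).eval 1))
    (hpar4 : ∀ p q, IsParam (W⁄k) p q → P4 = c4f (PP p q) (QQ p q))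
    (hpar6 : ∀ p q, IsParam (W⁄k) p q → P6 = c6f (PP p q) (QQ p q))
    (a a' b : ℤ)
    (hCH : ∀ P : (W⁄k).Point, 5 • P = 0 →
      Point.map (W' := W) (S := F₀) φ (Point.map (W' := W) (S := F₀) φ P)
        - a • Point.map (W' := W) (S := F₀) φ P + b • P = 0)
    (hCH' : ∀ P : (W'⁄k).Point, 5 • P = 0 →
      Point.map (W' := W') (S := F₀) φ (Point.map (W' := W') (S := F₀) φ P)
        - a' • Point.map (W' := W') (S := F₀) φ P + b • P = 0) :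
    (5 : ℤ) ∣ a' - a := by
  obtain ⟨P, hP0, hP5⟩ := exists_five_torsion h5 (W⁄k) hΔ
  have hrel := hCH P hP5
  rw [sub_eq_add_neg, ← neg_smul] at hrel
  obtain ⟨P', hP0', hP5', hrel'⟩ := relation_transfer h6 h5 W W' h₁ h₂ h₃ hΔ hΔ' φ P4 P6 PP QQ
    h4₀ h6₀ h4₁ h6₁ hP₀ hQ₀ hP₁ hQ₁ hpar4 hpar6 (-a) b P hP0 hP5 hrel
  have h2 := hCH' P' hP5'
  set Q := Point.map (W' := W') (S := F₀) φ P' with hQ
  have hQ0 : Q ≠ 0 := by
    intro h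
    apply hP0'
    apply Point.map_injective (W' := W') (f := φ)
    rw [map_zero, ← h]
  have hQ5 : (5 : ℤ) • Q = 0 := by
    have : (5 : ℤ) • Q = Point.map (W' := W') (S := F₀) φ ((5 : ℕ) • P') := by
      rw [map_nsmul, ← natCast_zsmul]; rfl
    rw [this, hP5', map_zero]
  have h3 : (a' - a) • Q = 0 := by
    have h4 : (a' - a) • Q = (Point.map (W' := W') (S := F₀) φ Q + (-a) • Q + b • P')
        - (Point.map (W' := W') (S := F₀) φ Q - a' • Q + b • P') := by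
      module
    rw [h4, hrel', h2, sub_zero]
  by_contra hnd
  have hcop : IsCoprime (5 : ℤ) (a' - a) :=
    (Prime.coprime_iff_not_dvd (by norm_num : Prime (5 : ℤ))).mpr hnd
  obtain ⟨x, y, hxy⟩ := hcop
  apply hQ0
  calc Q = (x * 5 + y * (a' - a)) • Q := by rw [hxy, one_smul]
    _ = 0 := by rw [add_smul, mul_smul, mul_smul, hQ5, h3, smul_zero, smul_zero, add_zero]

end Main

end Fermat.Agent.S52T
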