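import Fermat.Agent.S52.Ident6a

/-!
# Verification of the polynomial identities for the 5-congruence family
(auto-generated; each identity is checked coefficientwise in `l, m`)
-/

set_option autoImplicit false
set_option linter.unusedVariables false
set_option linter.unusedSimpArgs false

namespace Fermat.Agent.S52L.Ident

variable {R : Type*} [CommRing R]

theorem C6_cf1 (p q : R) : -((faa0 p q*fu1 p q + faa1 p q*fu0 p q) + (fcc0 p q*fv1 p q + fcc1 p q*fv0 p q)) = C6_1 (c4T p q) (c6T p q) := by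
  simp only [faa0, faa1, fcc0, fcc1, fu1, fu0, fv1, fv0, C6_1, c4T, c6T]; ring
theorem C6_cf3 (p q : R) : -((faa0 p q*fu3 p q + faa1 p q*fu2 p q + faa2 p q*fu1 p q + faa3 p q*fu0 p q) + (fcc0 p q*fv3 p q + fcc1 p q*fv2 p q + fcc2 p q*fv1 p q + fcc3 p q*fv0 p q)) = C6_3 (c4T p q) (c6T p q) := by
  simp only [faa0, faa1, faa2, faa3, fcc0, fcc1, fcc2, fcc3, fu3, fu2, fu1, fu0, fv3, fv2, fv1, fv0, C6_3, c4T, c6T]; ring
theorem C6_cf5 (p q : R) : -((faa0 p q*fu5 p q + faa1 p q*fu4 p q + faa2 p q*fu3 p q + faa3 p q*fu2 p q + faa4 p q*fu1 p q + faa5 p q*fu0 p q) + (fcc0 p q*fv5 p q + fcc1 p q*fv4 p q + fcc2 p q*fv3 p q + fcc3 p q*fv2 p q + fcc4 p q*fv1 p q + fcc5 p q*fv0 p q)) = C6_5 (c4T p q) (c6T p q) := by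
  simp only [faa0, faa1, faa2, faa3, faa4, faa5, fcc0, fcc1, fcc2, fcc3, fcc4, fcc5, fu5, fu4, fu3, fu2, fu1, fu0, fv5, fv4, fv3, fv2, fv1, fv0, C6_5, c4T, c6T]; ring
theorem C6_cf7 (p q : R) : -((faa0 p q*fu7 p q + faa1 p q*fu6 p q + faa2 p q*fu5 p q + faa3 p q*fu4 p q + faa4 p q*fu3 p q + faa5 p q*fu2 p q + faa6 p q*fu1 p q + faa7 p q*fu0 p q) + (fcc0 p q*fv7 p q + fcc1 p q*fv6 p q + fcc2 p q*fv5 p q + fcc3 p q*fv4 p q + fcc4 p q*fv3 p q + fcc5 p q*fv2 p q + fcc6 p q*fv1 p q + fcc7 p q*fv0 p q)) = C6_7 (c4T p q) (c6T p q) := by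
  simp only [faa0, faa1, faa2, faa3, faa4, faa5, faa6, faa7, fcc0, fcc1, fcc2, fcc3, fcc4, fcc5, fcc6, fcc7, fu7, fu6, fu5, fu4, fu3, fu2, fu1, fu0, fv7, fv6, fv5, fv4, fv3, fv2, fv1, fv0, C6_7, c4T, c6T]; ring
theorem C6_cf9 (p q : R) : -((faa0 p q*fu9 p q + faa1 p q*fu8 p q + faa2 p q*fu7 p q + faa3 p q*fu6 p q + faa4 p q*fu5 p q + faa5 p q*fu4 p q + faa6 p q*fu3 p q + faa7 p q*fu2 p q + faa8 p q*fu1 p q + faa9 p q*fu0 p q) + (fcc0 p q*fv9 p q + fcc1 p q*fv8 p q + fcc2 p q*fv7 p q + fcc3 p q*fv6 p q + fcc4 p q*fv5 p q + fcc5 p q*fv4 p q + fcc6 p q*fv3 p q + fcc7 p q*fv2 p q + fcc8 p q*fv1 p q + fcc9 p q*fv0 p q)) = C6_9 (c4T p q) (c6T p q) := by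
  simp only [faa0, faa1, faa2, faa3, faa4, faa5, faa6, faa7, faa8, faa9, fcc0, fcc1, fcc2, fcc3, fcc4, fcc5, fcc6, fcc7, fcc8, fcc9, fu9, fu8, fu7, fu6, fu5, fu4, fu3, fu2, fu1, fu0, fv9, fv8, fv7, fv6, fv5, fv4, fv3, fv2, fv1, fv0, C6_9, c4T, c6T]; ring
theorem C6_cf11 (p q : R) : -((faa1 p q*fu10 p q + faa2 p q*fu9 p q + faa3 p q*fu8 p q + faa4 p q*fu7 p q + faa5 p q*fu6 p q + faa6 p q*fu5 p q + faa7 p q*fu4 p q + faa8 p q*fu3 p q + faa9 p q*fu2 p q + faa10 p q*fu1 p q + faa11 p q*fu0 p q) + (fcc1 p q*fv10 p q + fcc2 p q*fv9 p q + fcc3 p q*fv8 p q + fcc4 p q*fv7 p q + fcc5 p q*fv6 p q + fcc6 p q*fv5 p q + fcc7 p q*fv4 p q + fcc8 p q*fv3 p q + fcc9 p q*fv2 p q + fcc10 p q*fv1 p q + fcc11 p q*fv0 p q)) = C6_11 (c4T p q) (c6T p q) := by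
  simp only [faa1, faa2, faa3, faa4, faa5, faa6, faa7, faa8, faa9, faa10, faa11, fcc1, fcc2, fcc3, fcc4, fcc5, fcc6, fcc7, fcc8, fcc9, fcc10, fcc11, fu10, fu9, fu8, fu7, fu6, fu5, fu4, fu3, fu2, fu1, fu0, fv10, fv9, fv8, fv7, fv6, fv5, fv4, fv3, fv2, fv1, fv0, C6_11, c4T, c6T]; ring
theorem C6_cf13 (p q : R) : -((faa3 p q*fu10 p q + faa4 p q*fu9 p q + faa5 p q*fu8 p q + faa6 p q*fu7 p q + faa7 p q*fu6 p q + faa8 p q*fu5 p q + faa9 p q*fu4 p q + faa10 p q*fu3 p q + faa11 p q*fu2 p q + faa12 p q*fu1 p q + faa13 p q*fu0 p q) + (fcc3 p q*fv10 p q + fcc4 p q*fv9 p q + fcc5 p q*fv8 p q + fcc6 p q*fv7 p q + fcc7 p q*fv6 p q + fcc8 p q*fv5 p q + fcc9 p q*fv4 p q + fcc10 p q*fv3 p q + fcc11 p q*fv2 p q + fcc12 p q*fv1 p q + fcc13 p q*fv0 p q)) = C6_13 (c4T p q) (c6T p q) := by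
  simp only [faa3, faa4, faa5, faa6, faa7, faa8, faa9, faa10, faa11, faa12, faa13, fcc3, fcc4, fcc5, fcc6, fcc7, fcc8, fcc9, fcc10, fcc11, fcc12, fcc13, fu10, fu9, fu8, fu7, fu6, fu5, fu4, fu3, fu2, fu1, fu0, fv10, fv9, fv8, fv7, fv6, fv5, fv4, fv3, fv2, fv1, fv0, C6_13, c4T, c6T]; ring
theorem C6_cf15 (p q : R) : -((faa5 p q*fu10 p q + faa6 p q*fu9 p q + faa7 p q*fu8 p q + faa8 p q*fu7 p q + faa9 p q*fu6 p q + faa10 p q*fu5 p q + faa11 p q*fu4 p q + faa12 p q*fu3 p q + faa13 p q*fu2 p q + faa14 p q*fu1 p q + faa15 p q*fu0 p q) + (fcc5 p q*fv10 p q + fcc6 p q*fv9 p q + fcc7 p q*fv8 p q + fcc8 p q*fv7 p q + fcc9 p q*fv6 p q + fcc10 p q*fv5 p q + fcc11 p q*fv4 p q + fcc12 p q*fv3 p q + fcc13 p q*fv2 p q + fcc14 p q*fv1 p q + fcc15 p q*fv0 p q)) = C6_15 (c4T p q) (c6T p q) := by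
  simp only [faa5, faa6, faa7, faa8, faa9, faa10, faa11, faa12, faa13, faa14, faa15, fcc5, fcc6, fcc7, fcc8, fcc9, fcc10, fcc11, fcc12, fcc13, fcc14, fcc15, fu10, fu9, fu8, fu7, fu6, fu5, fu4, fu3, fu2, fu1, fu0, fv10, fv9, fv8, fv7, fv6, fv5, fv4, fv3, fv2, fv1, fv0, C6_15, c4T, c6T]; ring
theorem C6_cf17 (p q : R) : -((faa7 p q*fu10 p q + faa8 p q*fu9 p q + faa9 p q*fu8 p q + faa10 p q*fu7 p q + faa11 p q*fu6 p q + faa12 p q*fu5 p q + faa13 p q*fu4 p q + faa14 p q*fu3 p q + faa15 p q*fu2 p q + faa16 p q*fu1 p q + faa17 p q*fu0 p q) + (fcc7 p q*fv10 p q + fcc8 p q*fv9 p q + fcc9 p q*fv8 p q + fcc10 p q*fv7 p q + fcc11 p q*fv6 p q + fcc12 p q*fv5 p q + fcc13 p q*fv4 p q + fcc14 p q*fv3 p q + fcc15 p q*fv2 p q + fcc16 p q*fv1 p q + fcc17 p q*fv0 p q)) = C6_17 (c4T p q) (c6T p q) := by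
  simp only [faa7, faa8, faa9, faa10, faa11, faa12, faa13, faa14, faa15, faa16, faa17, fcc7, fcc8, fcc9, fcc10, fcc11, fcc12, fcc13, fcc14, fcc15, fcc16, fcc17, fu10, fu9, fu8, fu7, fu6, fu5, fu4, fu3, fu2, fu1, fu0, fv10, fv9, fv8, fv7, fv6, fv5, fv4, fv3, fv2, fv1, fv0, C6_17, c4T, c6T]; ring
theorem C6_cf19 (p q : R) : -((faa9 p q*fu10 p q + faa10 p q*fu9 p q + faa11 p q*fu8 p q + faa12 p q*fu7 p q + faa13 p q*fu6 p q + faa14 p q*fu5 p q + faa15 p q*fu4 p q + faa16 p q*fu3 p q + faa17 p q*fu2 p q + faa18 p q*fu1 p q + faa19 p q*fu0 p q) + (fcc9 p q*fv10 p q + fcc10 p q*fv9 p q + fcc11 p q*fv8 p q + fcc12 p q*fv7 p q + fcc13 p q*fv6 p q + fcc14 p q*fv5 p q + fcc15 p q*fv4 p q + fcc16 p q*fv3 p q + fcc17 p q*fv2 p q + fcc18 p q*fv1 p q + fcc19 p q*fv0 p q)) = C6_19 (c4T p q) (c6T p q) := by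
  simp only [faa9, faa10, faa11, faa12, faa13, faa14, faa15, faa16, faa17, faa18, faa19, fcc9, fcc10, fcc11, fcc12, fcc13, fcc14, fcc15, fcc16, fcc17, fcc18, fcc19, fu10, fu9, fu8, fu7, fu6, fu5, fu4, fu3, fu2, fu1, fu0, fv10, fv9, fv8, fv7, fv6, fv5, fv4, fv3, fv2, fv1, fv0, C6_19, c4T, c6T]; ring
theorem C6_cf21 (p q : R) : -((faa11 p q*fu10 p q + faa12 p q*fu9 p q + faa13 p q*fu8 p q + faa14 p q*fu7 p q + faa15 p q*fu6 p q + faa16 p q*fu5 p q + faa17 p q*fu4 p q + faa18 p q*fu3 p q + faa19 p q*fu2 p q + faa20 p q*fu1 p q) + (fcc11 p q*fv10 p q + fcc12 p q*fv9 p q + fcc13 p q*fv8 p q + fcc14 p q*fv7 p q + fcc15 p q*fv6 p q + fcc16 p q*fv5 p q + fcc17 p q*fv4 p q + fcc18 p q*fv3 p q + fcc19 p q*fv2 p q + fcc20 p q*fv1 p q)) = C6_21 (c4T p q) (c6T p q) := by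
  simp only [faa11, faa12, faa13, faa14, faa15, faa16, faa17, faa18, faa19, faa20, fcc11, fcc12, fcc13, fcc14, fcc15, fcc16, fcc17, fcc18, fcc19, fcc20, fu10, fu9, fu8, fu7, fu6, fu5, fu4, fu3, fu2, fu1, fv10, fv9, fv8, fv7, fv6, fv5, fv4, fv3, fv2, fv1, C6_21, c4T, c6T]; ring
theorem C6_cf23 (p q : R) : -((faa13 p q*fu10 p q + faa14 p q*fu9 p q + faa15 p q*fu8 p q + faa16 p q*fu7 p q + faa17 p q*fu6 p q + faa18 p q*fu5 p q + faa19 p q*fu4 p q + faa20 p q*fu3 p q) + (fcc13 p q*fv10 p q + fcc14 p q*fv9 p q + fcc15 p q*fv8 p q + fcc16 p q*fv7 p q + fcc17 p q*fv6 p q + fcc18 p q*fv5 p q + fcc19 p q*fv4 p q + fcc20 p q*fv3 p q)) = C6_23 (c4T p q) (c6T p q) := by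
  simp only [faa13, faa14, faa15, faa16, faa17, faa18, faa19, faa20, fcc13, fcc14, fcc15, fcc16, fcc17, fcc18, fcc19, fcc20, fu10, fu9, fu8, fu7, fu6, fu5, fu4, fu3, fv10, fv9, fv8, fv7, fv6, fv5, fv4, fv3, C6_23, c4T, c6T]; ring
theorem C6_cf25 (p q : R) : -((faa15 p q*fu10 p q + faa16 p q*fu9 p q + faa17 p q*fu8 p q + faa18 p q*fu7 p q + faa19 p q*fu6 p q + faa20 p q*fu5 p q) + (fcc15 p q*fv10 p q + fcc16 p q*fv9 p q + fcc17 p q*fv8 p q + fcc18 p q*fv7 p q + fcc19 p q*fv6 p q + fcc20 p q*fv5 p q)) = C6_25 (c4T p q) (c6T p q) := by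
  simp only [faa15, faa16, faa17, faa18, faa19, faa20, fcc15, fcc16, fcc17, fcc18, fcc19, fcc20, fu10, fu9, fu8, fu7, fu6, fu5, fv10, fv9, fv8, fv7, fv6, fv5, C6_25, c4T, c6T]; ring
theorem C6_cf27 (p q : R) : -((faa17 p q*fu10 p q + faa18 p q*fu9 p q + faa19 p q*fu8 p q + faa20 p q*fu7 p q) + (fcc17 p q*fv10 p q + fcc18 p q*fv9 p q + fcc19 p q*fv8 p q + fcc20 p q*fv7 p q)) = C6_27 (c4T p q) (c6T p q) := by
  simp only [faa17, faa18, faa19, faa20, fcc17, fcc18, fcc19, fcc20, fu10, fu9, fu8, fu7, fv10, fv9, fv8, fv7, C6_27, c4T, c6T]; ring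
theorem C6_cf29 (p q : R) : -((faa19 p q*fu10 p q + faa20 p q*fu9 p q) + (fcc19 p q*fv10 p q + fcc20 p q*fv9 p q)) = C6_29 (c4T p q) (c6T p q) := by
  simp only [faa19, faa20, fcc19, fcc20, fu10, fu9, fv10, fv9, C6_29, c4T, c6T]; ring
theorem C6_T (l m p q : R) :
    C6 l m (c4T p q) (c6T p q) = c6T (pp l m p q) (qq l m p q) := by
  have h1 : c6T (pp l m p q) (qq l m p q) =
      -(((pp l m p q * pp l m p q) * (pp l m p q * pp l m p q)) *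
        (pp l m p q * pp l m p q + 18*(pp l m p q * qq l m p q) + 75*(qq l m p q * qq l m p q))
      + ((qq l m p q * qq l m p q) * (qq l m p q * qq l m p q)) *
        (75*(pp l m p q * pp l m p q) - 18*(pp l m p q * qq l m p q) + (qq l m p q * qq l m p q))) := by
    unfold c6T; ring
  rw [h1, fu_eq, fv_eq, faa_eq, fcc_eq]
  simp only [C6, C6p0, C6p1, C6p2, C6p3, C6p4, C6p5]
  linear_combination (-1)*(l^30*C6_cf0 p q + l^29*m*C6_cf1 p q + l^28*m^2*C6_cf2 p q + l^27*m^3*C6_cf3 p q + l^26*m^4*C6_cf4 p q + l^25*m^5*C6_cf5 p q + l^24*m^6*C6_cf6 p q + l^23*m^7*C6_cf7 p q + l^22*m^8*C6_cf8 p q + l^21*m^9*C6_cf9 p q + l^20*m^10*C6_cf10 p q + l^19*m^11*C6_cf11 p q + l^18*m^12*C6_cf12 p q + l^17*m^13*C6_cf13 p q + l^16*m^14*C6_cf14 p q + l^15*m^15*C6_cf15 p q + l^14*m^16*C6_cf16 p q + l^13*m^17*C6_cf17 p q + l^12*m^18*C6_cf18 p q + l^11*m^19*C6_cf19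 p q + l^10*m^20*C6_cf20 p q + l^9*m^21*C6_cf21 p q + l^8*m^22*C6_cf22 p q + l^7*m^23*C6_cf23 p q + l^6*m^24*C6_cf24 p q + l^5*m^25*C6_cf25 p q + l^4*m^26*C6_cf26 p q + l^3*m^27*C6_cf27 p q + l^2*m^28*C6_cf28 p q + l*m^29*C6_cf29 p q + m^30*C6_cf30 p q)

end Fermat.Agent.S52L.Ident
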