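import Fermat.Agent.S52.Ident4
import Fermat.Agent.S52.Ident6

/-!
# The polynomial identities for the 5-congruence family

* `Fermat.Agent.S52L.Ident.C4_T`
* `Fermat.Agent.S52L.Ident.C6_T`
-/
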