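import Mathlib

/-!
# No common zero of the forms `pp`, `qq` (S52, piece P1)
-/

set_option autoImplicit false

namespace Fermat.Agent.S52.Model

/-- `E5 = O5 = 0` forces `l = m = 0`. -/
theorem eq_zero_of_E5_O5 {k : Type*} [Field k] (h6 : (6 : k) ≠ 0) (h5 : (5 : k) ≠ 0)
    {L M' : k} (hE : L ^ 5 + 50 * L ^ 3 * M' ^ 2 + 125 * L * M' ^ 4 = 0)
    (hO : M' * (L ^ 4 + 10 * L ^ 2 * M' ^ 2 + 5 * M' ^ 4) = 0) : L = 0 ∧ M' = 0 := by
  have h2 : (2 : k) ≠ 0 := fun h => h6 (by linear_combination 3 * h)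
  have h80 : (80 : k) ≠ 0 := by
    have : (80 : k) = 2 ^ 4 * 5 := by norm_num
    rw [this]; exact mul_ne_zero (pow_ne_zero _ h2) h5
  rcases mul_eq_zero.1 hO with h | h
  · subst h
    refine ⟨?_, rfl⟩
    have : L ^ 5 = 0 := by linear_combination hE
    exact pow_eq_zero_iff (by norm_num) |>.1 this
  · by_cases hL : L = 0
    · subst hL
      refine ⟨rfl, ?_⟩
      have : 5 * M' ^ 4 = 0 := by linear_combination h
      exact pow_eq_zero_iff (by norm_num) |>.1 ((mul_eq_zero.1 this).resolve_left h5)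
    · have hE' : L ^ 4 + 50 * L ^ 2 * M' ^ 2 + 125 * M' ^ 4 = 0 := by
        apply mul_left_cancel₀ hL
        linear_combination hE
      have h24 : (8 : k) * L ^ 2 ≠ 0 := by
        have : (8 : k) = 2 ^ 3 := by norm_num
        rw [this]; exact mul_ne_zero (pow_ne_zero _ h2) (pow_ne_zero _ hL)
      have h3 : 3 * L ^ 2 + 25 * M' ^ 2 = 0 := by
        apply mul_left_cancel₀ h24
        linear_combination 25 * h - hE'
      -- `9 * (L⁴+10L²M'²+5M'⁴) = (3L²+25M'²)(3L²+5M'²) - 80 M'⁴`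
      have h4 : 80 * M' ^ 4 = 0 := by
        linear_combination (3 * L ^ 2 + 5 * M' ^ 2) * h3 - 9 * h
      have h5' : M' = 0 :=
        pow_eq_zero_iff (by norm_num) |>.1 ((mul_eq_zero.1 h4).resolve_left h80)
      subst h5'
      have h3' : (3 : k) ≠ 0 := fun h => h6 (by linear_combination 2 * h)
      have : 3 * L ^ 2 = 0 := by linear_combination h3
      exact absurd (pow_eq_zero_iff (by norm_num) |>.1 ((mul_eq_zero.1 this).resolve_left h3')) hL

end Fermat.Agent.S52.Model
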