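import Mathlib
import Fermat.Agent.S52.Ident
import Fermat.Agent.S52.Congr
import Fermat.Agent.S52.NonVanish

/-!
# The forms `C4` and `DD` (resp. `C4`, `C6`) have no common zero (S52, piece P1)
-/

set_option autoImplicit false

open WeierstrassCurve

namespace Fermat.Agent.S52.Model

open Fermat.Agent.S52L Fermat.Agent.S52T

section

variable {k : Type*} [Field k]

lemma c4f_eq_c4T (p q : k) : c4f p q = c4T p q := rfl

lemma c6f_eq_c6T (p q : k) : c6f p q = c6T p q := rfl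

/-- `c4T` and `c6T` have no common zero. -/
theorem eq_zero_of_c4T_c6T (h6 : (6 : k) ≠ 0) (h5 : (5 : k) ≠ 0) {p q : k}
    (h4 : c4T p q = 0) (h6' : c6T p q = 0) : p = 0 ∧ q = 0 := by
  have h2 : (2 : k) ≠ 0 := fun h => h6 (by linear_combination 3 * h)
  have h1728 : (1728 : k) ≠ 0 := by
    have : (1728 : k) = 6 ^ 3 * 2 ^ 3 := by norm_num
    rw [this]; exact mul_ne_zero (pow_ne_zero _ h6) (pow_ne_zero _ h2)
  have hd : dT p q = 0 := by
    have := c4T_cube_sub p q
    rw [h4, h6'] at this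
    have h' : 1728 * dT p q = 0 := by linear_combination -this
    exact (mul_eq_zero.1 h').resolve_left h1728
  unfold dT at hd
  unfold c4T at h4
  have key : ∀ {x : k} {n : ℕ}, n ≠ 0 → x ^ n = 0 → x = 0 := fun hn h =>
    (pow_eq_zero_iff hn).1 h
  rcases mul_eq_zero.1 hd with h | h
  · rcases mul_eq_zero.1 h with h | h
    · have hp := key (by norm_num) h
      subst hp
      exact ⟨rfl, key (n := 4) (by norm_num) (by linear_combination h4)⟩
    · have hq := key (by norm_num) h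
      subst hq
      exact ⟨key (n := 4) (by norm_num) (by linear_combination h4), rfl⟩
  · have h4' : 5 * (p ^ 3 * (p + 11 * q)) = 0 := by
      linear_combination h4 - (q ^ 2 - p * q + 4 * p ^ 2) * h
    rcases mul_eq_zero.1 ((mul_eq_zero.1 h4').resolve_left h5) with h' | h'
    · have hp := key (by norm_num) h'
      subst hp
      exact ⟨rfl, key (n := 2) (by norm_num) (by linear_combination h)⟩
    · have hp : p = -11 * q := by linear_combination h'
      subst hp
      have hq : q = 0 := key (n := 2) (by norm_num) (by linear_combination h)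
      subst hq
      simp

/-- `pp` and `qq` have no common zero. -/
theorem eq_zero_of_pp_qq (h6 : (6 : k) ≠ 0) (h5 : (5 : k) ≠ 0) {l m p q : k}
    (hd : dT p q ≠ 0) (hp : pp l m p q = 0) (hq : qq l m p q = 0) : l = 0 ∧ m = 0 := by
  have h2 : (2 : k) ≠ 0 := fun h => h6 (by linear_combination 3 * h)
  have hp0 : p ≠ 0 := by rintro rfl; apply hd; simp [dT]
  have hq0 : q ≠ 0 := by rintro rfl; apply hd; simp [dT]
  have hw : q ^ 2 - 11 * p * q - p ^ 2 ≠ 0 := by
    intro h; apply hd; rw [dT, h, mul_zero]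
  have h1 := (mul_eq_zero.1 hp).resolve_left hp0
  have h3 := (mul_eq_zero.1 hq).resolve_left hq0
  have hO : O5 l m p q = 0 := by
    have h12 : (12 : k) ≠ 0 := by
      have : (12 : k) = 6 * 2 := by norm_num
      rw [this]; exact mul_ne_zero h6 h2
    have : 12 * (q ^ 2 - 11 * p * q - p ^ 2) * O5 l m p q = 0 := by
      linear_combination h3 - h1
    exact (mul_eq_zero.1 this).resolve_left (mul_ne_zero h12 hw)
  have hE : E5 l m p q = 0 := by
    rw [hO] at h1
    linear_combination h1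
  have hE' : LL l m p q ^ 5 + 50 * LL l m p q ^ 3 * (6 * m * p * q) ^ 2
      + 125 * LL l m p q * (6 * m * p * q) ^ 4 = 0 := by
    rw [← hE, E5]; ring
  have hO' : (6 * m * p * q) * (LL l m p q ^ 4 + 10 * LL l m p q ^ 2 * (6 * m * p * q) ^ 2
      + 5 * (6 * m * p * q) ^ 4) = 0 := by
    have : (6 * m * p * q) * (LL l m p q ^ 4 + 10 * LL l m p q ^ 2 * (6 * m * p * q) ^ 2
      + 5 * (6 * m * p * q) ^ 4) = 6 * p * q * O5 l m p q := by
      rw [O5]; ring
    rw [this, hO, mul_zero]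
  obtain ⟨hL, hm⟩ := eq_zero_of_E5_O5 h6 h5 hE' hO'
  have hm0 : m = 0 := by
    have : 6 * p * q * m = 0 := by linear_combination hm
    exact (mul_eq_zero.1 this).resolve_left (mul_ne_zero (mul_ne_zero h6 hp0) hq0)
  subst hm0
  refine ⟨?_, rfl⟩
  rw [LL] at hL
  linear_combination hL

/-- `C4` and `C6` have no common zero, when `(a,b)` comes from a Tate parameter. -/
theorem eq_zero_of_C4_C6_T (h6 : (6 : k) ≠ 0) (h5 : (5 : k) ≠ 0) {l m p q : k}
    (hd : dT p q ≠ 0) (h4 : C4 l m (c4T p q) (c6T p q) = 0)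
    (h6' : C6 l m (c4T p q) (c6T p q) = 0) : l = 0 ∧ m = 0 := by
  rw [Ident.C4_T] at h4
  rw [Ident.C6_T] at h6'
  obtain ⟨hp, hq⟩ := eq_zero_of_c4T_c6T h6 h5 h4 h6'
  exact eq_zero_of_pp_qq h6 h5 hd hp hq

/-- Existence of Tate parameters. -/
theorem exists_T [DecidableEq k] [IsAlgClosed k] (h6 : (6 : k) ≠ 0) (h5 : (5 : k) ≠ 0) {a b : k}
    (hab : a ^ 3 ≠ b ^ 2) : ∃ p q : k, c4T p q = a ∧ c6T p q = b ∧ dT p q ≠ 0 := by
  set h : k := 6⁻¹ with hh
  have hh' : 6 * h = 1 := mul_inv_cancel₀ h6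
  set W := withC h 0 0 0 a b with hW
  have h4 : W.c₄ = a := withC_c₄ hh' _ _ _ _ _
  have h6'' : W.c₆ = b := withC_c₆ hh' _ _ _ _ _
  have hΔ : W.Δ ≠ 0 := by
    intro h0
    have := W.c_relation
    rw [h0, h4, h6''] at this
    apply hab
    linear_combination -this
  obtain ⟨P, hP, h5P⟩ := exists_five_torsion h5 W hΔ
  obtain ⟨p, q, hpq, -⟩ := exists_param hΔ h6 P hP h5P
  refine ⟨p, q, ?_, ?_, ?_⟩
  · rw [← c4f_eq_c4T, ← hpq.c4, h4]
  · rw [← c6f_eq_c6T, ← hpq.c6, h6'']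
  · intro h0
    have := c4T_cube_sub p q
    rw [h0, ← c4f_eq_c4T, ← hpq.c4, h4, ← c6f_eq_c6T, ← hpq.c6, h6''] at this
    apply hab
    linear_combination this

/-- `C4` and `C6` have no common zero. -/
theorem eq_zero_of_C4_C6 [IsAlgClosed k] (h6 : (6 : k) ≠ 0) (h5 : (5 : k) ≠ 0) {l m a b : k}
    (hab : a ^ 3 ≠ b ^ 2) (h4 : C4 l m a b = 0) (h6' : C6 l m a b = 0) : l = 0 ∧ m = 0 := by
  classical
  obtain ⟨p, q, rfl, rfl, hd⟩ := exists_T h6 h5 hab
  exact eq_zero_of_C4_C6_T h6 h5 hd h4 h6'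

end

/-- The discriminant identity, Tate form, over any ring. -/
theorem C4_cube_sub_T {R : Type*} [CommRing R] (l m p q : R) :
    C4 l m (c4T p q) (c6T p q) ^ 3 - C6 l m (c4T p q) (c6T p q) ^ 2 =
      (c4T p q ^ 3 - c6T p q ^ 2) * DD l m (c4T p q) (c6T p q) ^ 5 := by
  rw [Ident.C4_T, Ident.C6_T, c4T_cube_sub, dT_pp_qq, c4T_cube_sub]
  ring

end Fermat.Agent.S52.Model
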