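import Mathlib

/-!
# The explicit family of elliptic curves with constant mod 5 representation
(Rubin--Silverberg, Fisher), in terms of the invariants `a = c₄`, `b = c₆`.

`pp l m p q`, `qq l m p q` are the parameters of the Tate normal form of the member `(l : m)` of
the family through the Tate curve with parameters `p, q`.
-/

set_option autoImplicit false
set_option linter.unusedVariables false

namespace Fermat.Agent.S52L

section Forms

variable {R : Type*} [CommRing R]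

/-- `c₄` of the Tate normal form `y² + (p-q)xy - p²q y = x³ - pq x²`. -/
def c4T (p q : R) : R := p^4 + 12*p^3*q + 14*p^2*q^2 - 12*p*q^3 + q^4

/-- `c₆` of the Tate normal form `y² + (p-q)xy - p²q y = x³ - pq x²`. -/
def c6T (p q : R) : R :=
  -(p^6 + 18*p^5*q + 75*p^4*q^2 + 75*p^2*q^4 - 18*p*q^5 + q^6)

/-- `Δ` of the Tate normal form `y² + (p-q)xy - p²q y = x³ - pq x²`. -/
def dT (p q : R) : R := p^5*q^5*(q^2 - 11*p*q - p^2)

/-- auxiliary linear form -/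
def LL (l m p q : R) : R := l + m*(p^2+q^2)

def E5 (l m p q : R) : R :=
  LL l m p q^5 + 10*LL l m p q^3*m^2*(180*p^2*q^2) + 5*LL l m p q*m^4*(180*p^2*q^2)^2

def O5 (l m p q : R) : R :=
  LL l m p q^4*m + 2*LL l m p q^2*m^3*(180*p^2*q^2) + m^5*(6480*p^4*q^4)

def pp (l m p q : R) : R := p*(E5 l m p q + 6*q*(11*p-2*q)*O5 l m p q)

def qq (l m p q : R) : R := q*(E5 l m p q - 6*p*(2*p+11*q)*O5 l m p q)

def DD_0 (a b : R) : R := 1

def DD_2 (a b : R) : R := (-66)*a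

def DD_3 (a b : R) : R := 440*b

def DD_4 (a b : R) : R := (-1485)*a^2

def DD_5 (a b : R) : R := 3168*a*b

def DD_6 (a b : R) : R := (-10560)*b^2 + 5940*a^3

def DD_7 (a b : R) : R := 4752*a^2*b

def DD_8 (a b : R) : R := 63360*a*b^2 + (-66825)*a^4

def DD_9 (a b : R) : R := (-140800)*b^3 + 142560*a^3*b

def DD_10 (a b : R) : R := 133056*a^2*b^2 + (-133650)*a^5

def DD_11 (a b : R) : R := (-61440)*a*b^3 + 61560*a^4*b

def DD_12 (a b : R) : R := 102400*b^4 + (-193536)*a^3*b^2 + 91125*a^6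

def DDp0 (l m a b : R) : R :=
    l^12*DD_0 a b + l^10*m^2*DD_2 a b + l^9*m^3*DD_3 a b + l^8*m^4*DD_4 a b + l^7*m^5*DD_5 a b + l^6*m^6*DD_6 a b

def DDp1 (l m a b : R) : R :=
    l^5*m^7*DD_7 a b + l^4*m^8*DD_8 a b + l^3*m^9*DD_9 a b + l^2*m^10*DD_10 a b + l*m^11*DD_11 a b + m^12*DD_12 a b

/-- the form `DD(λ, μ)` -/
def DD (l m a b : R) : R :=
    DDp0 l m a b + DDp1 l m a b


def C4_0 (a b : R) : R := a

def C4_1 (a b : R) : R := (-20)*b

def C4_2 (a b : R) : R := 190*a^2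

def C4_3 (a b : R) : R := (-1140)*a*b

def C4_4 (a b : R) : R := 5700*b^2 + (-855)*a^3

def C4_5 (a b : R) : R := (-15504)*a^2*b

def C4_6 (a b : R) : R := (-63840)*a*b^2 + 102600*a^4

def C4_7 (a b : R) : R := 182400*b^3 + (-259920)*a^3*b

def C4_8 (a b : R) : R := 1126320*a^2*b^2 + (-1000350)*a^5

def C4_9 (a b : R) : R := (-7904000)*a*b^3 + 7736040*a^4*b

def C4_10 (a b : R) : R := 15808000*b^4 + (-5619744)*a^3*b^2 + (-10003500)*a^6

def C4_11 (a b : R) : R := (-54853760)*a^2*b^3 + 54685800*a^5*b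

def C4_12 (a b : R) : R := 37939200*a*b^4 + 7202520*a^4*b^2 + (-45015750)*a^7

def C4_13 (a b : R) : R := (-58368000)*b^5 + 23201280*a^3*b^3 + 35089200*a^6*b

def C4_14 (a b : R) : R := 287462400*a^2*b^4 + (-495188640)*a^5*b^2 + 207765000*a^8

def C4_15 (a b : R) : R := (-466944000)*a*b^5 + 882458496*a^4*b^3 + (-415530000)*a^7*b

def C4_16 (a b : R) : R := 583680000*b^6 + (-1220474880)*a^3*b^4 + 714711600*a^6*b^2 + (-77911875)*a^9

def C4_17 (a b : R) : R := (-361881600)*a^2*b^5 + 715080960*a^5*b^3 + (-353200500)*a^8*b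

def C4_18 (a b : R) : R := (-622592000)*a*b^6 + 2026391040*a^4*b^4 + (-2182917600)*a^7*b^2 + 779118750*a^10

def C4_19 (a b : R) : R := 655360000*b^7 + (-2005401600)*a^3*b^5 + 2044414080*a^6*b^3 + (-694372500)*a^9*b

def C4_20 (a b : R) : R := (-180224000)*a^2*b^6 + 544997376*a^5*b^4 + (-549301500)*a^8*b^2 + 184528125*a^11

def C4p0 (l m a b : R) : R :=
    l^20*C4_0 a b + l^19*m*C4_1 a b + l^18*m^2*C4_2 a b + l^17*m^3*C4_3 a b + l^16*m^4*C4_4 a b + l^15*m^5*C4_5 a b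

def C4p1 (l m a b : R) : R :=
    l^14*m^6*C4_6 a b + l^13*m^7*C4_7 a b + l^12*m^8*C4_8 a b + l^11*m^9*C4_9 a b + l^10*m^10*C4_10 a b + l^9*m^11*C4_11 a b

def C4p2 (l m a b : R) : R :=
    l^8*m^12*C4_12 a b + l^7*m^13*C4_13 a b + l^6*m^14*C4_14 a b + l^5*m^15*C4_15 a b + l^4*m^16*C4_16 a b + l^3*m^17*C4_17 a b

def C4p3 (l m a b : R) : R :=
    l^2*m^18*C4_18 a b + l*m^19*C4_19 a b + m^20*C4_20 a b

/-- the form `C4(λ, μ)` -/
def C4 (l m a b : R) : R :=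
    C4p0 l m a b + C4p1 l m a b + C4p2 l m a b + C4p3 l m a b


def C6_0 (a b : R) : R := b

def C6_1 (a b : R) : R := (-30)*a^2

def C6_2 (a b : R) : R := 435*a*b

def C6_3 (a b : R) : R := (-2900)*b^2 + (-1160)*a^3

def C6_4 (a b : R) : R := 27405*a^2*b

def C6_5 (a b : R) : R := (-46980)*a*b^2 + (-95526)*a^4

def C6_6 (a b : R) : R := 156600*b^3 + 437175*a^3*b

def C6_7 (a b : R) : R := (-3915000)*a^2*b^2 + 1879200*a^5

def C6_8 (a b : R) : R := 14407200*a*b^3 + (-8554275)*a^4*b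

def C6_9 (a b : R) : R := (-32016000)*b^4 + 42021000*a^3*b^2 + (-24312150)*a^6

def C6_10 (a b : R) : R := (-216588240)*a^2*b^3 + 246633255*a^5*b

def C6_11 (a b : R) : R := 1459929600*a*b^4 + (-1352475900)*a^4*b^2 + (-162081000)*a^7

def C6_12 (a b : R) : R := (-2433216000)*b^5 + (-1612005600)*a^3*b^3 + 4131714825*a^6*b

def C6_13 (a b : R) : R := 12044419200*a^2*b^4 + (-5235216300)*a^5*b^2 + (-6928962750)*a^8

def C6_14 (a b : R) : R := (-43045111800)*a^4*b^3 + 43190534475*a^7*b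

def C6_15 (a b : R) : R := 79420170240*a^3*b^4 + (-79575287760)*a^6*b^2

def C6_16 (a b : R) : R := (-297825638400)*a^2*b^5 + 474659611200*a^5*b^3 + (-176688550125)*a^8*b

def C6_17 (a b : R) : R := 700766208000*a*b^6 + (-935084908800)*a^4*b^4 + (-77604382800)*a^7*b^2 + 311803323750*a^10

def C6_18 (a b : R) : R := (-778629120000)*b^7 + (-303665356800)*a^3*b^5 + 2776512362400*a^6*b^3 + (-1694131392375)*a^9*b

def C6_19 (a b : R) : R := 4290656256000*a^2*b^6 + (-8100765158400)*a^5*b^4 + 3481840250100*a^8*b^2 + 328214025000*a^11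

def C6_20 (a b : R) : R := (-3442360320000)*a*b^7 + 3892110842880*a^4*b^5 + 2424887357760*a^7*b^3 + (-2874607835625)*a^10*b

def C6_21 (a b : R) : R := 3278438400000*b^8 + (-5125838438400)*a^3*b^6 + 2709129888000*a^6*b^4 + (-3077188825500)*a^9*b^2 + 2215444668750*a^12

def C6_22 (a b : R) : R := (-4573421568000)*a^2*b^7 + 7701051801600*a^5*b^5 + (-1724509423800)*a^8*b^3 + (-1403114956875)*a^11*b

def C6_23 (a b : R) : R := (-6157762560000)*a*b^8 + 30337884979200*a^4*b^6 + (-49888700928000)*a^7*b^4 + 33414470973000*a^10*b^2 + (-7705894500000)*a^13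

def C6_24 (a b : R) : R := 5131468800000*b^9 + (-22779445248000)*a^3*b^7 + 35246094796800*a^6*b^5 + (-22687218914400)*a^9*b^3 + 5089101159375*a^12*b

def C6_25 (a b : R) : R := 18216714240000*a^2*b^8 + (-71274600677376)*a^5*b^6 + 105528606261120*a^8*b^4 + (-70097953635000)*a^11*b^2 + 17627233668750*a^14

def C6_26 (a b : R) : R := (-41051750400000)*a*b^9 + 163803539865600*a^4*b^7 + (-245438120632320)*a^7*b^5 + 163672057566000*a^10*b^3 + (-40985726371875)*a^13*b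

def C6_27 (a b : R) : R := 30408704000000*b^10 + (-111934439424000)*a^3*b^8 + 143803576074240*a^6*b^6 + (-63806176396800)*a^9*b^4 + (-8104032382500)*a^12*b^2 + 9632368125000*a^15

def C6_28 (a b : R) : R := (-21438136320000)*a^2*b^9 + 85731449241600*a^5*b^7 + (-128580522647040)*a^8*b^5 + 85719228804000*a^11*b^3 + (-21432019078125)*a^14*b

def C6_29 (a b : R) : R := (-5033164800000)*a*b^10 + 31344427008000*a^4*b^8 + (-75042714746880)*a^7*b^6 + 87394892457600*a^10*b^4 + (-49873523512500)*a^13*b^2 + 11210083593750*a^16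

def C6_30 (a b : R) : R := 3355443200000*b^11 + (-17532190720000)*a^3*b^9 + 36574189977600*a^6*b^7 + (-38083944628224)*a^9*b^5 + 19796866155000*a^12*b^3 + (-4110363984375)*a^15*b

def C6p0 (l m a b : R) : R :=
    l^30*C6_0 a b + l^29*m*C6_1 a b + l^28*m^2*C6_2 a b + l^27*m^3*C6_3 a b + l^26*m^4*C6_4 a b + l^25*m^5*C6_5 a b

def C6p1 (l m a b : R) : R :=
    l^24*m^6*C6_6 a b + l^23*m^7*C6_7 a b + l^22*m^8*C6_8 a b + l^21*m^9*C6_9 a b + l^20*m^10*C6_10 a b + l^19*m^11*C6_11 a b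

def C6p2 (l m a b : R) : R :=
    l^18*m^12*C6_12 a b + l^17*m^13*C6_13 a b + l^16*m^14*C6_14 a b + l^15*m^15*C6_15 a b + l^14*m^16*C6_16 a b + l^13*m^17*C6_17 a b

def C6p3 (l m a b : R) : R :=
    l^12*m^18*C6_18 a b + l^11*m^19*C6_19 a b + l^10*m^20*C6_20 a b + l^9*m^21*C6_21 a b + l^8*m^22*C6_22 a b + l^7*m^23*C6_23 a b

def C6p4 (l m a b : R) : R :=
    l^6*m^24*C6_24 a b + l^5*m^25*C6_25 a b + l^4*m^26*C6_26 a b + l^3*m^27*C6_27 a b + l^2*m^28*C6_28 a b + l*m^29*C6_29 a b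

def C6p5 (l m a b : R) : R :=
    m^30*C6_30 a b

/-- the form `C6(λ, μ)` -/
def C6 (l m a b : R) : R :=
    C6p0 l m a b + C6p1 l m a b + C6p2 l m a b + C6p3 l m a b + C6p4 l m a b + C6p5 l m a b


theorem c4T_cube_sub (p q : R) : c4T p q^3 - c6T p q^2 = 1728 * dT p q := by
  unfold c4T c6T dT; ring

set_option maxHeartbeats 4000000 in
theorem DD_T (l m p q : R) : DD l m (c4T p q) (c6T p q) =
    (E5 l m p q + 6*q*(11*p-2*q)*O5 l m p q) * (E5 l m p q - 6*p*(2*p+11*q)*O5 l m p q) *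
      (LL l m p q^2 - m^2*(180*p^2*q^2)) := by
  simp only [DD, DD_0, DD_2, DD_3, DD_4, DD_5, DD_6, DD_7, DD_8, DD_9, DD_10, DD_11, DD_12, DDp0, DDp1]
  unfold c4T c6T E5 O5 LL
  ring

/-- auxiliary identity, with `L, G` atoms -/
theorem aux_pp_qq (L m p q : R) :
    (q * (L^5 + 10*L^3*m^2*(180*p^2*q^2) + 5*L*m^4*(180*p^2*q^2)^2
        - 6*p*(2*p+11*q)*(L^4*m + 2*L^2*m^3*(180*p^2*q^2) + m^5*(6480*p^4*q^4))))^2
    - 11*(p * (L^5 + 10*L^3*m^2*(180*p^2*q^2) + 5*L*m^4*(180*p^2*q^2)^2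
        + 6*q*(11*p-2*q)*(L^4*m + 2*L^2*m^3*(180*p^2*q^2) + m^5*(6480*p^4*q^4))))
      *(q * (L^5 + 10*L^3*m^2*(180*p^2*q^2) + 5*L*m^4*(180*p^2*q^2)^2
        - 6*p*(2*p+11*q)*(L^4*m + 2*L^2*m^3*(180*p^2*q^2) + m^5*(6480*p^4*q^4))))
    - (p * (L^5 + 10*L^3*m^2*(180*p^2*q^2) + 5*L*m^4*(180*p^2*q^2)^2
        + 6*q*(11*p-2*q)*(L^4*m + 2*L^2*m^3*(180*p^2*q^2) + m^5*(6480*p^4*q^4))))^2 =
      (q^2 - 11*p*q - p^2) * (L^2 - m^2*(180*p^2*q^2))^5 := by
  ring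

/-- the discriminant of the member `(l : m)` -/
theorem dT_pp_qq (l m p q : R) : dT (pp l m p q) (qq l m p q) =
    dT p q * DD l m (c4T p q) (c6T p q) ^ 5 := by
  have h : (qq l m p q)^2 - 11*pp l m p q*qq l m p q - (pp l m p q)^2 =
      (q^2 - 11*p*q - p^2) * (LL l m p q^2 - m^2*(180*p^2*q^2))^5 := by
    unfold pp qq E5 O5
    exact aux_pp_qq _ _ _ _
  rw [DD_T]
  unfold dT
  rw [h]
  unfold pp qq
  generalize E5 l m p q + 6*q*(11*p-2*q)*O5 l m p q = x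
  generalize E5 l m p q - 6*p*(2*p+11*q)*O5 l m p q = y
  generalize LL l m p q^2 - m^2*(180*p^2*q^2) = z
  ring

end Forms

end Fermat.Agent.S52L
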