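import Mathlib
import Fermat.Agent.S52.Family

/-!
# Polynomial properties of the forms `C4`, `C6`, `DD` (S52, piece P1)
-/

set_option autoImplicit false

namespace Fermat.Agent.S52.Model

open Fermat.Agent.S52L Polynomial

section coef

variable {R : Type*} [CommRing R]

def cf4 (a b : R) : ℕ → R
  | 0 => C4_0 a b
  | 1 => C4_1 a b
  | 2 => C4_2 a b
  | 3 => C4_3 a b
  | 4 => C4_4 a b
  | 5 => C4_5 a b
  | 6 => C4_6 a b
  | 7 => C4_7 a b
  | 8 => C4_8 a b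
  | 9 => C4_9 a b
  | 10 => C4_10 a b
  | 11 => C4_11 a b
  | 12 => C4_12 a b
  | 13 => C4_13 a b
  | 14 => C4_14 a b
  | 15 => C4_15 a b
  | 16 => C4_16 a b
  | 17 => C4_17 a b
  | 18 => C4_18 a b
  | 19 => C4_19 a b
  | 20 => C4_20 a b
  | _ => 0

def cf6 (a b : R) : ℕ → R
  | 0 => C6_0 a b
  | 1 => C6_1 a b
  | 2 => C6_2 a b
  | 3 => C6_3 a b
  | 4 => C6_4 a b
  | 5 => C6_5 a b
  | 6 => C6_6 a b
  | 7 => C6_7 a b
  | 8 => C6_8 a b
  | 9 => C6_9 a b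
  | 10 => C6_10 a b
  | 11 => C6_11 a b
  | 12 => C6_12 a b
  | 13 => C6_13 a b
  | 14 => C6_14 a b
  | 15 => C6_15 a b
  | 16 => C6_16 a b
  | 17 => C6_17 a b
  | 18 => C6_18 a b
  | 19 => C6_19 a b
  | 20 => C6_20 a b
  | 21 => C6_21 a b
  | 22 => C6_22 a b
  | 23 => C6_23 a b
  | 24 => C6_24 a b
  | 25 => C6_25 a b
  | 26 => C6_26 a b
  | 27 => C6_27 a b
  | 28 => C6_28 a b
  | 29 => C6_29 a b
  | 30 => C6_30 a b
  | _ => 0

def cfD (a b : R) : ℕ → R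
  | 0 => DD_0 a b
  | 2 => DD_2 a b
  | 3 => DD_3 a b
  | 4 => DD_4 a b
  | 5 => DD_5 a b
  | 6 => DD_6 a b
  | 7 => DD_7 a b
  | 8 => DD_8 a b
  | 9 => DD_9 a b
  | 10 => DD_10 a b
  | 11 => DD_11 a b
  | 12 => DD_12 a b
  | _ => 0

theorem C4_eq_sum (l m a b : R) :
    C4 l m a b = ∑ j ∈ Finset.range 21, l ^ (20 - j) * m ^ j * cf4 a b j := by
  simp only [Finset.sum_range_succ, Finset.sum_range_zero, cf4, C4, C4p0, C4p1, C4p2, C4p3]
  ring

theorem C6_eq_sum (l m a b : R) :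
    C6 l m a b = ∑ j ∈ Finset.range 31, l ^ (30 - j) * m ^ j * cf6 a b j := by
  simp only [Finset.sum_range_succ, Finset.sum_range_zero, cf6, C6, C6p0, C6p1, C6p2, C6p3, C6p4,
    C6p5]
  ring

theorem DD_eq_sum (l m a b : R) :
    DD l m a b = ∑ j ∈ Finset.range 13, l ^ (12 - j) * m ^ j * cfD a b j := by
  simp only [Finset.sum_range_succ, Finset.sum_range_zero, cfD, DD, DDp0, DDp1]
  ring

theorem map_C4 {S : Type*} [CommRing S] (f : R →+* S) (l m a b : R) :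
    f (C4 l m a b) = C4 (f l) (f m) (f a) (f b) := by
  simp only [C4, C4p0, C4p1, C4p2, C4p3, C4_0, C4_1, C4_2, C4_3, C4_4, C4_5, C4_6, C4_7, C4_8, C4_9, C4_10, C4_11, C4_12, C4_13, C4_14, C4_15, C4_16, C4_17, C4_18, C4_19, C4_20, map_add, map_mul, map_pow, map_ofNat,
    map_neg]

theorem map_C6 {S : Type*} [CommRing S] (f : R →+* S) (l m a b : R) :
    f (C6 l m a b) = C6 (f l) (f m) (f a) (f b) := by
  simp only [C6, C6p0, C6p1, C6p2, C6p3, C6p4, C6p5, C6_0, C6_1, C6_2, C6_3, C6_4, C6_5, C6_6, C6_7, C6_8, C6_9, C6_10, C6_11, C6_12, C6_13, C6_14, C6_15, C6_16, C6_17, C6_18, C6_19, C6_20, C6_21, C6_22, C6_23, C6_24, C6_25, C6_26, C6_27, C6_28, C6_29, C6_30, map_add, map_mul, map_pow,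
    map_ofNat, map_neg]

theorem map_DD {S : Type*} [CommRing S] (f : R →+* S) (l m a b : R) :
    f (DD l m a b) = DD (f l) (f m) (f a) (f b) := by
  simp only [DD, DDp0, DDp1, DD_0, DD_2, DD_3, DD_4, DD_5, DD_6, DD_7, DD_8, DD_9, DD_10, DD_11, DD_12, map_add, map_mul, map_pow, map_ofNat, map_neg,
    map_one]

theorem map_cf4 {S : Type*} [CommRing S] (f : R →+* S) (a b : R) (j : ℕ) :
    f (cf4 a b j) = cf4 (f a) (f b) j := by
  unfold cf4
  split <;> simp only [C4_0, C4_1, C4_2, C4_3, C4_4, C4_5, C4_6, C4_7, C4_8, C4_9, C4_10, C4_11, C4_12, C4_13, C4_14, C4_15, C4_16, C4_17, C4_18, C4_19, C4_20, map_add, map_mul, map_pow, map_ofNat, map_neg, map_zero]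

theorem map_cf6 {S : Type*} [CommRing S] (f : R →+* S) (a b : R) (j : ℕ) :
    f (cf6 a b j) = cf6 (f a) (f b) j := by
  unfold cf6
  split <;> simp only [C6_0, C6_1, C6_2, C6_3, C6_4, C6_5, C6_6, C6_7, C6_8, C6_9, C6_10, C6_11, C6_12, C6_13, C6_14, C6_15, C6_16, C6_17, C6_18, C6_19, C6_20, C6_21, C6_22, C6_23, C6_24, C6_25, C6_26, C6_27, C6_28, C6_29, C6_30, map_add, map_mul, map_pow, map_ofNat, map_neg, map_zero]

theorem map_cfD {S : Type*} [CommRing S] (f : R →+* S) (a b : R) (j : ℕ) :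
    f (cfD a b j) = cfD (f a) (f b) j := by
  unfold cfD
  split <;> simp only [DD_0, DD_2, DD_3, DD_4, DD_5, DD_6, DD_7, DD_8, DD_9, DD_10, DD_11, DD_12, map_add, map_mul, map_pow, map_ofNat, map_neg, map_zero,
    map_one]

theorem C4_one_zero (a b : R) : C4 1 0 a b = a := by
  simp [C4, C4p0, C4p1, C4p2, C4p3, C4_0]

theorem C6_one_zero (a b : R) : C6 1 0 a b = b := by
  simp [C6, C6p0, C6p1, C6p2, C6p3, C6p4, C6p5, C6_0]

/-- first derivative of `DD` with respect to the first variable -/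
def DDl (l m a b : R) : R :=
  ∑ j ∈ Finset.range 13, ((12 - j : ℕ) : R) * l ^ (12 - j - 1) * m ^ j * cfD a b j

/-- second derivative of `DD` with respect to the first variable -/
def DDll (l m a b : R) : R :=
  ∑ j ∈ Finset.range 13, ((12 - j : ℕ) : R) * ((12 - j - 1 : ℕ) : R) * l ^ (12 - j - 2) * m ^ j *
    cfD a b j

theorem DDl_def (l m a b : R) : DDl l m a b =
    ∑ j ∈ Finset.range 13, ((12 - j : ℕ) : R) * l ^ (12 - j - 1) * m ^ j * cfD a b j := rfl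

set_option maxHeartbeats 4000000 in
/-- `C4` is the Hessian of `DD`. -/
theorem hessian (l m a b : R) :
    12 * DD l m a b * DDll l m a b - 11 * DDl l m a b ^ 2 = -1584 * m ^ 2 * C4 l m a b := by
  simp only [DDl, DDll, Finset.sum_range_succ, Finset.sum_range_zero, cfD, DD, DDp0, DDp1,
    DD_0, DD_2, DD_3, DD_4, DD_5, DD_6, DD_7, DD_8, DD_9, DD_10, DD_11, DD_12, C4, C4p0, C4p1, C4p2, C4p3, C4_0, C4_1, C4_2, C4_3, C4_4, C4_5, C4_6, C4_7, C4_8, C4_9, C4_10, C4_11, C4_12, C4_13, C4_14, C4_15, C4_16, C4_17, C4_18, C4_19, C4_20]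
  push_cast
  ring

end coef

end Fermat.Agent.S52.Model
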