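import Mathlib

set_option autoImplicit false
set_option maxHeartbeats 400000

namespace Fermat.Agent.S52H

open Polynomial Filter Topology

/-- The quartic family. -/
noncomputable def qG (A B : ℝ[X]) (s ξ : ℝ) : ℝ :=
  ξ ^ 4 - 6 * A.eval s * ξ ^ 2 - 8 * B.eval s * ξ - 3 * (A.eval s) ^ 2

theorem qG_deriv_ne_zero (A B : ℝ[X]) (h0 : (A.eval 0) ^ 3 ≠ (B.eval 0) ^ 2) (ξ : ℝ)
    (hξ : qG A B 0 ξ = 0) : 4 * ξ ^ 3 - 12 * A.eval 0 * ξ - 8 * B.eval 0 ≠ 0 := by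
  intro h
  unfold qG at hξ
  set a := A.eval 0
  set b := B.eval 0
  have h1 : (ξ ^ 2 - a) ^ 2 = 0 := by linear_combination (-1 / 3) * hξ + ξ / 3 * h
  have h2 : ξ ^ 2 = a := by
    have := pow_eq_zero_iff (two_ne_zero) |>.1 h1
    linarith
  have h3 : b = - ξ ^ 3 := by
    have : 8 * b = 4 * ξ ^ 3 - 12 * a * ξ := by linear_combination -h
    rw [← h2] at this
    linarith
  apply h0
  rw [← h2, h3]
  ring

/-- Formal (truncated) Newton branches. -/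
theorem exists_branch (A B : ℝ[X]) (h0 : (A.eval 0) ^ 3 ≠ (B.eval 0) ^ 2) (ξ : ℝ)
    (hξ : qG A B 0 ξ = 0) (K : ℕ) :
    ∃ P : ℝ[X], P.natDegree ≤ K ∧ P.eval 0 = ξ ∧
      X ^ (K + 1) ∣ P ^ 4 - 6 * A * P ^ 2 - 8 * B * P - 3 * A ^ 2 := by
  induction K with
  | zero =>
    refine ⟨C ξ, by simp, by simp, ?_⟩
    rw [zero_add, pow_one, X_dvd_iff, coeff_zero_eq_eval_zero]
    simpa [qG] using hξ
  | succ K ih =>
    obtain ⟨P, hP1, hP2, g, hg⟩ := ih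
    set c : ℝ := - g.eval 0 / (4 * ξ ^ 3 - 12 * A.eval 0 * ξ - 8 * B.eval 0) with hc
    have hne := qG_deriv_ne_zero A B h0 ξ hξ
    refine ⟨P + C c * X ^ (K + 1), ?_, ?_, ?_⟩
    · refine (natDegree_add_le _ _).trans (max_le (by omega) ?_)
      exact natDegree_C_mul_X_pow_le _ _
    · simp [hP2]
    · have e : (P + C c * X ^ (K + 1)) ^ 4 - 6 * A * (P + C c * X ^ (K + 1)) ^ 2
          - 8 * B * (P + C c * X ^ (K + 1)) - 3 * A ^ 2 = X ^ (K + 1) *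
          (g + C c * (4 * P ^ 3 - 12 * A * P - 8 * B) + X ^ (K + 1) * ((C c) ^ 2 *
            (6 * P ^ 2 + 4 * P * (C c * X ^ (K + 1)) + (C c * X ^ (K + 1)) ^ 2 - 6 * A))) := by
        linear_combination hg
      rw [e, pow_succ X (K + 1)]
      refine mul_dvd_mul_left _ ?_
      rw [X_dvd_iff, coeff_zero_eq_eval_zero]
      have h4 : eval 0 (4 : ℝ[X]) = 4 := by
        have : (4 : ℝ[X]) = C 4 := rfl
        rw [this, eval_C]
      have h8 : eval 0 (8 : ℝ[X]) = 8 := by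
        have : (8 : ℝ[X]) = C 8 := rfl
        rw [this, eval_C]
      have h12 : eval 0 (12 : ℝ[X]) = 12 := by
        have : (12 : ℝ[X]) = C 12 := rfl
        rw [this, eval_C]
      simp only [eval_add, eval_mul, eval_sub, eval_pow, eval_C, eval_X, hP2, h4, h8, h12]
      rw [zero_pow (Nat.succ_ne_zero K), zero_mul, add_zero, hc, div_mul_cancel₀ _ hne]
      ring

theorem continuous_qG (A B : ℝ[X]) : Continuous (fun p : ℝ × ℝ => qG A B p.1 p.2) := by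
  unfold qG
  have hA := A.continuous
  have hB := B.continuous
  fun_prop

theorem qG_limit (A B : ℝ[X]) (x' : ℝ) (w : ℕ → ℝ × ℝ) (hw : Tendsto w atTop (𝓝 ((0 : ℝ), x')))
    (h : ∀ n, qG A B (w n).1 (w n).2 = 0) : qG A B 0 x' = 0 := by
  have hclosed : IsClosed {p : ℝ × ℝ | qG A B p.1 p.2 = 0} :=
    isClosed_eq (continuous_qG A B) continuous_const
  exact hclosed.mem_of_tendsto hw (Filter.Eventually.of_forall h)

/-- Roots near `s = 0` are close to roots at `s = 0`. -/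
theorem eventually_close (A B : ℝ[X]) (r : ℝ) (hr : 0 < r) :
    ∀ᶠ s in 𝓝 (0 : ℝ), ∀ ξ : ℝ, qG A B s ξ = 0 → ∃ ξ₀ : ℝ, qG A B 0 ξ₀ = 0 ∧ |ξ - ξ₀| < r := by
  by_contra hcon
  rw [Filter.not_eventually] at hcon
  -- extract a sequence
  obtain ⟨u, hu, hP⟩ := Filter.exists_seq_forall_of_frequently hcon
  push Not at hP
  choose x hx hfar using hP
  -- boundedness
  have hcont : Continuous (fun s : ℝ => |A.eval s| + |B.eval s|) := by
    exact ((A.continuous).abs).add ((B.continuous).abs)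
  obtain ⟨M, hM⟩ : ∃ M : ℝ, ∀ n, |A.eval (u n)| + |B.eval (u n)| ≤ M := by
    have h1 : Tendsto (fun n => |A.eval (u n)| + |B.eval (u n)|) atTop
        (𝓝 (|A.eval 0| + |B.eval 0|)) := (hcont.tendsto 0).comp hu
    obtain ⟨M, hM⟩ := h1.bddAbove_range
    exact ⟨M, fun n => hM ⟨n, rfl⟩⟩
  have hM0 : 0 ≤ M := (add_nonneg (abs_nonneg _) (abs_nonneg _)).trans (hM 0)
  have hbd : ∀ n, |x n| ≤ 1 + 14 * M + 3 * M ^ 2 := by
    intro n
    by_contra hlt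
    push Not at hlt
    have hx1 : 1 ≤ |x n| := by linarith [sq_nonneg M]
    have hA : |A.eval (u n)| ≤ M := by linarith [hM n, abs_nonneg (B.eval (u n))]
    have hB : |B.eval (u n)| ≤ M := by linarith [hM n, abs_nonneg (A.eval (u n))]
    have h1 := hx n
    unfold qG at h1
    have h2 : (x n) ^ 4 = 6 * A.eval (u n) * (x n) ^ 2 + 8 * B.eval (u n) * (x n)
        + 3 * (A.eval (u n)) ^ 2 := by linarith
    have h3 : |x n| ^ 4 ≤ 6 * M * |x n| ^ 2 + 8 * M * |x n| + 3 * M ^ 2 := by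
      have : |x n| ^ 4 = |(x n) ^ 4| := (abs_pow _ _).symm
      rw [this, h2]
      refine (abs_add_le _ _).trans (add_le_add ((abs_add_le _ _).trans (add_le_add ?_ ?_)) ?_)
      · rw [abs_mul, abs_mul, abs_pow]
        have : |(6 : ℝ)| = 6 := abs_of_pos (by norm_num)
        rw [this]
        gcongr
      · rw [abs_mul, abs_mul]
        have : |(8 : ℝ)| = 8 := abs_of_pos (by norm_num)
        rw [this]
        gcongr
      · rw [abs_mul, abs_pow]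
        have : |(3 : ℝ)| = 3 := abs_of_pos (by norm_num)
        rw [this]
        gcongr
    set y := |x n| with hy
    have hy2 : 1 ≤ y ^ 2 := one_le_pow₀ hx1
    have hyy : y ≤ y ^ 2 := by
      calc y = y * 1 := (mul_one y).symm
        _ ≤ y * y := mul_le_mul_of_nonneg_left hx1 (by linarith)
        _ = y ^ 2 := by ring
    have e1 : 8 * M * y ≤ 8 * M * y ^ 2 :=
      mul_le_mul_of_nonneg_left hyy (by linarith)
    have e2 : 3 * M ^ 2 ≤ 3 * M ^ 2 * y ^ 2 :=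
      le_mul_of_one_le_right (mul_nonneg (by norm_num) (sq_nonneg M)) hy2
    have h4 : y ^ 2 * y ^ 2 ≤ (14 * M + 3 * M ^ 2) * y ^ 2 := by
      calc y ^ 2 * y ^ 2 = y ^ 4 := by ring
        _ ≤ 6 * M * y ^ 2 + 8 * M * y + 3 * M ^ 2 := h3
        _ ≤ 6 * M * y ^ 2 + 8 * M * y ^ 2 + 3 * M ^ 2 * y ^ 2 := by linarith
        _ = (14 * M + 3 * M ^ 2) * y ^ 2 := by ring
    have h5 : y ^ 2 ≤ 14 * M + 3 * M ^ 2 :=
      le_of_mul_le_mul_right h4 (by linarith)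
    linarith
  obtain ⟨x', -, φ, hφ, hlim⟩ := tendsto_subseq_of_bounded
    (Metric.isBounded_closedBall (x := (0 : ℝ)) (r := 1 + 14 * M + 3 * M ^ 2))
    (x := x) (fun n => by simpa [Metric.mem_closedBall, Real.dist_eq] using hbd n)
  have hroot : qG A B 0 x' = 0 := by
    have h2 : Tendsto (fun n => ((u (φ n), x (φ n)) : ℝ × ℝ)) atTop (𝓝 ((0 : ℝ), x')) :=
      (hu.comp hφ.tendsto_atTop).prodMk_nhds hlim
    exact qG_limit A B x' _ h2 (fun n => hx _)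
  have hfin : ∀ᶠ n in atTop, |x (φ n) - x'| < r := by
    have := (Metric.tendsto_nhds.1 hlim) r hr
    simpa [Real.dist_eq] using this
  obtain ⟨n, hn⟩ := hfin.exists
  exact absurd hn (not_lt.2 (hfar (φ n) x' hroot))

/-- Near a simple root, roots of the family are approximated by the truncated branch. -/
theorem branch_approx (A B : ℝ[X]) (h0 : (A.eval 0) ^ 3 ≠ (B.eval 0) ^ 2) (ξ₀ : ℝ)
    (hξ : qG A B 0 ξ₀ = 0) (K : ℕ) (P : ℝ[X]) (hP0 : P.eval 0 = ξ₀)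
    (hP : X ^ (K + 1) ∣ P ^ 4 - 6 * A * P ^ 2 - 8 * B * P - 3 * A ^ 2) :
    ∃ r > 0, ∃ c ≥ 0, ∀ᶠ s in 𝓝 (0 : ℝ), ∀ ξ : ℝ, qG A B s ξ = 0 → |ξ - ξ₀| < r →
      |ξ - P.eval s| ≤ c * |s| ^ (K + 1) := by
  obtain ⟨g, hg⟩ := hP
  set d : ℝ := 4 * ξ₀ ^ 3 - 12 * A.eval 0 * ξ₀ - 8 * B.eval 0 with hd
  have hd0 : d ≠ 0 := qG_deriv_ne_zero A B h0 ξ₀ hξ
  set Q : ℝ × ℝ → ℝ := fun p => (4 * (P.eval p.1) ^ 3 - 12 * A.eval p.1 * P.eval p.1
    - 8 * B.eval p.1) + p.2 * (6 * (P.eval p.1) ^ 2 + 4 * P.eval p.1 * p.2 + p.2 ^ 2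
      - 6 * A.eval p.1) with hQ
  have hQc : Continuous Q := by
    have hA := A.continuous
    have hB := B.continuous
    have hPc := P.continuous
    rw [hQ]
    fun_prop
  have hQ0 : Q (0, 0) = d := by
    simp only [hQ, hP0, hd]
    ring
  have hev : ∀ᶠ p in 𝓝 ((0 : ℝ), (0 : ℝ)), |d| / 2 < |Q p| := by
    have h1 : Tendsto (fun p => |Q p|) (𝓝 ((0 : ℝ), (0 : ℝ))) (𝓝 |d|) := by
      have := (hQc.abs).tendsto ((0 : ℝ), (0 : ℝ))
      rwa [hQ0] at this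
    exact h1.eventually (lt_mem_nhds (by have := abs_pos.2 hd0; linarith))
  obtain ⟨δ, hδ, hball⟩ := Metric.eventually_nhds_iff.1 hev
  have hPlim : ∀ᶠ s in 𝓝 (0 : ℝ), |P.eval s - ξ₀| < δ / 2 := by
    have h1 : Tendsto (fun s => P.eval s) (𝓝 0) (𝓝 (P.eval 0)) := P.continuous.tendsto 0
    rw [hP0] at h1
    have := Metric.tendsto_nhds.1 h1 (δ / 2) (by linarith)
    simpa [Real.dist_eq] using this
  have hslim : ∀ᶠ s in 𝓝 (0 : ℝ), |s| < δ := by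
    have := Metric.ball_mem_nhds (0 : ℝ) hδ
    filter_upwards [this] with s hs
    simpa [Metric.mem_ball, Real.dist_eq] using hs
  have hglim : ∀ᶠ s in 𝓝 (0 : ℝ), |g.eval s| < |g.eval 0| + 1 := by
    have h1 : Tendsto (fun s => |g.eval s|) (𝓝 0) (𝓝 |g.eval 0|) := (g.continuous.abs).tendsto 0
    exact h1.eventually (gt_mem_nhds (by linarith))
  refine ⟨δ / 2, by linarith, (|g.eval 0| + 1) * (2 / |d|), by positivity, ?_⟩
  filter_upwards [hPlim, hslim, hglim] with s h1 h2 h3 ξ hroot hclose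
  set h := ξ - P.eval s with hh
  have hhδ : |h| < δ := by
    have : h = (ξ - ξ₀) - (P.eval s - ξ₀) := by rw [hh]; ring
    rw [this]
    exact (abs_sub _ _).trans_lt (by linarith)
  have hQs : |d| / 2 < |Q (s, h)| := by
    apply hball
    rw [Prod.dist_eq, Real.dist_eq, Real.dist_eq, sub_zero, sub_zero]
    exact max_lt h2 hhδ
  have hgs : (P.eval s) ^ 4 - 6 * A.eval s * (P.eval s) ^ 2 - 8 * B.eval s * P.eval s
      - 3 * (A.eval s) ^ 2 = s ^ (K + 1) * g.eval s := by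
    have h4 := congrArg (Polynomial.eval s) hg
    have e6 : eval s (6 : ℝ[X]) = 6 := by
      have : (6 : ℝ[X]) = C 6 := rfl
      rw [this, eval_C]
    have e8 : eval s (8 : ℝ[X]) = 8 := by
      have : (8 : ℝ[X]) = C 8 := rfl
      rw [this, eval_C]
    have e3 : eval s (3 : ℝ[X]) = 3 := by
      have : (3 : ℝ[X]) = C 3 := rfl
      rw [this, eval_C]
    simpa only [eval_sub, eval_mul, eval_pow, eval_X, e6, e8, e3] using h4
  have hmain : h * Q (s, h) = - (s ^ (K + 1) * g.eval s) := by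
    have hξs : ξ = P.eval s + h := by rw [hh]; ring
    unfold qG at hroot
    rw [hξs] at hroot
    simp only [hQ]
    linear_combination hroot - hgs
  have habs : |h| * |Q (s, h)| = |s| ^ (K + 1) * |g.eval s| := by
    rw [← abs_mul, hmain, abs_neg, abs_mul, abs_pow]
  have hdpos : 0 < |d| := abs_pos.2 hd0
  have h5 : |h| * (|d| / 2) ≤ |s| ^ (K + 1) * (|g.eval 0| + 1) := by
    calc |h| * (|d| / 2) ≤ |h| * |Q (s, h)| := mul_le_mul_of_nonneg_left hQs.le (abs_nonneg _)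
      _ = |s| ^ (K + 1) * |g.eval s| := habs
      _ ≤ |s| ^ (K + 1) * (|g.eval 0| + 1) :=
        mul_le_mul_of_nonneg_left h3.le (pow_nonneg (abs_nonneg _) _)
  calc |h| = (|h| * (|d| / 2)) * (2 / |d|) := by field_simp
    _ ≤ (|s| ^ (K + 1) * (|g.eval 0| + 1)) * (2 / |d|) :=
      mul_le_mul_of_nonneg_right h5 (by positivity)
    _ = (|g.eval 0| + 1) * (2 / |d|) * |s| ^ (K + 1) := by ring

/-- All real roots of the family near `s = 0` are approximated by finitely many polynomials. -/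
theorem exists_branches (A B : ℝ[X]) (h0 : (A.eval 0) ^ 3 ≠ (B.eval 0) ^ 2) (K : ℕ) :
    ∃ (S : Finset ℝ[X]) (c : ℝ), (∀ P ∈ S, P.natDegree ≤ K) ∧
      ∀ᶠ s in 𝓝 (0 : ℝ), ∀ ξ : ℝ, qG A B s ξ = 0 → ∃ P ∈ S, |ξ - P.eval s| ≤ c * |s| ^ (K + 1) := by
  classical
  have hfin : Set.Finite {ξ : ℝ | qG A B 0 ξ = 0} := by
    set F : ℝ[X] := X ^ 4 - C (6 * A.eval 0) * X ^ 2 - C (8 * B.eval 0) * X
      - C (3 * (A.eval 0) ^ 2) with hF
    have hF0 : F ≠ 0 := by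
      have hgen : ∀ u v w : ℝ, (X ^ 4 - C u * X ^ 2 - C v * X - C w : ℝ[X]) ≠ 0 := by
        intro u v w h
        have := congrArg (fun f => coeff f 4) h
        simp [coeff_X, coeff_C, coeff_X_pow] at this
      exact hgen _ _ _
    refine (F.roots.toFinset.finite_toSet).subset fun ξ hξ => ?_
    simp only [Finset.mem_coe, Multiset.mem_toFinset]
    rw [mem_roots hF0, IsRoot.def]
    simp only [hF, eval_sub, eval_mul, eval_pow, eval_X, eval_C]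
    exact hξ
  set Z : Finset ℝ := hfin.toFinset with hZ
  have hZmem : ∀ ξ : ℝ, ξ ∈ Z ↔ qG A B 0 ξ = 0 := by
    intro ξ; simp [hZ]
  have hP : ∀ ξ : ℝ, ∃ P : ℝ[X], ξ ∈ Z → P.natDegree ≤ K ∧ P.eval 0 = ξ ∧
      X ^ (K + 1) ∣ P ^ 4 - 6 * A * P ^ 2 - 8 * B * P - 3 * A ^ 2 := by
    intro ξ
    by_cases hξ : ξ ∈ Z
    · obtain ⟨P, hP⟩ := exists_branch A B h0 ξ ((hZmem ξ).1 hξ) K
      exact ⟨P, fun _ => hP⟩
    · exact ⟨0, fun h => absurd h hξ⟩
  choose P hP using hP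
  have hr : ∀ ξ : ℝ, ∃ r > 0, ∃ c ≥ (0 : ℝ), ξ ∈ Z → ∀ᶠ s in 𝓝 (0 : ℝ), ∀ ξ' : ℝ,
      qG A B s ξ' = 0 → |ξ' - ξ| < r → |ξ' - (P ξ).eval s| ≤ c * |s| ^ (K + 1) := by
    intro ξ
    by_cases hξ : ξ ∈ Z
    · obtain ⟨r, hr, c, hc, h⟩ := branch_approx A B h0 ξ ((hZmem ξ).1 hξ) K (P ξ)
        (hP ξ hξ).2.1 (hP ξ hξ).2.2
      exact ⟨r, hr, c, hc, fun _ => h⟩
    · exact ⟨1, one_pos, 0, le_refl _, fun h => absurd h hξ⟩
  choose r hr0 c hc0 hrc using hr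
  obtain ⟨r', hr'0, hr'⟩ : ∃ r' > 0, ∀ ξ ∈ Z, r' ≤ r ξ := by
    rcases Z.eq_empty_or_nonempty with hZe | hZne
    · exact ⟨1, one_pos, by simp [hZe]⟩
    · obtain ⟨m, hm, hmin⟩ := Finset.exists_min_image Z r hZne
      exact ⟨r m, hr0 m, hmin⟩
  refine ⟨Z.image P, ∑ ξ ∈ Z, c ξ, ?_, ?_⟩
  · intro Q hQ
    obtain ⟨ξ, hξ, rfl⟩ := Finset.mem_image.1 hQ
    exact (hP ξ hξ).1
  · have hall : ∀ᶠ s in 𝓝 (0 : ℝ), ∀ ξ ∈ Z, ∀ ξ' : ℝ,
      qG A B s ξ' = 0 → |ξ' - ξ| < r ξ → |ξ' - (P ξ).eval s| ≤ c ξ * |s| ^ (K + 1) := by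
      rw [Filter.eventually_all_finset]
      exact fun ξ hξ => hrc ξ hξ
    filter_upwards [hall, eventually_close A B r' hr'0] with s hs1 hs2 ξ hξ
    obtain ⟨ξ₀, h1, h2⟩ := hs2 ξ hξ
    have hmem : ξ₀ ∈ Z := (hZmem ξ₀).2 h1
    refine ⟨P ξ₀, Finset.mem_image_of_mem _ hmem, ?_⟩
    refine (hs1 ξ₀ hmem ξ hξ (h2.trans_le (hr' ξ₀ hmem))).trans ?_
    refine mul_le_mul_of_nonneg_right ?_ (pow_nonneg (abs_nonneg _) _)
    exact Finset.single_le_sum (f := c) (fun i _ => hc0 i) hmem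

end Fermat.Agent.S52H
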