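import Mathlib

set_option autoImplicit false

namespace Fermat.Agent.S52H

open Polynomial Finset

/-- Finitary van der Waerden with bounded common difference (from Hales–Jewett). -/
theorem exists_mono_ap (L : ℕ) (κ : Type) [Finite κ] :
    ∃ H : ℕ, ∀ (N : ℕ) (c : ℕ → κ), ∃ a h : ℕ, N ≤ a ∧ 0 < h ∧ h ≤ H ∧
      ∀ j ≤ L, c (a + j * h) = c a := by
  obtain ⟨ι, hι, hC⟩ := Combinatorics.Line.exists_mono_in_high_dimension (Fin (L + 1)) κ
  refine ⟨Fintype.card ι, fun N c => ?_⟩
  classical
  obtain ⟨l, col, hl⟩ := hC (fun v => c (N + ∑ i, (v i : ℕ)))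
  -- active coordinates
  set S : Finset ι := Finset.univ.filter (fun i => l.idxFun i = none) with hS
  have hsum : ∀ x : Fin (L + 1), (∑ i, ((l x i : Fin (L + 1)) : ℕ)) =
      (∑ i ∈ Sᶜ, ((l 0 i : Fin (L + 1)) : ℕ)) + (x : ℕ) * S.card := by
    intro x
    rw [← Finset.sum_compl_add_sum S]
    congr 1
    · refine Finset.sum_congr rfl fun i hi => ?_
      have hi' : l.idxFun i ≠ none := by
        simpa [hS] using hi
      obtain ⟨a, ha⟩ := Option.ne_none_iff_exists'.1 hi'
      rw [Combinatorics.Line.coe_apply, Combinatorics.Line.coe_apply, ha]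
      simp
    · rw [Finset.sum_congr rfl (g := fun _ => (x : ℕ))]
      · rw [Finset.sum_const, smul_eq_mul, mul_comm]
      · intro i hi
        have hi' : l.idxFun i = none := by simpa [hS] using hi
        rw [Combinatorics.Line.coe_apply, hi']
        simp
  have hcard : 0 < S.card := by
    obtain ⟨i, hi⟩ := l.proper
    exact Finset.card_pos.2 ⟨i, by simp [hS, hi]⟩
  refine ⟨N + ∑ i ∈ Sᶜ, ((l 0 i : Fin (L + 1)) : ℕ), S.card, by omega, hcard,
    Finset.card_le_univ _, ?_⟩
  intro j hj
  have h1 := hl ⟨j, by omega⟩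
  have h0 := hl 0
  simp only [hsum] at h1 h0
  have e0 : ((0 : Fin (L + 1)) : ℕ) = 0 := rfl
  rw [e0, zero_mul, add_zero] at h0
  rw [h0, ← h1]
  congr 1
  ring

/-- An integer sequence uniformly very close to a real polynomial of degree `≤ d` on `0..L` is a
rational polynomial of degree `≤ d` on `0..L`. -/
theorem exists_interp (L d : ℕ) (p : ℝ[X]) (hp : p.natDegree ≤ d) (y : ℕ → ℤ) (ε : ℝ)
    (hε : 2 ^ L * ε < 1) (hy : ∀ j ≤ L, |(y j : ℝ) - p.eval (j : ℝ)| ≤ ε) :
    ∃ q : ℚ[X], q.natDegree ≤ d ∧ ∀ j ≤ L, q.eval (j : ℚ) = y j := by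
  have hε0 : 0 ≤ ε := (abs_nonneg _).trans (hy 0 (Nat.zero_le _))
  -- differences
  set a : ℕ → ℤ := fun k => (fwdDiff 1)^[k] y 0 with ha
  have ha0 : ∀ k, d < k → k ≤ L → a k = 0 := by
    intro k hk hkL
    have h1 : ((a k : ℤ) : ℝ) = ∑ i ∈ range (k + 1),
        ((-1 : ℝ) ^ (k - i) * k.choose i) * ((y i : ℝ)) := by
      rw [ha]
      simp only
      rw [fwdDiff_iter_eq_sum_shift]
      push_cast
      refine Finset.sum_congr rfl fun i _ => ?_
      simp
    have h2 : (0 : ℝ) = ∑ i ∈ range (k + 1),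
        ((-1 : ℝ) ^ (k - i) * k.choose i) * (p.eval (i : ℝ)) := by
      have := congrFun (Polynomial.fwdDiff_iter_eq_zero_of_degree_lt (P := p) (n := k) (by omega))
        (0 : ℝ)
      rw [fwdDiff_iter_eq_sum_shift] at this
      rw [Pi.zero_apply] at this
      rw [← this]
      refine Finset.sum_congr rfl fun i _ => ?_
      simp
    have h3 : |((a k : ℤ) : ℝ)| < 1 := by
      have h4 : ((a k : ℤ) : ℝ) = ∑ i ∈ range (k + 1),
        ((-1 : ℝ) ^ (k - i) * k.choose i) * ((y i : ℝ) - p.eval (i : ℝ)) := by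
        have : ((a k : ℤ) : ℝ) = ((a k : ℤ) : ℝ) - 0 := by ring
        rw [this, h1]
        conv_lhs => rw [h2]
        rw [← Finset.sum_sub_distrib]
        refine Finset.sum_congr rfl fun i _ => ?_
        ring
      rw [h4]
      calc |∑ i ∈ range (k + 1), ((-1 : ℝ) ^ (k - i) * k.choose i) * ((y i : ℝ) - p.eval (i : ℝ))|
          ≤ ∑ i ∈ range (k + 1),
            |((-1 : ℝ) ^ (k - i) * k.choose i) * ((y i : ℝ) - p.eval (i : ℝ))| :=
            Finset.abs_sum_le_sum_abs _ _
        _ ≤ ∑ i ∈ range (k + 1), (k.choose i : ℝ) * ε := by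
            refine Finset.sum_le_sum fun i hi => ?_
            rw [abs_mul, abs_mul, abs_pow, abs_neg, abs_one, one_pow, one_mul, Nat.abs_cast]
            refine mul_le_mul_of_nonneg_left (hy i ?_) (Nat.cast_nonneg _)
            have := Finset.mem_range.1 hi
            omega
        _ = 2 ^ k * ε := by
            rw [← Finset.sum_mul]
            congr 1
            exact_mod_cast Nat.sum_range_choose k
        _ ≤ 2 ^ L * ε := by
            refine mul_le_mul_of_nonneg_right ?_ hε0
            exact pow_le_pow_right₀ (by norm_num) hkL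
        _ < 1 := hε
    have h5 : |a k| < 1 := by exact_mod_cast h3
    exact Int.abs_lt_one_iff.1 h5
  refine ⟨∑ k ∈ range (d + 1), C ((a k : ℚ) / (k.factorial : ℚ)) * descPochhammer ℚ k, ?_, ?_⟩
  · refine natDegree_sum_le_of_forall_le _ _ fun k hk => ?_
    refine natDegree_mul_le.trans ?_
    rw [natDegree_C, zero_add, descPochhammer_natDegree]
    have := Finset.mem_range.1 hk
    omega
  · intro j hj
    have h1 := shift_eq_sum_fwdDiff_iter (1 : ℕ) y j 0
    have h2 : y j = ∑ k ∈ range (j + 1), (j.choose k : ℤ) * a k := by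
      have : (0 : ℕ) + j • 1 = j := by simp
      rw [this] at h1
      rw [h1]
      refine Finset.sum_congr rfl fun k _ => ?_
      simp [ha]
    have h3 : y j = ∑ k ∈ range (d + 1), (j.choose k : ℤ) * a k := by
      rw [h2]
      rcases le_total j d with hjd | hjd
      · refine Finset.sum_subset (Finset.range_mono (by omega)) fun k _ hk => ?_
        have : j < k := by
          have := Finset.mem_range.not.1 hk
          omega
        rw [Nat.choose_eq_zero_of_lt this]; simp
      · symm
        refine Finset.sum_subset (Finset.range_mono (by omega)) fun k hk hk' => ?_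
        have h4 := Finset.mem_range.not.1 hk'
        have h5 := Finset.mem_range.1 hk
        rw [ha0 k (by omega) (by omega), mul_zero]
    rw [h3, eval_finsetSum]
    push_cast
    refine Finset.sum_congr rfl fun k _ => ?_
    rw [eval_mul, eval_C, descPochhammer_eval_eq_descFactorial, Nat.descFactorial_eq_factorial_mul_choose]
    push_cast
    have : (k.factorial : ℚ) ≠ 0 := by exact_mod_cast Nat.factorial_ne_zero k
    field_simp

end Fermat.Agent.S52H
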