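import Fermat.Agent.S52.HitAlg
import Fermat.Agent.S52.HitComb
import Fermat.Agent.S52.HitBranch

set_option autoImplicit false
set_option maxHeartbeats 400000

namespace Fermat.Agent.S52H

open Polynomial Filter Topology

theorem eval_reflect_inv (P : ℝ[X]) (N : ℕ) (hP : P.natDegree ≤ N) (t : ℝ) (ht : t ≠ 0) :
    t ^ N * (P.reflect N).eval (1 / t) = P.eval t := by
  letI : Invertible t := invertibleOfNonzero ht
  have h := Polynomial.eval₂_reflect_mul_pow (RingHom.id ℝ) t N P hP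
  rw [eval₂_id, eval₂_id, invOf_eq_inv] at h
  rw [one_div, mul_comm, h]

theorem natDegree_comp_linear_le (P : ℚ[X]) (N : ℕ) (hP : P.natDegree ≤ N) (a b : ℚ) :
    (P.comp (C a + C b * X)).natDegree ≤ N := by
  refine natDegree_comp_le.trans ?_
  have : (C a + C b * X : ℚ[X]).natDegree ≤ 1 := by
    refine (natDegree_add_le _ _).trans (max_le (by simp) ?_)
    exact (natDegree_C_mul_le _ _).trans natDegree_X_le
  calc P.natDegree * (C a + C b * X : ℚ[X]).natDegree ≤ N * 1 := Nat.mul_le_mul hP this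
    _ = N := mul_one N

/-- **Tiny Hilbert irreducibility theorem** for the 3-division quartic of a family of elliptic
curves `(c₄, c₆) = (A(n), B(n))` with `A³ - B² = κ D⁵`, `D` squarefree and prime to `A`. -/
theorem hit (A B D : ℚ[X]) (hA : A.natDegree ≤ 20) (hB : B.natDegree ≤ 30)
    (κ : ℚ) (hκ : κ ≠ 0) (hABD : A ^ 3 - B ^ 2 = C κ * D ^ 5)
    (hlead : A.coeff 20 ^ 3 ≠ B.coeff 30 ^ 2)
    (hsq : Squarefree D) (hcop : IsCoprime A D) (hD : 5 ≤ D.natDegree) (n0 : ℕ) :
    ∃ n : ℕ, n0 ≤ n ∧ ∀ x : ℤ, (x : ℚ) ^ 4 - 6 * A.eval (n : ℚ) * (x : ℚ) ^ 2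
      - 8 * B.eval (n : ℚ) * (x : ℚ) - 3 * (A.eval (n : ℚ)) ^ 2 ≠ 0 := by
  by_contra hcon
  push Not at hcon
  -- real polynomials
  set ι : ℚ →+* ℝ := algebraMap ℚ ℝ with hι
  set Ar : ℝ[X] := (A.map ι).reflect 20 with hAr
  set Br : ℝ[X] := (B.map ι).reflect 30 with hBr
  have hAmap : (A.map ι).natDegree ≤ 20 := natDegree_map_le.trans hA
  have hBmap : (B.map ι).natDegree ≤ 30 := natDegree_map_le.trans hB
  have h0 : (Ar.eval 0) ^ 3 ≠ (Br.eval 0) ^ 2 := by
    rw [← coeff_zero_eq_eval_zero, ← coeff_zero_eq_eval_zero, hAr, hBr, coeff_reflect,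
      coeff_reflect, revAt_zero, revAt_zero, coeff_map, coeff_map, ← map_pow, ← map_pow]
    exact fun h => hlead (ι.injective h)
  obtain ⟨S, c, hSdeg, hS⟩ := exists_branches Ar Br h0 10
  -- translate to `n → ∞`
  have hlim : Tendsto (fun n : ℕ => (1 : ℝ) / (n : ℝ)) atTop (𝓝 0) :=
    tendsto_one_div_atTop_nhds_zero_nat
  obtain ⟨N1, hN1⟩ := Filter.eventually_atTop.1 (hlim.eventually hS)
  have hroot : ∀ n : ℕ, ∃ x : ℤ, n0 ≤ n → (x : ℚ) ^ 4 - 6 * A.eval (n : ℚ) * (x : ℚ) ^ 2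
      - 8 * B.eval (n : ℚ) * (x : ℚ) - 3 * (A.eval (n : ℚ)) ^ 2 = 0 := by
    intro n
    by_cases hn : n0 ≤ n
    · obtain ⟨x, hx⟩ := hcon n hn
      exact ⟨x, fun _ => hx⟩
    · exact ⟨0, fun h => absurd h hn⟩
  choose x hx using hroot
  set N2 : ℕ := max (max N1 n0) 1 with hN2
  -- approximations
  have happ : ∀ n : ℕ, N2 ≤ n → ∃ P ∈ S,
      |(x n : ℝ) - (P.reflect 10).eval (n : ℝ)| ≤ c / n := by
    intro n hn
    have hnN1 : N1 ≤ n := (le_max_left _ _).trans ((le_max_left _ _).trans hn)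
    have hnn0 : n0 ≤ n := (le_max_right _ _).trans ((le_max_left _ _).trans hn)
    have hn1 : 1 ≤ n := (le_max_right _ _).trans hn
    have hnpos : (0 : ℝ) < n := by exact_mod_cast hn1
    have hnne : (n : ℝ) ≠ 0 := hnpos.ne'
    have hA1 := eval_reflect_inv (A.map ι) 20 hAmap n hnne
    have hB1 := eval_reflect_inv (B.map ι) 30 hBmap n hnne
    rw [← hAr] at hA1
    rw [← hBr] at hB1
    have hxr : (x n : ℝ) ^ 4 - 6 * (A.map ι).eval (n : ℝ) * (x n : ℝ) ^ 2
      - 8 * (B.map ι).eval (n : ℝ) * (x n : ℝ) - 3 * ((A.map ι).eval (n : ℝ)) ^ 2 = 0 := by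
      have h1 := congrArg ι (hx n hnn0)
      have h2 : (A.map ι).eval (n : ℝ) = ι (A.eval (n : ℚ)) := by
        have : ((n : ℝ)) = ι (n : ℚ) := by simp [hι]
        rw [this, eval_map_apply]
      have h3 : (B.map ι).eval (n : ℝ) = ι (B.eval (n : ℚ)) := by
        have : ((n : ℝ)) = ι (n : ℚ) := by simp [hι]
        rw [this, eval_map_apply]
      rw [h2, h3]
      simpa using h1
    rw [← hA1, ← hB1] at hxr
    have hq : qG Ar Br (1 / (n : ℝ)) ((x n : ℝ) / (n : ℝ) ^ 10) = 0 := by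
      unfold qG
      have : (n : ℝ) ^ 40 * (((x n : ℝ) / (n : ℝ) ^ 10) ^ 4
          - 6 * eval (1 / (n : ℝ)) Ar * ((x n : ℝ) / (n : ℝ) ^ 10) ^ 2
          - 8 * eval (1 / (n : ℝ)) Br * ((x n : ℝ) / (n : ℝ) ^ 10)
          - 3 * eval (1 / (n : ℝ)) Ar ^ 2) = 0 := by
        rw [← hxr]
        field_simp
      rcases mul_eq_zero.1 this with h | h
      · exact absurd h (pow_ne_zero _ hnne)
      · exact h
    obtain ⟨P, hPS, hP⟩ := hN1 n hnN1 _ hq
    refine ⟨P, hPS, ?_⟩
    have hP1 : (n : ℝ) ^ 10 * P.eval (1 / (n : ℝ)) = (P.reflect 10).eval (n : ℝ) := by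
      have hrr : P = (P.reflect 10).reflect 10 := by
        rw [reflect_reflect]
      have hdeg : (P.reflect 10).natDegree ≤ 10 := by
        have := Polynomial.natDegree_reflect_le (p := P) (N := 10)
        exact this.trans (max_le (le_refl _) (hSdeg P hPS))
      have h4 := eval_reflect_inv (P.reflect 10) 10 hdeg n hnne
      rw [← hrr] at h4
      exact h4
    rw [← hP1]
    have e1 : (x n : ℝ) - (n : ℝ) ^ 10 * P.eval (1 / (n : ℝ)) =
        (n : ℝ) ^ 10 * ((x n : ℝ) / (n : ℝ) ^ 10 - P.eval (1 / (n : ℝ))) := by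
      field_simp
    rw [e1, abs_mul, abs_of_pos (pow_pos hnpos 10)]
    calc (n : ℝ) ^ 10 * |(x n : ℝ) / (n : ℝ) ^ 10 - P.eval (1 / (n : ℝ))|
        ≤ (n : ℝ) ^ 10 * (c * |1 / (n : ℝ)| ^ (10 + 1)) :=
          mul_le_mul_of_nonneg_left hP (pow_nonneg hnpos.le _)
      _ = c / n := by
          rw [abs_of_pos (by positivity), show (10 + 1 : ℕ) = 11 from rfl, one_div, inv_pow]
          field_simp
  -- `S`-valued colouring
  have hcol : ∀ m : ℕ, ∃ P : S, |(x (m + N2) : ℝ) - ((P : ℝ[X]).reflect 10).eval ((m + N2 : ℕ) : ℝ)|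
      ≤ c / ((m + N2 : ℕ) : ℝ) := by
    intro m
    obtain ⟨P, hP, h⟩ := happ (m + N2) (by omega)
    exact ⟨⟨P, hP⟩, h⟩
  choose col hcol using hcol
  obtain ⟨H, hH⟩ := exists_mono_ap 60 (ULift.{0} S)
  -- choose the starting point
  obtain ⟨N3, hN3⟩ := exists_nat_gt (2 ^ 61 * |c|)
  obtain ⟨a, h, haN, hh0, -, hmono⟩ := hH N3 (fun m => ULift.up (col m))
  set P : ℝ[X] := (col a : ℝ[X]) with hPdef
  have hPS : P ∈ S := (col a).2
  have hmono' : ∀ j ≤ 60, ((col (a + j * h) : S) : ℝ[X]) = P := by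
    intro j hj
    have := hmono j hj
    have h2 : col (a + j * h) = col a := congrArg ULift.down this
    rw [h2]
  -- the polynomial in `j`
  set p : ℝ[X] := (P.reflect 10).comp (C ((a + N2 : ℕ) : ℝ) + C (h : ℝ) * X) with hp
  have hpdeg : p.natDegree ≤ 10 := by
    rw [hp]
    refine natDegree_comp_le.trans ?_
    have h1 : (C ((a + N2 : ℕ) : ℝ) + C (h : ℝ) * X : ℝ[X]).natDegree ≤ 1 := by
      refine (natDegree_add_le _ _).trans (max_le ((natDegree_C _).le.trans (Nat.zero_le _)) ?_)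
      exact (natDegree_C_mul_le _ _).trans natDegree_X_le
    have h2 : (P.reflect 10).natDegree ≤ 10 := by
      have := Polynomial.natDegree_reflect_le (p := P) (N := 10)
      exact this.trans (max_le (le_refl _) (hSdeg P hPS))
    calc (P.reflect 10).natDegree * (C ((a + N2 : ℕ) : ℝ) + C (h : ℝ) * X : ℝ[X]).natDegree
        ≤ 10 * 1 := Nat.mul_le_mul h2 h1
      _ = 10 := by norm_num
  obtain ⟨q, hqdeg, hq⟩ := exists_interp 60 10 p hpdeg (fun j => x (a + j * h + N2))
    (1 / 2 ^ 61) (by norm_num) (by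
      intro j hj
      have h1 := hcol (a + j * h)
      rw [hmono' j hj] at h1
      have h2 : p.eval (j : ℝ) = (P.reflect 10).eval ((a + j * h + N2 : ℕ) : ℝ) := by
        rw [hp, eval_comp]
        congr 1
        simp
        ring
      rw [h2]
      refine h1.trans ?_
      have hbig : (N3 : ℝ) ≤ ((a + j * h + N2 : ℕ) : ℝ) := by
        exact_mod_cast (by omega : N3 ≤ a + j * h + N2)
      have hpos : (0 : ℝ) < ((a + j * h + N2 : ℕ) : ℝ) := by
        have : 1 ≤ N2 := le_max_right _ _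
        exact_mod_cast (by omega : 0 < a + j * h + N2)
      rw [div_le_div_iff₀ hpos (by norm_num)]
      have := le_abs_self c
      nlinarith)
  -- the polynomial identity
  set n1 : ℚ := ((a + N2 : ℕ) : ℚ) with hn1
  set lin : ℚ[X] := C n1 + C (h : ℚ) * X with hlin
  have hR : q ^ 4 - 6 * (A.comp lin) * q ^ 2 - 8 * (B.comp lin) * q - 3 * (A.comp lin) ^ 2 = 0 := by
    set R := q ^ 4 - 6 * (A.comp lin) * q ^ 2 - 8 * (B.comp lin) * q - 3 * (A.comp lin) ^ 2 with hRdef
    have hAc : (A.comp lin).natDegree ≤ 20 := natDegree_comp_linear_le A 20 hA _ _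
    have hBc : (B.comp lin).natDegree ≤ 30 := natDegree_comp_linear_le B 30 hB _ _
    have e6 : (6 : ℚ[X]) = C 6 := rfl
    have e8 : (8 : ℚ[X]) = C 8 := rfl
    have e3 : (3 : ℚ[X]) = C 3 := rfl
    have hRdeg : R.natDegree ≤ 40 := by
      rw [hRdef, e6, e8, e3]
      compute_degree
      · omega
    have hroots : ∀ j ∈ Finset.range 61, R.eval (j : ℚ) = 0 := by
      intro j hj
      have hj' : j ≤ 60 := by have := Finset.mem_range.1 hj; omega
      have h1 := hx (a + j * h + N2) (by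
        have : n0 ≤ N2 := (le_max_right _ _).trans (le_max_left _ _)
        omega)
      have h2 : lin.eval (j : ℚ) = ((a + j * h + N2 : ℕ) : ℚ) := by
        simp [hlin, hn1]
        ring
      rw [hRdef, e6, e8, e3]
      simp only [eval_sub, eval_mul, eval_pow, eval_C, eval_comp, h2, hq j hj']
      exact h1
    by_contra hne
    have hcard := Polynomial.card_roots' R
    have hsub : (Finset.range 61).image (fun j : ℕ => (j : ℚ)) ⊆ R.roots.toFinset := by
      intro y hy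
      obtain ⟨j, hj, rfl⟩ := Finset.mem_image.1 hy
      rw [Multiset.mem_toFinset, mem_roots hne]
      exact hroots j hj
    have h1 := Finset.card_le_card hsub
    rw [Finset.card_image_of_injective _ Nat.cast_injective, Finset.card_range] at h1
    have h2 := R.roots.toFinset_card_le
    omega
  -- substitute back
  set inv : ℚ[X] := C (-(n1 / h)) + C (1 / (h : ℚ)) * X with hinv
  have hhne : (h : ℚ) ≠ 0 := by exact_mod_cast hh0.ne'
  have hcomp : lin.comp inv = X := by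
    rw [hlin, hinv]
    simp only [add_comp, C_comp, mul_comp, X_comp]
    have : C (h : ℚ) * (C (-(n1 / h)) + C (1 / (h : ℚ)) * X) = C (-n1) + X := by
      rw [mul_add, ← C_mul, ← mul_assoc, ← C_mul]
      have e1 : (h : ℚ) * -(n1 / h) = -n1 := by field_simp
      have e2 : (h : ℚ) * (1 / h) = 1 := by field_simp
      rw [e1, e2, C_1, one_mul]
    rw [this, ← add_assoc, ← C_add, add_neg_cancel, C_0, zero_add]
  refine no_poly_root A B D hA κ hκ hABD hsq hcop hD (q.comp inv)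
    (natDegree_comp_linear_le q 10 hqdeg _ _) ?_
  have h5 := congrArg (fun f => f.comp inv) hR
  have e6 : (6 : ℚ[X]) = C 6 := rfl
  have e8 : (8 : ℚ[X]) = C 8 := rfl
  have e3 : (3 : ℚ[X]) = C 3 := rfl
  rw [e6, e8, e3] at h5 ⊢
  simpa only [sub_comp, mul_comp, pow_comp, C_comp, comp_assoc, hcomp, comp_X, zero_comp] using h5

end Fermat.Agent.S52H
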