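import Mathlib
import Fermat.Agent.S52.FamCoef
import Fermat.Agent.S52.Common
import Fermat.Agent.S52.Hit

/-!
# The polynomials `A`, `B`, `D` of the family and a good parameter (S52, piece P1)
-/

set_option autoImplicit false

namespace Fermat.Agent.S52.Model

open Fermat.Agent.S52L Polynomial

attribute [local irreducible] C4 C6 DD DDl DDll cf4 cf6 cfD

section generic

variable {K : Type*} [Field K]

/-- the linear polynomial `1 + M X` -/
noncomputable def lin (M : K) : K[X] := 1 + C M * X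

lemma lin_natDegree_le (M : K) : (lin M).natDegree ≤ 1 := by
  unfold lin
  compute_degree

lemma lin_coeff_one (M : K) : (lin M).coeff 1 = M := by
  simp [lin, coeff_one]

lemma lin_eval (M x : K) : (lin M).eval x = 1 + M * x := by simp [lin]

lemma derivative_lin (M : K) : derivative (lin M) = C M := by simp [lin]

lemma lin_pow_natDegree_le (M : K) (n : ℕ) : (lin M ^ n).natDegree ≤ n :=
  (natDegree_pow_le_of_le n (lin_natDegree_le M)).trans (by simp)

lemma lin_pow_coeff (M : K) (n : ℕ) : (lin M ^ n).coeff n = M ^ n := by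
  have := coeff_pow_of_natDegree_le (lin_natDegree_le M) (m := n)
  simpa [lin_coeff_one] using this

lemma sum_natDegree_le (n : ℕ) (M : K) (c : ℕ → K) :
    (∑ j ∈ Finset.range (n + 1), lin M ^ (n - j) * C (c j)).natDegree ≤ n := by
  apply natDegree_sum_le_of_forall_le
  intro j _
  refine (natDegree_mul_C_le _ _).trans ((lin_pow_natDegree_le M _).trans (Nat.sub_le _ _))

lemma sum_coeff (n : ℕ) (M : K) (c : ℕ → K) :
    (∑ j ∈ Finset.range (n + 1), lin M ^ (n - j) * C (c j)).coeff n = M ^ n * c 0 := by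
  rw [finset_sum_coeff, Finset.sum_eq_single 0]
  · rw [coeff_mul_C, Nat.sub_zero, lin_pow_coeff]
  · intro j hj hj0
    rw [coeff_mul_C, coeff_eq_zero_of_natDegree_lt, zero_mul]
    refine (lin_pow_natDegree_le M _).trans_lt ?_
    have := Finset.mem_range.1 hj
    omega
  · intro h; simp at h

lemma sum_derivative (n : ℕ) (M : K) (c : ℕ → K) :
    derivative (∑ j ∈ Finset.range (n + 1), lin M ^ (n - j) * C (c j)) =
      C M * ∑ j ∈ Finset.range (n + 1), ((n - j : ℕ) : K[X]) * lin M ^ (n - j - 1) * C (c j) := by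
  rw [derivative_sum, Finset.mul_sum]
  refine Finset.sum_congr rfl fun j _ => ?_
  rw [derivative_mul, derivative_C, mul_zero, add_zero, derivative_pow, derivative_lin]
  simp only [map_natCast]
  ring

variable (M a b : K)

/-- the polynomial `C4(1+MX, M)` -/
noncomputable def pA : K[X] := C4 (lin M) (C M) (C a) (C b)

/-- the polynomial `C6(1+MX, M)` -/
noncomputable def pB : K[X] := C6 (lin M) (C M) (C a) (C b)

/-- the polynomial `D(1+MX, M)` -/
noncomputable def pD : K[X] := DD (lin M) (C M) (C a) (C b)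

lemma pA_eq : pA M a b =
    ∑ j ∈ Finset.range (20 + 1), lin M ^ (20 - j) * C (M ^ j * cf4 a b j) := by
  rw [pA, C4_eq_sum]
  refine Finset.sum_congr rfl fun j _ => ?_
  rw [← map_cf4 (C : K →+* K[X]), C_mul, C_pow, mul_assoc]

lemma pB_eq : pB M a b =
    ∑ j ∈ Finset.range (30 + 1), lin M ^ (30 - j) * C (M ^ j * cf6 a b j) := by
  rw [pB, C6_eq_sum]
  refine Finset.sum_congr rfl fun j _ => ?_
  rw [← map_cf6 (C : K →+* K[X]), C_mul, C_pow, mul_assoc]

lemma pD_eq : pD M a b =
    ∑ j ∈ Finset.range (12 + 1), lin M ^ (12 - j) * C (M ^ j * cfD a b j) := by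
  rw [pD, DD_eq_sum]
  refine Finset.sum_congr rfl fun j _ => ?_
  rw [← map_cfD (C : K →+* K[X]), C_mul, C_pow, mul_assoc]

lemma pA_natDegree_le : (pA M a b).natDegree ≤ 20 := by
  rw [pA_eq]; exact sum_natDegree_le 20 M _

lemma pB_natDegree_le : (pB M a b).natDegree ≤ 30 := by
  rw [pB_eq]; exact sum_natDegree_le 30 M _

lemma pA_coeff : (pA M a b).coeff 20 = M ^ 20 * a := by
  rw [pA_eq, sum_coeff]; simp [cf4, C4_0]

lemma pB_coeff : (pB M a b).coeff 30 = M ^ 30 * b := by
  rw [pB_eq, sum_coeff]; simp [cf6, C6_0]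

lemma pD_coeff : (pD M a b).coeff 12 = M ^ 12 := by
  rw [pD_eq, sum_coeff]; simp [cfD, DD_0]

lemma pD_derivative :
    derivative (pD M a b) = C M * DDl (lin M) (C M) (C a) (C b) := by
  rw [pD_eq, sum_derivative]
  have h : (∑ j ∈ Finset.range (12 + 1),
      ((12 - j : ℕ) : K[X]) * lin M ^ (12 - j - 1) * C (M ^ j * cfD a b j)) =
      DDl (lin M) (C M) (C a) (C b) := by
    rw [DDl_def]
    refine Finset.sum_congr rfl fun j _ => ?_
    rw [← map_cfD (C : K →+* K[X]), C_mul, C_pow, mul_assoc, mul_assoc, mul_assoc]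
  rw [h]

lemma eval_pA (x : K) : (pA M a b).eval x = C4 (1 + M * x) M a b := by
  rw [pA, ← coe_evalRingHom, map_C4]
  simp [lin_eval]

lemma eval_pB (x : K) : (pB M a b).eval x = C6 (1 + M * x) M a b := by
  rw [pB, ← coe_evalRingHom, map_C6]
  simp [lin_eval]

lemma eval_pD (x : K) : (pD M a b).eval x = DD (1 + M * x) M a b := by
  rw [pD, ← coe_evalRingHom, map_DD]
  simp [lin_eval]

variable {L : Type*} [Field L] (f : K →+* L)

lemma map_lin : (lin M).map f = lin (f M) := by simp [lin]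

lemma map_pA : (pA M a b).map f = pA (f M) (f a) (f b) := by
  have := map_C4 (mapRingHom f) (lin M) (C M) (C a) (C b)
  rw [pA, pA]
  simpa only [coe_mapRingHom, map_lin, map_C] using this

lemma map_pB : (pB M a b).map f = pB (f M) (f a) (f b) := by
  have := map_C6 (mapRingHom f) (lin M) (C M) (C a) (C b)
  rw [pB, pB]
  simpa only [coe_mapRingHom, map_lin, map_C] using this

lemma map_pD : (pD M a b).map f = pD (f M) (f a) (f b) := by
  have := map_DD (mapRingHom f) (lin M) (C M) (C a) (C b)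
  rw [pD, pD]
  simpa only [coe_mapRingHom, map_lin, map_C] using this

/-- The discriminant identity for the family, over any field with `30 ≠ 0`. -/
theorem C4_cube_sub {K : Type*} [Field K] (h6 : (6 : K) ≠ 0) (h5 : (5 : K) ≠ 0) {a b : K}
    (hab : a ^ 3 ≠ b ^ 2) (l m : K[X]) :
    C4 l m (C a) (C b) ^ 3 - C6 l m (C a) (C b) ^ 2 =
      (C a ^ 3 - C b ^ 2) * DD l m (C a) (C b) ^ 5 := by
  classical
  let L := AlgebraicClosure K
  let f : K →+* L := algebraMap K L
  have h6' : (6 : L) ≠ 0 := by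
    have : f 6 = 6 := map_ofNat f 6
    rw [← this]; exact (map_ne_zero f).2 h6
  have h5' : (5 : L) ≠ 0 := by
    have : f 5 = 5 := map_ofNat f 5
    rw [← this]; exact (map_ne_zero f).2 h5
  have hab' : (f a) ^ 3 ≠ (f b) ^ 2 := by
    rw [← map_pow, ← map_pow]
    exact fun h => hab (f.injective h)
  obtain ⟨p, q, hp, hq, -⟩ := exists_T h6' h5' hab'
  apply Polynomial.map_injective f f.injective
  simp only [← coe_mapRingHom]
  rw [map_sub, map_pow, map_pow, map_mul, map_sub, map_pow, map_pow, map_pow, map_C4, map_C6,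
    map_DD]
  simp only [coe_mapRingHom, map_C]
  have e4 : C (f a) = c4T (C p : L[X]) (C q) := by
    rw [← hp]; simp only [c4T, map_add, map_sub, map_mul, map_pow, map_ofNat]
  have e6 : C (f b) = c6T (C p : L[X]) (C q) := by
    rw [← hq]; simp only [c6T, map_add, map_sub, map_mul, map_pow, map_ofNat, map_neg]
  rw [e4, e6]
  exact C4_cube_sub_T _ _ _ _

end generic

section Q

variable {M a b : ℚ}

lemma no_common_root' {L : Type*} [Field L] [IsAlgClosed L] [CharZero L] (f : ℚ →+* L)
    (hM : M ≠ 0) (hab : a ^ 3 ≠ b ^ 2) (x : L)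
    (hA : C4 (1 + f M * x) (f M) (f a) (f b) = 0)
    (hD : DD (1 + f M * x) (f M) (f a) (f b) = 0) : False := by
  have h6' : (6 : L) ≠ 0 := by norm_num
  have h5' : (5 : L) ≠ 0 := by norm_num
  have hab' : (f a) ^ 3 ≠ (f b) ^ 2 := by
    rw [← map_pow, ← map_pow]
    exact fun h => hab (f.injective h)
  have key := C4_cube_sub h6' h5' hab' (C (1 + f M * x)) (C (f M))
  rw [← map_C4, ← map_C6, ← map_DD, hA, hD] at key
  have hB : C6 (1 + f M * x) (f M) (f a) (f b) = 0 := by
    have h2 : (C (C6 (1 + f M * x) (f M) (f a) (f b) ^ 2) : L[X]) = 0 := by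
      rw [C_pow]
      simp only [map_zero] at key
      linear_combination -key
    exact (pow_eq_zero_iff two_ne_zero).1 (C_eq_zero.1 h2)
  exact (map_ne_zero f).2 hM (eq_zero_of_C4_C6 h6' h5' hab' hA hB).2

lemma no_common_root (hM : M ≠ 0) (hab : a ^ 3 ≠ b ^ 2) (x : AlgebraicClosure ℚ)
    (hA : aeval x (pA M a b) = 0) (hD : aeval x (pD M a b) = 0) : False := by
  rw [aeval_def, ← eval_map, map_pA, eval_pA] at hA
  rw [aeval_def, ← eval_map, map_pD, eval_pD] at hD
  exact no_common_root' (algebraMap ℚ (AlgebraicClosure ℚ)) hM hab x hA hD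

lemma isCoprime_pA_pD (hM : M ≠ 0) (hab : a ^ 3 ≠ b ^ 2) : IsCoprime (pA M a b) (pD M a b) := by
  rw [Polynomial.isCoprime_iff_aeval_ne_zero_of_isAlgClosed ℚ (AlgebraicClosure ℚ)]
  intro x
  by_contra h
  push Not at h
  exact no_common_root hM hab x h.1 h.2

lemma squarefree_pD (hM : M ≠ 0) (hab : a ^ 3 ≠ b ^ 2) : Squarefree (pD M a b) := by
  apply Polynomial.Separable.squarefree
  rw [Polynomial.separable_def,
    Polynomial.isCoprime_iff_aeval_ne_zero_of_isAlgClosed ℚ (AlgebraicClosure ℚ)]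
  intro x
  by_contra h
  push Not at h
  obtain ⟨hD, hD'⟩ := h
  rw [pD_derivative, map_mul, aeval_C] at hD'
  have hM' : (algebraMap ℚ (AlgebraicClosure ℚ)) M ≠ 0 := (_root_.map_ne_zero _).2 hM
  have hl := (mul_eq_zero.1 hD').resolve_left hM'
  have hh := congrArg (aeval x) (hessian (lin M) (C M) (C a) (C b))
  simp only [map_mul, map_sub, map_pow] at hh
  have hD2 : aeval x (DD (lin M) (C M) (C a) (C b)) = 0 := hD
  rw [hD2, hl] at hh
  have hA : aeval x (pA M a b) = 0 := by
    have hh2 : -1584 * ((algebraMap ℚ (AlgebraicClosure ℚ)) M) ^ 2 * aeval x (pA M a b) = 0 := by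
      have e : aeval x (-1584 : ℚ[X]) = (-1584 : AlgebraicClosure ℚ) := by
        rw [map_neg, map_ofNat]
      rw [aeval_C, e] at hh
      rw [pA]
      linear_combination -hh
    refine (mul_eq_zero.1 hh2).resolve_left (mul_ne_zero (by norm_num) (pow_ne_zero _ hM'))
  exact no_common_root hM hab x hA hD

/-- **A good parameter**: from the Hilbert irreducibility theorem `hit`. -/
theorem exists_param_quartic (hM : M ≠ 0) (hab : a ^ 3 ≠ b ^ 2) :
    ∃ n : ℕ, ∀ x : ℤ, (x : ℚ) ^ 4 - 6 * C4 (1 + M * n) M a b * (x : ℚ) ^ 2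
      - 8 * C6 (1 + M * n) M a b * (x : ℚ) - 3 * (C4 (1 + M * n) M a b) ^ 2 ≠ 0 := by
  obtain ⟨n, -, hn⟩ := S52H.hit (pA M a b) (pB M a b) (pD M a b) (pA_natDegree_le M a b)
    (pB_natDegree_le M a b) (a ^ 3 - b ^ 2) (sub_ne_zero.2 hab)
    (by
      rw [pA, pB, pD, C4_cube_sub (by norm_num) (by norm_num) hab]
      simp)
    (by
      rw [pA_coeff, pB_coeff]
      intro h
      apply hab
      have hM60 : M ^ 60 ≠ 0 := pow_ne_zero _ hM
      apply mul_left_cancel₀ hM60
      linear_combination h)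
    (squarefree_pD hM hab) (isCoprime_pA_pD hM hab)
    (by
      have : 12 ≤ (pD M a b).natDegree := by
        apply le_natDegree_of_ne_zero
        rw [pD_coeff]; exact pow_ne_zero _ hM
      omega) 0
  refine ⟨n, fun x => ?_⟩
  have := hn x
  rwa [eval_pA, eval_pB] at this

end Q

end Fermat.Agent.S52.Model
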