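import Mathlib
import Fermat.Prelude.Def_FLTPrelim_ModularRep
import Fermat.Agent.S51Lib.Points

/-!
# Mod-3 irreducibility criterion (piece H2 of S52)

For `W/ℤ` with nonzero discriminant such that `X⁴ - 6c₄X² - 8c₆X - 3c₄²` has no integer root, the
mod-3 representation is irreducible.
-/

set_option autoImplicit false

open WeierstrassCurve WeierstrassCurve.Affine WeierstrassCurve.Affine.Point

namespace Fermat.Agent.S52H

/-- If the mod-`p` representation is not irreducible, there is a stable line. -/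
lemma exists_stable_line (W : WeierstrassCurve ℤ) (hΔ : W.Δ ≠ 0) (p : ℕ) [hp : Fact p.Prime]
    (h : ¬ W.ModRepIsIrreducible p) :
    ∃ N : Submodule (ZMod p) (Submodule.torsionBy ℤ
        ((W.map (Int.castRingHom ℚ) : Affine ℚ)⁄(AlgebraicClosure ℚ)).Point (p : ℤ)),
      IsGaloisStable ℚ N ∧ N ≠ ⊥ ∧ N ≠ ⊤ := by
  have hΔ' : (W.map (Int.castRingHom ℚ)).Δ ≠ 0 := by
    rw [WeierstrassCurve.map_Δ]
    simpa using hΔ
  have h2 := S51Lib.finrank_torsionBy (W.map (Int.castRingHom ℚ)) hΔ' p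
  have hnt : Nontrivial (Submodule.torsionBy ℤ
      ((W.map (Int.castRingHom ℚ) : Affine ℚ)⁄(AlgebraicClosure ℚ)).Point (p : ℤ)) :=
    Module.nontrivial_of_finrank_pos (R := ZMod p) (by rw [h2]; norm_num)
  unfold ModRepIsIrreducible GaloisRepIsIrreducible at h
  push Not at h
  obtain ⟨N, hN, h1, h2⟩ := h hnt
  exact ⟨N, hN, h1, h2⟩

/-- Irreducibility of the mod-3 representation from the absence of integer roots of
`X⁴ - 6c₄X² - 8c₆X - 3c₄²`. -/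
theorem modRepIsIrreducible_three (W : WeierstrassCurve ℤ) (hΔ : W.Δ ≠ 0)
    (hroot : ∀ x : ℤ, x ^ 4 - 6 * W.c₄ * x ^ 2 - 8 * W.c₆ * x - 3 * W.c₄ ^ 2 ≠ 0) :
    W.ModRepIsIrreducible 3 := by
  by_contra hcon
  have h3p : Fact (Nat.Prime 3) := ⟨by norm_num⟩
  set E : WeierstrassCurve ℚ := W.map (Int.castRingHom ℚ) with hE
  have hΔ' : E.Δ ≠ 0 := by
    rw [hE, WeierstrassCurve.map_Δ]
    simpa using hΔ
  obtain ⟨N₃, h₃, hbot₃, htop₃⟩ := exists_stable_line W hΔ 3 hcon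
  obtain ⟨x₀, T, hT0, hT3, hTx⟩ := S51Lib.exists_rat_three (E := E) hΔ' h₃ hbot₃ htop₃
  set φ := algebraMap ℚ (AlgebraicClosure ℚ) with hφ
  have hT3' : T + T = -T := by
    rw [eq_neg_iff_add_eq_zero, ← hT3]; abel
  have e3 := S51Lib.three_torsion (W := (E : Affine ℚ)⁄(AlgebraicClosure ℚ)) hT0 hT3'
  have hb₂ : ((E : Affine ℚ)⁄(AlgebraicClosure ℚ)).b₂ = φ E.b₂ := WeierstrassCurve.map_b₂ E φ
  have hb₄ : ((E : Affine ℚ)⁄(AlgebraicClosure ℚ)).b₄ = φ E.b₄ := WeierstrassCurve.map_b₄ E φ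
  have hb₆ : ((E : Affine ℚ)⁄(AlgebraicClosure ℚ)).b₆ = φ E.b₆ := WeierstrassCurve.map_b₆ E φ
  have hb₈ : ((E : Affine ℚ)⁄(AlgebraicClosure ℚ)).b₈ = φ E.b₈ := WeierstrassCurve.map_b₈ E φ
  rw [hTx, hb₂, hb₄, hb₆, hb₈] at e3
  have h3 : 3 * x₀ ^ 4 + E.b₂ * x₀ ^ 3 + 3 * E.b₄ * x₀ ^ 2 + 3 * E.b₆ * x₀ + E.b₈ = 0 := by
    apply φ.injective
    simpa only [map_add, map_mul, map_pow, map_ofNat, _root_.map_zero] using e3
  -- the scaled root
  have hX : (12 * x₀ + E.b₂) ^ 4 - 6 * E.c₄ * (12 * x₀ + E.b₂) ^ 2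
      - 8 * E.c₆ * (12 * x₀ + E.b₂) - 3 * E.c₄ ^ 2 = 0 := by
    have hrel := E.b_relation
    rw [WeierstrassCurve.c₄, WeierstrassCurve.c₆]
    linear_combination 6912 * h3 - 1728 * hrel
  have hc4 : E.c₄ = ((W.c₄ : ℤ) : ℚ) := by rw [hE, WeierstrassCurve.map_c₄]; rfl
  have hc6 : E.c₆ = ((W.c₆ : ℤ) : ℚ) := by rw [hE, WeierstrassCurve.map_c₆]; rfl
  rw [hc4, hc6] at hX
  obtain ⟨x, hx⟩ : ∃ x : ℤ, (x : ℚ) = 12 * x₀ + E.b₂ := by
    have hint : _root_.IsIntegral ℤ (12 * x₀ + E.b₂) := by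
      refine ⟨Polynomial.X ^ 4 + (Polynomial.C (-6 * W.c₄) * Polynomial.X ^ 2
        + Polynomial.C (-8 * W.c₆) * Polynomial.X + Polynomial.C (-3 * W.c₄ ^ 2)), ?_, ?_⟩
      · apply Polynomial.monic_X_pow_add
        compute_degree!
      · simp only [Polynomial.eval₂_add, Polynomial.eval₂_mul, Polynomial.eval₂_pow,
          Polynomial.eval₂_X, Polynomial.eval₂_C]
        simp only [algebraMap_int_eq, eq_intCast]
        push_cast
        linear_combination hX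
    exact IsIntegrallyClosed.isIntegral_iff.mp hint
  rw [← hx] at hX
  exact hroot x (by exact_mod_cast hX)

end Fermat.Agent.S52H
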