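import Mathlib
import Fermat.Prelude.Def_FLTPrelim_Modularity
import Fermat.Agent.S52.Congr

/-!
# The integral model with prescribed `c₄`, `c₆` (S52, piece P1)

`shift W s t` has the same `a₁ a₂ a₃` and `c₄ = c₄(W) + 1728 s`, `c₆ = c₆(W) + 864 t`.
-/

set_option autoImplicit false

open WeierstrassCurve

namespace Fermat.Agent.S52.Model

/-- Same `a₁ a₂ a₃`; `c₄` shifted by `1728 s` and `c₆` by `864 t`. -/
def shift {R : Type*} [CommRing R] (W : WeierstrassCurve R) (s t : R) : WeierstrassCurve R where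
  a₁ := W.a₁
  a₂ := W.a₂
  a₃ := W.a₃
  a₄ := W.a₄ - 36 * s
  a₆ := W.a₆ - t - 3 * W.b₂ * s

section

variable {R : Type*} [CommRing R] (W : WeierstrassCurve R) (s t : R)

@[simp] lemma shift_a₁ : (shift W s t).a₁ = W.a₁ := rfl
@[simp] lemma shift_a₂ : (shift W s t).a₂ = W.a₂ := rfl
@[simp] lemma shift_a₃ : (shift W s t).a₃ = W.a₃ := rfl
lemma shift_a₄ : (shift W s t).a₄ = W.a₄ - 36 * s := rfl
lemma shift_a₆ : (shift W s t).a₆ = W.a₆ - t - 3 * W.b₂ * s := rfl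

lemma shift_b₂ : (shift W s t).b₂ = W.b₂ := rfl

lemma shift_b₄ : (shift W s t).b₄ = W.b₄ - 72 * s := by
  simp only [WeierstrassCurve.b₄, shift_a₁, shift_a₃, shift_a₄]; ring

lemma shift_b₆ : (shift W s t).b₆ = W.b₆ - 4 * t - 12 * W.b₂ * s := by
  simp only [WeierstrassCurve.b₆, shift_a₃, shift_a₆]; ring

lemma shift_c₄ : (shift W s t).c₄ = W.c₄ + 1728 * s := by
  simp only [WeierstrassCurve.c₄, shift_b₂, shift_b₄]; ring

lemma shift_c₆ : (shift W s t).c₆ = W.c₆ + 864 * t := by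
  simp only [WeierstrassCurve.c₆, shift_b₂, shift_b₄, shift_b₆]; ring

lemma map_shift {S : Type*} [CommRing S] (f : R →+* S) :
    (shift W s t).map f = shift (W.map f) (f s) (f t) := by
  ext <;> simp [shift, WeierstrassCurve.map, WeierstrassCurve.b₂, map_ofNat]

@[simp] lemma shift_zero : shift W 0 0 = W := by
  ext <;> simp [shift]

end

/-- If `s` and `t` vanish mod `ℓ`, the reductions mod `ℓ` coincide. -/
lemma reductionMod_shift (W : WeierstrassCurve ℤ) {s t : ℤ} {ℓ : ℕ} (hs : (ℓ : ℤ) ∣ s)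
    (ht : (ℓ : ℤ) ∣ t) : (shift W s t).reductionMod ℓ = W.reductionMod ℓ := by
  have hs' : ((Int.castRingHom (ZMod ℓ)) s) = 0 := by
    simpa using (ZMod.intCast_zmod_eq_zero_iff_dvd s ℓ).2 hs
  have ht' : ((Int.castRingHom (ZMod ℓ)) t) = 0 := by
    simpa using (ZMod.intCast_zmod_eq_zero_iff_dvd t ℓ).2 ht
  rw [WeierstrassCurve.reductionMod, map_shift, hs', ht', shift_zero, WeierstrassCurve.reductionMod]

lemma apOfModel_shift (W : WeierstrassCurve ℤ) {s t : ℤ} {ℓ : ℕ} (hs : (ℓ : ℤ) ∣ s)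
    (ht : (ℓ : ℤ) ∣ t) : (shift W s t).apOfModel ℓ = W.apOfModel ℓ := by
  rw [WeierstrassCurve.apOfModel, reductionMod_shift W hs ht, WeierstrassCurve.apOfModel]

lemma cast_Δ (W : WeierstrassCurve ℤ) (ℓ : ℕ) :
    ((W.Δ : ℤ) : ZMod ℓ) = (W.reductionMod ℓ).Δ := by
  rw [WeierstrassCurve.reductionMod, WeierstrassCurve.map_Δ]; rfl

lemma dvd_Δ_iff (W : WeierstrassCurve ℤ) (ℓ : ℕ) :
    (ℓ : ℤ) ∣ W.Δ ↔ (W.reductionMod ℓ).Δ = 0 := by
  rw [← cast_Δ, ZMod.intCast_zmod_eq_zero_iff_dvd]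

lemma dvd_c₄_iff (W : WeierstrassCurve ℤ) (ℓ : ℕ) :
    (ℓ : ℤ) ∣ W.c₄ ↔ (W.reductionMod ℓ).c₄ = 0 := by
  have : ((W.c₄ : ℤ) : ZMod ℓ) = (W.reductionMod ℓ).c₄ := by
    rw [WeierstrassCurve.reductionMod, WeierstrassCurve.map_c₄]; rfl
  rw [← this, ZMod.intCast_zmod_eq_zero_iff_dvd]

lemma shift_semistable_at (W : WeierstrassCurve ℤ) (hW : W.IsSemistableModel) {s t : ℤ} {ℓ : ℕ}
    (hℓ : ℓ.Prime) (hs : (ℓ : ℤ) ∣ s)
    (ht : (ℓ : ℤ) ∣ t) (h : (ℓ : ℤ) ∣ (shift W s t).Δ) : ¬ (ℓ : ℤ) ∣ (shift W s t).c₄ := by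
  rw [dvd_Δ_iff, reductionMod_shift W hs ht, ← dvd_Δ_iff] at h
  rw [dvd_c₄_iff, reductionMod_shift W hs ht, ← dvd_c₄_iff]
  exact hW ℓ hℓ h

/-- The 3-division quartic has the integer root `3u` when the discriminant vanishes. -/
lemma Δ_ne_zero_of_quartic (W : WeierstrassCurve ℤ)
    (h : ∀ x : ℤ, x ^ 4 - 6 * W.c₄ * x ^ 2 - 8 * W.c₆ * x - 3 * W.c₄ ^ 2 ≠ 0) : W.Δ ≠ 0 := by
  intro h0
  have hr := W.c_relation
  rw [h0, mul_zero] at hr
  have h1 : W.c₄ ^ 2 * W.c₄ = W.c₆ ^ 2 := by linear_combination -hr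
  by_cases h4 : W.c₄ = 0
  · have h6 : W.c₆ = 0 := by
      rw [h4] at h1
      have : W.c₆ ^ 2 = 0 := by rw [← h1]; ring
      exact pow_eq_zero_iff two_ne_zero |>.1 this
    apply h 0
    rw [h4, h6]; ring
  · have hd : W.c₄ ^ 2 ∣ W.c₆ ^ 2 := ⟨W.c₄, h1.symm⟩
    rw [Int.pow_dvd_pow_iff two_ne_zero] at hd
    obtain ⟨u, hu⟩ := hd
    have h2 : W.c₄ = u ^ 2 := by
      rw [hu, mul_pow] at h1
      exact mul_left_cancel₀ (pow_ne_zero 2 h4) h1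
    apply h (3 * u)
    rw [hu, h2]; ring

end Fermat.Agent.S52.Model
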