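import Fermat.Agent.S52.Congr
import Fermat.Agent.S52.Ident
import Fermat.Agent.FrobTrace.Main
import Fermat.Prelude.Def_FLTPrelim_Modularity

/-!
# The 5-congruence (piece P2 of S52)
-/

set_option autoImplicit false

open Polynomial WeierstrassCurve WeierstrassCurve.Affine
open scoped WeierstrassCurve.Affine

namespace Fermat.Agent.S52T

open Fermat.Agent.S52L

theorem c4T_eq {R : Type*} [CommRing R] (p q : R) : c4T p q = c4f p q := rfl

theorem c6T_eq {R : Type*} [CommRing R] (p q : R) : c6T p q = c6f p q := rfl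

section map

variable {R S : Type*} [CommRing R] [CommRing S] (f : R →+* S) (l m p q a b : R)

theorem map_LL : f (LL l m p q) = LL (f l) (f m) (f p) (f q) := by
  simp only [LL, map_add, map_mul, map_pow]

theorem map_E5 : f (E5 l m p q) = E5 (f l) (f m) (f p) (f q) := by
  simp only [E5, map_LL, map_add, map_mul, map_pow, map_ofNat]

theorem map_O5 : f (O5 l m p q) = O5 (f l) (f m) (f p) (f q) := by
  simp only [O5, map_LL, map_add, map_mul, map_pow, map_ofNat]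

theorem map_pp : f (pp l m p q) = pp (f l) (f m) (f p) (f q) := by
  simp only [pp, map_E5, map_O5, map_add, map_sub, map_mul, map_ofNat]

theorem map_qq : f (qq l m p q) = qq (f l) (f m) (f p) (f q) := by
  simp only [qq, map_E5, map_O5, map_add, map_sub, map_mul, map_ofNat]

theorem map_C4 : f (C4 l m a b) = C4 (f l) (f m) (f a) (f b) := by
  simp only [C4, C4p0, C4p1, C4p2, C4p3,
    C4_0, C4_1, C4_2, C4_3, C4_4, C4_5, C4_6, C4_7, C4_8, C4_9, C4_10, C4_11, C4_12, C4_13,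
    C4_14, C4_15, C4_16, C4_17, C4_18, C4_19, C4_20,
    map_add, map_mul, map_pow, map_neg, map_ofNat]

theorem map_C6 : f (C6 l m a b) = C6 (f l) (f m) (f a) (f b) := by
  simp only [C6, C6p0, C6p1, C6p2, C6p3, C6p4, C6p5,
    C6_0, C6_1, C6_2, C6_3, C6_4, C6_5, C6_6, C6_7, C6_8, C6_9, C6_10, C6_11, C6_12, C6_13,
    C6_14, C6_15, C6_16, C6_17, C6_18, C6_19, C6_20, C6_21, C6_22, C6_23, C6_24, C6_25, C6_26,
    C6_27, C6_28, C6_29, C6_30,
    map_add, map_mul, map_pow, map_neg, map_ofNat]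

theorem pp_one_zero : pp 1 0 p q = p := by
  simp only [pp, E5, O5, LL]; ring

theorem qq_one_zero : qq 1 0 p q = q := by
  simp only [qq, E5, O5, LL]; ring

end map

/-- **The 5-congruence** in the explicit family (over a general base field). -/
theorem five_dvd_family {F₀ : Type*} [Field F₀] {k : Type*} [Field k] [DecidableEq k]
    [Algebra F₀ k] [IsAlgClosed k] (h6 : (6 : k) ≠ 0) (h5 : (5 : k) ≠ 0)
    (W W' : WeierstrassCurve F₀) (l m : F₀)
    (h₁ : W'.a₁ = W.a₁) (h₂ : W'.a₂ = W.a₂) (h₃ : W'.a₃ = W.a₃)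
    (h4 : W'.c₄ = C4 l m W.c₄ W.c₆) (h6' : W'.c₆ = C6 l m W.c₄ W.c₆)
    (hΔ : W.Δ ≠ 0) (hΔ' : W'.Δ ≠ 0) (φ : k →ₐ[F₀] k) (a a' b : ℤ)
    (hCH : ∀ P : (W⁄k).Point,
      Point.map (W' := W) (S := F₀) φ (Point.map (W' := W) (S := F₀) φ P)
        - a • Point.map (W' := W) (S := F₀) φ P + b • P = 0)
    (hCH' : ∀ P : (W'⁄k).Point,
      Point.map (W' := W') (S := F₀) φ (Point.map (W' := W') (S := F₀) φ P)
        - a' • Point.map (W' := W') (S := F₀) φ P + b • P = 0) :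
    (5 : ℤ) ∣ a' - a := by
  have hΔk : (W⁄k).Δ ≠ 0 := by
    have : (W⁄k).Δ = algebraMap F₀ k W.Δ := WeierstrassCurve.map_Δ W _
    rw [this]; exact (_root_.map_ne_zero _).mpr hΔ
  have hΔk' : (W'⁄k).Δ ≠ 0 := by
    have : (W'⁄k).Δ = algebraMap F₀ k W'.Δ := WeierstrassCurve.map_Δ W' _
    rw [this]; exact (_root_.map_ne_zero _).mpr hΔ'
  have e4 : (W⁄k).c₄ = algebraMap F₀ k W.c₄ := WeierstrassCurve.map_c₄ W _
  have e6 : (W⁄k).c₆ = algebraMap F₀ k W.c₆ := WeierstrassCurve.map_c₆ W _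
  have e4' : (W'⁄k).c₄ = algebraMap F₀ k W'.c₄ := WeierstrassCurve.map_c₄ W' _
  have e6' : (W'⁄k).c₆ = algebraMap F₀ k W'.c₆ := WeierstrassCurve.map_c₆ W' _
  rw [h4, map_C4, ← e4, ← e6] at e4'
  rw [h6', map_C6, ← e4, ← e6] at e6'
  set lk := algebraMap F₀ k l with hlk
  set mk := algebraMap F₀ k m with hmk
  -- the line
  let lX : k[X] := 1 + X * (C lk - 1)
  let mX : k[X] := X * C mk
  have hl0 : evalRingHom 0 lX = 1 := by simp [lX]
  have hm0 : evalRingHom 0 mX = 0 := by simp [mX]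
  have hl1 : evalRingHom 1 lX = lk := by simp [lX]
  have hm1 : evalRingHom 1 mX = mk := by simp [mX]
  have hpar : ∀ p q, IsParam (W⁄k) p q →
      C4 lX mX (C (W⁄k).c₄) (C (W⁄k).c₆) = c4f (pp lX mX (C p) (C q)) (qq lX mX (C p) (C q)) ∧
      C6 lX mX (C (W⁄k).c₄) (C (W⁄k).c₆) = c6f (pp lX mX (C p) (C q)) (qq lX mX (C p) (C q)) := by
    intro p q h
    rw [h.c4, h.c6, map_c4f, map_c6f, ← c4T_eq, ← c6T_eq, ← c4T_eq, ← c6T_eq]
    exact ⟨Ident.C4_T _ _ _ _, Ident.C6_T _ _ _ _⟩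
  obtain ⟨P, hP0, hP5⟩ := exists_five_torsion h5 (W⁄k) hΔk
  obtain ⟨p₀, q₀, hpq₀, -⟩ := exists_param hΔk h6 P hP0 hP5
  refine five_dvd_sub h6 h5 W W' h₁ h₂ h₃ hΔk hΔk' φ
    (C4 lX mX (C (W⁄k).c₄) (C (W⁄k).c₆)) (C6 lX mX (C (W⁄k).c₄) (C (W⁄k).c₆))
    (fun p q => pp lX mX (C p) (C q)) (fun p q => qq lX mX (C p) (C q))
    ?_ ?_ ?_ ?_ ?_ ?_ ?_ ?_ (fun p q h => (hpar p q h).1) (fun p q h => (hpar p q h).2) a a' b
    (fun P _ => hCH P) (fun P _ => hCH' P)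
  · rw [(hpar _ _ hpq₀).1, ← coe_evalRingHom, map_c4f, map_pp, map_qq, hl0, hm0]
    simp only [coe_evalRingHom, eval_C, pp_one_zero, qq_one_zero]
    exact hpq₀.c4.symm
  · rw [(hpar _ _ hpq₀).2, ← coe_evalRingHom, map_c6f, map_pp, map_qq, hl0, hm0]
    simp only [coe_evalRingHom, eval_C, pp_one_zero, qq_one_zero]
    exact hpq₀.c6.symm
  · rw [← coe_evalRingHom, map_C4, hl1, hm1, e4']
    simp only [coe_evalRingHom, eval_C]
  · rw [← coe_evalRingHom, map_C6, hl1, hm1, e6']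
    simp only [coe_evalRingHom, eval_C]
  · intro p q
    rw [← coe_evalRingHom, map_pp, hl0, hm0]
    simp only [coe_evalRingHom, eval_C, pp_one_zero]
  · intro p q
    rw [← coe_evalRingHom, map_qq, hl0, hm0]
    simp only [coe_evalRingHom, eval_C, qq_one_zero]
  · intro p q
    rw [← coe_evalRingHom, map_pp, map_pp, hl1, hm1]
    simp only [coe_evalRingHom, eval_C]
    have := map_pp (φ : k →+* k) lk mk p q
    simp only [RingHom.coe_coe, hlk, hmk, φ.commutes] at this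
    exact this.symm
  · intro p q
    rw [← coe_evalRingHom, map_qq, map_qq, hl1, hm1]
    simp only [coe_evalRingHom, eval_C]
    have := map_qq (φ : k →+* k) lk mk p q
    simp only [RingHom.coe_coe, hlk, hmk, φ.commutes] at this
    exact this.symm

/-- **P2.** Two integral Weierstrass models with the same `a₁, a₂, a₃` and with
`(c₄', c₆') = (C4, C6)(l, m; c₄, c₆)`: at every common good prime `ℓ ∤ 30` the traces of Frobenius
are congruent mod 5. -/
theorem five_dvd_apOfModel_sub (ℓ : ℕ) (hℓ : ℓ.Prime) (hℓ2 : ℓ ≠ 2) (hℓ3 : ℓ ≠ 3) (hℓ5 : ℓ ≠ 5)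
    (W W' : WeierstrassCurve ℤ) (l m : ℤ)
    (h₁ : W'.a₁ = W.a₁) (h₂ : W'.a₂ = W.a₂) (h₃ : W'.a₃ = W.a₃)
    (h4 : W'.c₄ = C4 l m W.c₄ W.c₆) (h6 : W'.c₆ = C6 l m W.c₄ W.c₆)
    (hgood : W.IsGoodPrimeFor ℓ) (hgood' : W'.IsGoodPrimeFor ℓ) :
    (5 : ℤ) ∣ W'.apOfModel ℓ - W.apOfModel ℓ := by
  have : Fact ℓ.Prime := ⟨hℓ⟩
  classical
  let k := AlgebraicClosure (ZMod ℓ)
  have : CharP k ℓ := charP_of_injective_algebraMap (algebraMap (ZMod ℓ) k).injective ℓ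
  have hne : ∀ n : ℕ, ¬ ℓ ∣ n → (n : k) ≠ 0 := fun n hn h => hn ((CharP.cast_eq_zero_iff k ℓ n).mp h)
  have h6k : (6 : k) ≠ 0 := by
    have : ¬ ℓ ∣ 6 := by
      intro h
      have : ℓ ∣ 2 * 3 := h
      rcases (hℓ.dvd_mul).mp this with h | h
      · exact hℓ2 ((Nat.prime_dvd_prime_iff_eq hℓ Nat.prime_two).mp h)
      · exact hℓ3 ((Nat.prime_dvd_prime_iff_eq hℓ Nat.prime_three).mp h)
    exact_mod_cast hne 6 this
  have h5k : (5 : k) ≠ 0 := by
    have : ¬ ℓ ∣ 5 := fun h => hℓ5 ((Nat.prime_dvd_prime_iff_eq hℓ Nat.prime_five).mp h)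
    exact_mod_cast hne 5 this
  have hΔ : (W.reductionMod ℓ).Δ ≠ 0 := by
    rw [reductionMod, WeierstrassCurve.map_Δ]
    intro h
    exact hgood ((ZMod.intCast_zmod_eq_zero_iff_dvd _ ℓ).mp h)
  have hΔ' : (W'.reductionMod ℓ).Δ ≠ 0 := by
    rw [reductionMod, WeierstrassCurve.map_Δ]
    intro h
    exact hgood' ((ZMod.intCast_zmod_eq_zero_iff_dvd _ ℓ).mp h)
  refine five_dvd_family (k := k) h6k h5k (W.reductionMod ℓ) (W'.reductionMod ℓ) (l : ZMod ℓ)
    (m : ZMod ℓ) (congrArg (Int.castRingHom (ZMod ℓ)) h₁) (congrArg (Int.castRingHom (ZMod ℓ)) h₂)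
    (congrArg (Int.castRingHom (ZMod ℓ)) h₃) ?_ ?_ hΔ hΔ'
    (FiniteField.frobeniusAlgHom (ZMod ℓ) k) (W.apOfModel ℓ) (W'.apOfModel ℓ) (ℓ : ℤ) ?_ ?_
  · rw [reductionMod, reductionMod, WeierstrassCurve.map_c₄, WeierstrassCurve.map_c₄,
      WeierstrassCurve.map_c₆, h4, map_C4]
    rfl
  · rw [reductionMod, reductionMod, WeierstrassCurve.map_c₆, WeierstrassCurve.map_c₄,
      WeierstrassCurve.map_c₆, h6, map_C6]
    rfl
  · intro P
    exact Fermat.Agent.FrobTrace.frob_cayley_zmod hΔ _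
      (fun x => by rw [FiniteField.frobeniusAlgHom_apply, ZMod.card]) P
  · intro P
    exact Fermat.Agent.FrobTrace.frob_cayley_zmod hΔ' _
      (fun x => by rw [FiniteField.frobeniusAlgHom_apply, ZMod.card]) P

end Fermat.Agent.S52T
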