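import Mathlib

set_option autoImplicit false

namespace Fermat.Agent.S52H

open Polynomial

/-- The generic 3-division quartic of a family has no polynomial root. -/
theorem no_poly_root (A B D : ℚ[X]) (hA : A.natDegree ≤ 20)
    (κ : ℚ) (hκ : κ ≠ 0) (hABD : A ^ 3 - B ^ 2 = C κ * D ^ 5)
    (hsq : Squarefree D) (hcop : IsCoprime A D) (hD : 5 ≤ D.natDegree)
    (x : ℚ[X]) (hx : x.natDegree ≤ 10)
    (h : x ^ 4 - 6 * A * x ^ 2 - 8 * B * x - 3 * A ^ 2 = 0) : False := by
  have hD0 : D ≠ 0 := by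
    rintro rfl
    simp at hD
  have key : (x ^ 2 - A) ^ 3 * (x ^ 2 - 9 * A) = - 64 * C κ * D ^ 5 * x ^ 2 := by
    have h8 : 8 * B * x = x ^ 4 - 6 * A * x ^ 2 - 3 * A ^ 2 := by linear_combination -h
    have hB2 : B ^ 2 = A ^ 3 - C κ * D ^ 5 := by linear_combination -hABD
    have h64 : 64 * (A ^ 3 - C κ * D ^ 5) * x ^ 2 = (x ^ 4 - 6 * A * x ^ 2 - 3 * A ^ 2) ^ 2 := by
      rw [← h8, ← hB2]; ring
    linear_combination -h64
  -- `x` is coprime to `D`
  have hcopx : IsCoprime x D := by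
    have h1 : IsCoprime (3 * A ^ 2) D := by
      have h3 : IsCoprime (3 : ℚ[X]) D := by
        have : IsUnit (3 : ℚ[X]) := by
          have : (3 : ℚ[X]) = C 3 := rfl
          rw [this]
          exact (isUnit_C).2 (by norm_num)
        exact isCoprime_one_left.of_isCoprime_of_dvd_left this.dvd
      exact h3.mul_left (hcop.pow_left)
    have h2 : x ∣ 3 * A ^ 2 := ⟨x ^ 3 - 6 * A * x - 8 * B, by linear_combination -h⟩
    exact h1.of_isCoprime_of_dvd_left h2
  -- `x^2 - A` and `x^2 - 9A` are coprime modulo D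
  have hcz : IsCoprime (D ^ 5) ((x ^ 2 - A) ^ 3) := by
    refine IsCoprime.pow ?_
    refine isCoprime_of_prime_dvd (fun h => hD0 h.1) ?_
    intro π hπ hπD hπz
    have hπx : ¬ π ∣ x := fun hh =>
      hπ.not_isUnit (hcopx.isUnit_of_dvd' hh hπD)
    have hπA : ¬ π ∣ A := fun hh =>
      hπ.not_isUnit (hcop.isUnit_of_dvd' hh hπD)
    have hπy : ¬ π ∣ x ^ 2 - 9 * A := by
      intro hh
      have h8 : π ∣ C 8 * A := by
        have := dvd_sub hπz hh
        have h9 : x ^ 2 - A - (x ^ 2 - 9 * A) = C 8 * A := by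
          have : (C 8 : ℚ[X]) = 8 := rfl
          rw [this]; ring
        rwa [h9] at this
      rcases hπ.dvd_or_dvd h8 with h8 | h8
      · exact hπ.not_isUnit (isUnit_of_dvd_unit h8 ((isUnit_C).2 (by norm_num)))
      · exact hπA h8
    obtain ⟨D', hD'⟩ := hπD
    obtain ⟨z', hz'⟩ := hπz
    have hπD' : ¬ π ∣ D' := by
      rintro ⟨e, rfl⟩
      exact hπ.not_isUnit (hsq π ⟨e, by rw [hD']; ring⟩)
    have hπ0 : π ≠ 0 := hπ.ne_zero
    have e1 : z' ^ 3 * (x ^ 2 - 9 * A) = - 64 * C κ * π ^ 2 * D' ^ 5 * x ^ 2 := by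
      have : π ^ 3 * (z' ^ 3 * (x ^ 2 - 9 * A)) = π ^ 3 * (- 64 * C κ * π ^ 2 * D' ^ 5 * x ^ 2) := by
        have h1 := key
        rw [hz', hD'] at h1
        linear_combination h1
      exact mul_left_cancel₀ (pow_ne_zero 3 hπ0) this
    have hz'' : π ∣ z' := by
      have : π ∣ z' ^ 3 * (x ^ 2 - 9 * A) := by
        rw [e1]
        exact ⟨-64 * C κ * π * D' ^ 5 * x ^ 2, by ring⟩
      rcases hπ.dvd_or_dvd this with h1 | h1
      · exact hπ.dvd_of_dvd_pow h1
      · exact absurd h1 hπy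
    obtain ⟨z'', rfl⟩ := hz''
    have e2 : π * (z'' ^ 3 * (x ^ 2 - 9 * A)) = C (- 64 * κ) * (D' ^ 5 * x ^ 2) := by
      have : π ^ 2 * (π * (z'' ^ 3 * (x ^ 2 - 9 * A))) =
          π ^ 2 * (C (- 64 * κ) * (D' ^ 5 * x ^ 2)) := by
        have h1 : C (- 64 * κ) = (-64 : ℚ[X]) * C κ := by
          rw [C_mul, C_neg]
          have : (C 64 : ℚ[X]) = 64 := rfl
          rw [this]
        rw [h1]
        linear_combination e1
      exact mul_left_cancel₀ (pow_ne_zero 2 hπ0) this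
    have h3 : π ∣ C (- 64 * κ) * (D' ^ 5 * x ^ 2) := ⟨_, e2.symm⟩
    rcases hπ.dvd_or_dvd h3 with h3 | h3
    · exact hπ.not_isUnit (isUnit_of_dvd_unit h3 ((isUnit_C).2
        (by simpa using hκ)))
    · rcases hπ.dvd_or_dvd h3 with h3 | h3
      · exact hπD' (hπ.dvd_of_dvd_pow h3)
      · exact hπx (hπ.dvd_of_dvd_pow h3)
  have hdvd : D ^ 5 ∣ x ^ 2 - 9 * A := by
    refine hcz.dvd_of_dvd_mul_left ?_
    rw [key]
    exact ⟨-64 * C κ * x ^ 2, by ring⟩
  have hdeg : (x ^ 2 - 9 * A).natDegree < (D ^ 5).natDegree := by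
    rw [natDegree_pow]
    have h1 : (x ^ 2 - 9 * A).natDegree ≤ 20 := by
      refine (natDegree_sub_le _ _).trans (max_le ?_ ?_)
      · rw [natDegree_pow]; omega
      · refine natDegree_mul_le.trans ?_
        have : (9 : ℚ[X]).natDegree = 0 := by
          have : (9 : ℚ[X]) = C 9 := rfl
          rw [this, natDegree_C]
        omega
    omega
  have hx9 : x ^ 2 - 9 * A = 0 := by
    by_contra hne
    exact absurd (natDegree_le_of_dvd hdvd hne) (by omega)
  rw [hx9, mul_zero] at key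
  have hx0 : x = 0 := by
    by_contra hne
    have : (-64 : ℚ[X]) * C κ * D ^ 5 * x ^ 2 ≠ 0 := by
      refine mul_ne_zero (mul_ne_zero (mul_ne_zero ?_ ?_) (pow_ne_zero _ hD0)) (pow_ne_zero _ hne)
      · norm_num
      · simpa using hκ
    exact this key.symm
  subst hx0
  have hunit : IsUnit D := (isCoprime_zero_left).1 hcopx
  have := natDegree_eq_zero_of_isUnit hunit
  omega

end Fermat.Agent.S52H
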