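import Fermat.Agent.S52.Family

/-!
# Verification of the polynomial identities for the 5-congruence family
(auto-generated; each identity is checked coefficientwise in `l, m`)
-/

set_option autoImplicit false
set_option linter.unusedVariables false
set_option linter.unusedSimpArgs false

namespace Fermat.Agent.S52L.Ident

variable {R : Type*} [CommRing R]

def fp0 (p q : R) : R := 1*p
def fp1 (p q : R) : R := 5*p^3 + 66*p^2*q + (-7)*p*q^2
def fp2 (p q : R) : R := 10*p^5 + 264*p^4*q + 1772*p^3*q^2 + 264*p^2*q^3 + (-38)*p*q^4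
def fp3 (p q : R) : R := 10*p^7 + 396*p^6*q + 5358*p^5*q^2 + 24552*p^4*q^3 + 966*p^3*q^4 + 396*p^2*q^5 + (-62)*p*q^6
def fp4 (p q : R) : R := 5*p^9 + 264*p^8*q + 5372*p^7*q^2 + 48312*p^6*q^3 + 164046*p^5*q^4 + 48312*p^4*q^5 + (-3364)*p^3*q^6 + 264*p^2*q^7 + (-43)*p*q^8
def fp5 (p q : R) : R := 1*p^11 + 66*p^10*q + 1793*p^9*q^2 + 24024*p^8*q^3 + 163042*p^7*q^4 + 475596*p^6*q^5 + 80938*p^5*q^6 + 24024*p^4*q^7 + (-2563)*p^3*q^8 + 66*p^2*q^9 + (-11)*p*q^10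

def fq0 (p q : R) : R := 1*q
def fq1 (p q : R) : R := (-7)*p^2*q + (-66)*p*q^2 + 5*q^3
def fq2 (p q : R) : R := (-38)*p^4*q + (-264)*p^3*q^2 + 1772*p^2*q^3 + (-264)*p*q^4 + 10*q^5
def fq3 (p q : R) : R := (-62)*p^6*q + (-396)*p^5*q^2 + 966*p^4*q^3 + (-24552)*p^3*q^4 + 5358*p^2*q^5 + (-396)*p*q^6 + 10*q^7
def fq4 (p q : R) : R := (-43)*p^8*q + (-264)*p^7*q^2 + (-3364)*p^6*q^3 + (-48312)*p^5*q^4 + 164046*p^4*q^5 + (-48312)*p^3*q^6 + 5372*p^2*q^7 + (-264)*p*q^8 + 5*q^9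
def fq5 (p q : R) : R := (-11)*p^10*q + (-66)*p^9*q^2 + (-2563)*p^8*q^3 + (-24024)*p^7*q^4 + 80938*p^6*q^5 + (-475596)*p^5*q^6 + 163042*p^4*q^7 + (-24024)*p^3*q^8 + 1793*p^2*q^9 + (-66)*p*q^10 + 1*q^11

def fa0 (p q : R) : R := 1*p^2
def fa1 (p q : R) : R := 10*p^4 + 132*p^3*q + (-14)*p^2*q^2
def fa2 (p q : R) : R := 45*p^6 + 1188*p^5*q + 7830*p^4*q^2 + (-396)*p^3*q^3 + (-27)*p^2*q^4
def fa3 (p q : R) : R := 120*p^8 + 4752*p^7*q + 63144*p^6*q^2 + 281952*p^5*q^3 + 11592*p^4*q^4 + (-7920)*p^3*q^5 + 408*p^2*q^6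
def fa4 (p q : R) : R := 210*p^10 + 11088*p^9*q + 221592*p^8*q^2 + 1984752*p^7*q^3 + 6782220*p^6*q^4 + 799920*p^5*q^5 + (-33576)*p^4*q^6 + (-33264)*p^3*q^7 + 2226*p^2*q^8
def fa5 (p q : R) : R := 252*p^12 + 16632*p^11*q + 443772*p^10*q^2 + 5965344*p^9*q^3 + 40448376*p^8*q^4 + 112741200*p^7*q^5 + 20396376*p^6*q^6 + (-1054944)*p^5*q^7 + (-7668)*p^4*q^8 + (-72072)*p^3*q^9 + 5292*p^2*q^10
def fa6 (p q : R) : R := 210*p^14 + 16632*p^13*q + 555156*p^12*q^2 + 9951480*p^11*q^3 + 100916190*p^10*q^4 + 551430000*p^9*q^5 + 1306691160*p^8*q^6 + 308286000*p^7*q^7 + 22984110*p^6*q^8 + (-7488360)*p^5*q^9 + 324180*p^4*q^10 + (-94248)*p^3*q^11 + 7266*p^2*q^12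
def fa7 (p q : R) : R := 120*p^16 + 11088*p^15*q + 444360*p^14*q^2 + 9957024*p^13*q^3 + 134418168*p^12*q^4 + 1094583600*p^11*q^5 + 5022115080*p^10*q^6 + 10480916160*p^9*q^7 + 3229207080*p^8*q^8 + 145260720*p^7*q^9 + 21409560*p^6*q^10 + (-13207392)*p^5*q^11 + 733800*p^4*q^12 + (-77616)*p^3*q^13 + 6168*p^2*q^14
def fa8 (p q : R) : R := 45*p^18 + 4752*p^17*q + 222264*p^16*q^2 + 5976432*p^15*q^3 + 100752012*p^14*q^4 + 1090417680*p^13*q^5 + 7430674248*p^12*q^6 + 29582982000*p^11*q^7 + 56116960110*p^10*q^8 + 20803345200*p^9*q^9 + 2920483080*p^8*q^10 + (-316193328)*p^7*q^11 + 29879244*p^6*q^12 + (-11352528)*p^5*q^13 + 707832*p^4*q^14 + (-39600)*p^3*q^15 + 3213*p^2*q^16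
def fa9 (p q : R) : R := 10*p^20 + 1188*p^19*q + 63522*p^18*q^2 + 1992672*p^17*q^3 + 40284360*p^16*q^4 + 543953520*p^15*q^5 + 4919581704*p^14*q^6 + 28961434656*p^13*q^7 + 102638287116*p^12*q^8 + 179709635160*p^11*q^9 + 73718474940*p^10*q^10 + 12339901728*p^9*q^11 + 1179196392*p^8*q^12 + (-386855568)*p^7*q^13 + 25736040*p^6*q^14 + (-4926240)*p^5*q^15 + 329274*p^4*q^16 + (-11484)*p^3*q^17 + 946*p^2*q^18
def fa10 (p q : R) : R := 1*p^22 + 132*p^21*q + 7942*p^20*q^2 + 284724*p^19*q^3 + 6712101*p^18*q^4 + 108622800*p^17*q^5 + 1224761736*p^16*q^6 + 9550061136*p^15*q^7 + 49727540082*p^14*q^8 + 159058966968*p^13*q^9 + 253729264932*p^12*q^10 + 84698508312*p^11*q^11 + 28569774882*p^10*q^12 + 1471996944*p^9*q^13 + 221456136*p^8*q^14 + (-122926320)*p^7*q^15 + 7959501*p^6*q^16 + (-866844)*p^5*q^17 + 60742*p^4*q^18 + (-1452)*p^3*q^19 + 121*p^2*q^20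

def fb0 (p q : R) : R := 1*p*q
def fb1 (p q : R) : R := (-2)*p^3*q + (-2)*p*q^3
def fb2 (p q : R) : R := (-63)*p^5*q + (-792)*p^4*q^2 + (-738)*p^3*q^3 + 792*p^2*q^4 + (-63)*p*q^5
def fb3 (p q : R) : R := (-312)*p^7*q + (-6336)*p^6*q^2 + (-31752)*p^5*q^3 + (-31752)*p^3*q^5 + 6336*p^2*q^6 + (-312)*p*q^7
def fb4 (p q : R) : R := (-798)*p^9*q + (-22176)*p^8*q^2 + (-201768)*p^7*q^3 + (-592416)*p^6*q^4 + 129420*p^5*q^5 + 592416*p^4*q^6 + (-201768)*p^3*q^7 + 22176*p^2*q^8 + (-798)*p*q^9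
def fb5 (p q : R) : R := (-1260)*p^11*q + (-44352)*p^10*q^2 + (-584892)*p^9*q^3 + (-3510144)*p^8*q^4 + (-8357976)*p^7*q^5 + (-8357976)*p^5*q^7 + 3510144*p^4*q^8 + (-584892)*p^3*q^9 + 44352*p^2*q^10 + (-1260)*p*q^11
def fb6 (p q : R) : R := (-1302)*p^13*q + (-55440)*p^12*q^2 + (-957852)*p^11*q^3 + (-8719920)*p^10*q^4 + (-44838090)*p^9*q^5 + (-121572000)*p^8*q^6 + (-105025800)*p^7*q^7 + 121572000*p^6*q^8 + (-44838090)*p^5*q^9 + 8719920*p^4*q^10 + (-957852)*p^3*q^11 + 55440*p^2*q^12 + (-1302)*p*q^13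
def fb7 (p q : R) : R := (-888)*p^15*q + (-44352)*p^14*q^2 + (-947688)*p^13*q^3 + (-11582208)*p^12*q^4 + (-92076408)*p^11*q^5 + (-474661440)*p^10*q^6 + (-1180355880)*p^9*q^7 + (-1180355880)*p^7*q^9 + 474661440*p^6*q^10 + (-92076408)*p^5*q^11 + 11582208*p^4*q^12 + (-947688)*p^3*q^13 + 44352*p^2*q^14 + (-888)*p*q^15
def fb8 (p q : R) : R := (-387)*p^17*q + (-22176)*p^16*q^2 + (-564552)*p^15*q^3 + (-8664480)*p^14*q^4 + (-93386772)*p^13*q^5 + (-703305504)*p^12*q^6 + (-2991472632)*p^11*q^7 + (-4389818400)*p^10*q^8 + 795192750*p^9*q^9 + 4389818400*p^8*q^10 + (-2991472632)*p^7*q^11 + 703305504*p^6*q^12 + (-93386772)*p^5*q^13 + 8664480*p^4*q^14 + (-564552)*p^3*q^15 + 22176*p^2*q^16 + (-387)*p*q^17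
def fb9 (p q : R) : R := (-98)*p^19*q + (-6336)*p^18*q^2 + (-187218)*p^17*q^3 + (-3459456)*p^16*q^4 + (-47108520)*p^15*q^5 + (-465404544)*p^14*q^6 + (-2821399368)*p^13*q^7 + (-8310766464)*p^12*q^8 + (-7642099548)*p^11*q^9 + (-7642099548)*p^9*q^11 + 8310766464*p^8*q^12 + (-2821399368)*p^7*q^13 + 465404544*p^6*q^14 + (-47108520)*p^5*q^15 + 3459456*p^4*q^16 + (-187218)*p^3*q^17 + 6336*p^2*q^18 + (-98)*p*q^19
def fb10 (p q : R) : R := (-11)*p^21*q + (-792)*p^20*q^2 + (-26642)*p^19*q^3 + (-575784)*p^18*q^4 + (-9479151)*p^17*q^5 + (-115774560)*p^16*q^6 + (-913413336)*p^15*q^7 + (-4039032096)*p^14*q^8 + (-9573394182)*p^13*q^9 + (-37180229328)*p^12*q^10 + (-194202431532)*p^11*q^11 + 37180229328*p^10*q^12 + (-9573394182)*p^9*q^13 + 4039032096*p^8*q^14 + (-913413336)*p^7*q^15 + 115774560*p^6*q^16 + (-9479151)*p^5*q^17 + 575784*p^4*q^18 + (-26642)*p^3*q^19 + 792*p^2*q^20 + (-11)*p*q^21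

def fc0 (p q : R) : R := 1*q^2
def fc1 (p q : R) : R := (-14)*p^2*q^2 + (-132)*p*q^3 + 10*q^4
def fc2 (p q : R) : R := (-27)*p^4*q^2 + 396*p^3*q^3 + 7830*p^2*q^4 + (-1188)*p*q^5 + 45*q^6
def fc3 (p q : R) : R := 408*p^6*q^2 + 7920*p^5*q^3 + 11592*p^4*q^4 + (-281952)*p^3*q^5 + 63144*p^2*q^6 + (-4752)*p*q^7 + 120*q^8
def fc4 (p q : R) : R := 2226*p^8*q^2 + 33264*p^7*q^3 + (-33576)*p^6*q^4 + (-799920)*p^5*q^5 + 6782220*p^4*q^6 + (-1984752)*p^3*q^7 + 221592*p^2*q^8 + (-11088)*p*q^9 + 210*q^10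
def fc5 (p q : R) : R := 5292*p^10*q^2 + 72072*p^9*q^3 + (-7668)*p^8*q^4 + 1054944*p^7*q^5 + 20396376*p^6*q^6 + (-112741200)*p^5*q^7 + 40448376*p^4*q^8 + (-5965344)*p^3*q^9 + 443772*p^2*q^10 + (-16632)*p*q^11 + 252*q^12
def fc6 (p q : R) : R := 7266*p^12*q^2 + 94248*p^11*q^3 + 324180*p^10*q^4 + 7488360*p^9*q^5 + 22984110*p^8*q^6 + (-308286000)*p^7*q^7 + 1306691160*p^6*q^8 + (-551430000)*p^5*q^9 + 100916190*p^4*q^10 + (-9951480)*p^3*q^11 + 555156*p^2*q^12 + (-16632)*p*q^13 + 210*q^14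
def fc7 (p q : R) : R := 6168*p^14*q^2 + 77616*p^13*q^3 + 733800*p^12*q^4 + 13207392*p^11*q^5 + 21409560*p^10*q^6 + (-145260720)*p^9*q^7 + 3229207080*p^8*q^8 + (-10480916160)*p^7*q^9 + 5022115080*p^6*q^10 + (-1094583600)*p^5*q^11 + 134418168*p^4*q^12 + (-9957024)*p^3*q^13 + 444360*p^2*q^14 + (-11088)*p*q^15 + 120*q^16
def fc8 (p q : R) : R := 3213*p^16*q^2 + 39600*p^15*q^3 + 707832*p^14*q^4 + 11352528*p^13*q^5 + 29879244*p^12*q^6 + 316193328*p^11*q^7 + 2920483080*p^10*q^8 + (-20803345200)*p^9*q^9 + 56116960110*p^8*q^10 + (-29582982000)*p^7*q^11 + 7430674248*p^6*q^12 + (-1090417680)*p^5*q^13 + 100752012*p^4*q^14 + (-5976432)*p^3*q^15 + 222264*p^2*q^16 + (-4752)*p*q^17 + 45*q^18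
def fc9 (p q : R) : R := 946*p^18*q^2 + 11484*p^17*q^3 + 329274*p^16*q^4 + 4926240*p^15*q^5 + 25736040*p^14*q^6 + 386855568*p^13*q^7 + 1179196392*p^12*q^8 + (-12339901728)*p^11*q^9 + 73718474940*p^10*q^10 + (-179709635160)*p^9*q^11 + 102638287116*p^8*q^12 + (-28961434656)*p^7*q^13 + 4919581704*p^6*q^14 + (-543953520)*p^5*q^15 + 40284360*p^4*q^16 + (-1992672)*p^3*q^17 + 63522*p^2*q^18 + (-1188)*p*q^19 + 10*q^20
def fc10 (p q : R) : R := 121*p^20*q^2 + 1452*p^19*q^3 + 60742*p^18*q^4 + 866844*p^17*q^5 + 7959501*p^16*q^6 + 122926320*p^15*q^7 + 221456136*p^14*q^8 + (-1471996944)*p^13*q^9 + 28569774882*p^12*q^10 + (-84698508312)*p^11*q^11 + 253729264932*p^10*q^12 + (-159058966968)*p^9*q^13 + 49727540082*p^8*q^14 + (-9550061136)*p^7*q^15 + 1224761736*p^6*q^16 + (-108622800)*p^5*q^17 + 6712101*p^4*q^18 + (-284724)*p^3*q^19 + 7942*p^2*q^20 + (-132)*p*q^21 + 1*q^22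

def faa0 (p q : R) : R := 1*p^4
def faa1 (p q : R) : R := 20*p^6 + 264*p^5*q + (-28)*p^4*q^2
def faa2 (p q : R) : R := 190*p^8 + 5016*p^7*q + 32804*p^6*q^2 + (-4488)*p^5*q^3 + 142*p^4*q^4
def faa3 (p q : R) : R := 1140*p^10 + 45144*p^9*q + 595260*p^8*q^2 + 2589840*p^7*q^3 + (-301140)*p^6*q^4 + (-11880)*p^5*q^5 + 1572*p^4*q^6
def faa4 (p q : R) : R := 4845*p^12 + 255816*p^11*q + 5073276*p^10*q^2 + 44713944*p^9*q^3 + 146829150*p^8*q^4 + (-9658440)*p^7*q^5 + (-2740452)*p^6*q^6 + 284328*p^5*q^7 + (-6243)*p^4*q^8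
def faa5 (p q : R) : R := 15504*p^14 + 1023264*p^13*q + 27093648*p^12*q^2 + 359542656*p^11*q^3 + 2390337312*p^10*q^4 + 6368345280*p^9*q^5 + (-2568288)*p^8*q^6 + (-181501056)*p^7*q^7 + 4223568*p^6*q^8 + 1479456*p^5*q^9 + (-73776)*p^4*q^10
def faa6 (p q : R) : R := 38760*p^16 + 3069792*p^15*q + 101682576*p^14*q^2 + 1802291040*p^13*q^3 + 18030351960*p^12*q^4 + 96676113600*p^11*q^5 + 219061382880*p^10*q^6 + 15329096640*p^9*q^7 + (-6688420200)*p^8*q^8 + (-474677280)*p^7*q^9 + 117144720*p^6*q^10 + (-3202848)*p^5*q^11 + (-87384)*p^4*q^12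
def faa7 (p q : R) : R := 77520*p^18 + 7162848*p^17*q + 284863152*p^16*q^2 + 6317631936*p^15*q^3 + 84381763536*p^14*q^4 + 679408884000*p^13*q^5 + 3065590636080*p^12*q^6 + 6105918487680*p^11*q^7 + 849646587120*p^10*q^8 + (-151589322720)*p^9*q^9 + (-29519368560)*p^8*q^10 + 882560448*p^7*q^11 + 659133552*p^6*q^12 + (-58300704)*p^5*q^13 + 1339536*p^4*q^14
def faa8 (p q : R) : R := 125970*p^20 + 13302432*p^19*q + 617438640*p^18*q^2 + 16442506080*p^17*q^3 + 274709231160*p^16*q^4 + 2949891104160*p^15*q^5 + 19921921206096*p^14*q^6 + 77898892088160*p^13*q^7 + 139701124404780*p^12*q^8 + 28469307921120*p^11*q^9 + (-1841462706480)*p^10*q^10 + (-915671310048)*p^9*q^11 + (-23161444680)*p^8*q^12 + 5597111520*p^7*q^13 + 2346492720*p^6*q^14 + (-287670240)*p^5*q^15 + 8714706*p^4*q^16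
def faa9 (p q : R) : R := 167960*p^22 + 19953648*p^21*q + 1058768568*p^20*q^2 + 32908816512*p^19*q^3 + 660052055520*p^18*q^4 + 8860073302080*p^17*q^5 + 79676844190944*p^16*q^6 + 464353845081984*p^15*q^7 + 1607700681669456*p^14*q^8 + 2643781933441440*p^13*q^9 + 694517907764880*p^12*q^10 + 6349075843968*p^11*q^11 + (-18380080343712)*p^10*q^12 + (-2082336873408)*p^9*q^13 + 227483007840*p^8*q^14 + (-788261760)*p^7*q^15 + 6420060504*p^6*q^16 + (-863690256)*p^5*q^17 + 29067896*p^4*q^18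
def faa10 (p q : R) : R := 184756*p^24 + 24387792*p^23*q + 1456130104*p^22*q^2 + 51741909648*p^21*q^3 + 1211077743876*p^20*q^4 + 19507399179840*p^19*q^5 + 219091227697056*p^18*q^6 + 1696966355253312*p^17*q^7 + 8714140053553704*p^16*q^8 + 27159751993527648*p^15*q^9 + 41550877471267152*p^14*q^10 + 13135310702138592*p^13*q^11 + 852265294069224*p^12*q^12 + (-256443764905152)*p^11*q^13 + (-45337976621664)*p^10*q^14 + (-2403421606080)*p^9*q^15 + 1111585547556*p^8*q^16 + (-68071159728)*p^7*q^17 + 14341230904*p^6*q^18 + (-1826668272)*p^5*q^19 + 65186836*p^4*q^20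
def faa11 (p q : R) : R := 167960*p^26 + 24387792*p^25*q + 1618209736*p^24*q^2 + 64704662880*p^23*q^3 + 1731163782920*p^22*q^4 + 32530458589200*p^21*q^5 + 438153560833560*p^20*q^6 + 4233827130698880*p^19*q^7 + 28831201675359600*p^18*q^8 + 132560189995796640*p^17*q^9 + 376926509231676240*p^16*q^10 + 542967503945891904*p^15*q^11 + 198154173429201552*p^14*q^12 + 21917062120805280*p^13*q^13 + (-2283044738905680)*p^12*q^14 + (-824371801545600)*p^11*q^15 + (-28439191685640)*p^10*q^16 + (-3241297073520)*p^9*q^17 + 2903021719400*p^8*q^18 + (-252122201760)*p^7*q^19 + 26204687080*p^6*q^20 + (-2884026288)*p^5*q^21 + 106930616*p^4*q^22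
def faa12 (p q : R) : R := 125970*p^28 + 19953648*p^27*q + 1456600392*p^26*q^2 + 64726483536*p^25*q^3 + 1948480558596*p^24*q^4 + 41842344258000*p^23*q^5 + 657197692368360*p^22*q^6 + 7610503242616560*p^21*q^7 + 64576676305905390*p^20*q^8 + 392790921368139360*p^19*q^9 + 1638017732011297680*p^18*q^10 + 4297120554202968096*p^17*q^11 + 5889285470998860984*p^16*q^12 + 2414379813973202592*p^15*q^13 + 362992925749074192*p^14*q^14 + (-7676933760064800)*p^13*q^15 + (-9002017839835890)*p^12*q^16 + (-1353777610735440)*p^11*q^17 + 114037385888040*p^10*q^18 + (-12068791709040)*p^9*q^19 + 5307600131460*p^8*q^20 + (-526135504752)*p^7*q^21 + 38495805192*p^6*q^22 + (-3494606544)*p^5*q^23 + 133146546*p^4*q^24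
def faa13 (p q : R) : R := 77520*p^30 + 13302432*p^29*q + 1059474000*p^28*q^2 + 51795469440*p^27*q^3 + 1732637967840*p^26*q^4 + 41855924784960*p^25*q^5 + 751053964922976*p^24*q^6 + 10137390069755520*p^23*q^7 + 103008046686702960*p^22*q^8 + 779688912822668640*p^21*q^9 + 4290294530028029040*p^20*q^10 + 16403549643656296704*p^19*q^11 + 40089051311104100160*p^18*q^12 + 52743146027379096960*p^17*q^13 + 23812925120161012800*p^16*q^14 + 4446313984112267520*p^15*q^15 + 144948775491383472*p^14*q^16 + (-86104224441528480)*p^13*q^17 + (-11301163519385040)*p^12*q^18 + (-1621865407282560)*p^11*q^19 + 381042161130720*p^10*q^20 + (-34047655950528)*p^9*q^21 + 7314288248160*p^8*q^22 + (-744492228480)*p^7*q^23 + 44685273360*p^6*q^24 + (-3289983840)*p^5*q^25 + 127950096*p^4*q^26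
def faa14 (p q : R) : R := 38760*p^32 + 7162848*p^31*q + 618089808*p^30*q^2 + 32968327392*p^29*q^3 + 1213221904440*p^28*q^4 + 32563055004480*p^27*q^5 + 657151793005344*p^26*q^6 + 10129896366917184*p^25*q^7 + 119912895765080616*p^24*q^8 + 1086047550770482080*p^23*q^9 + 7426225497911440560*p^22*q^10 + 37360107949339064736*p^21*q^11 + 132180871781450665656*p^20*q^12 + 303493306497771164544*p^19*q^13 + 386154721147245405120*p^18*q^14 + 188968912087802014080*p^17*q^15 + 41913499542005436408*p^16*q^16 + 3004665846714547488*p^15*q^17 + (-476561827492331088)*p^14*q^18 + (-154548319663473120)*p^13*q^19 + (-813136556059800)*p^12*q^20 + (-2024457711198912)*p^11*q^21 + 628320970268448*p^10*q^22 + (-58561683162048)*p^9*q^23 + 7755188713080*p^8*q^24 + (-758060503200)*p^7*q^25 + 40395011664*p^6*q^26 + (-2410996896)*p^5*q^27 + 95286696*p^4*q^28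
def faa15 (p q : R) : R := 15504*p^34 + 3069792*p^33*q + 285297264*p^32*q^2 + 16487368128*p^31*q^3 + 661928024016*p^30*q^4 + 19541978295840*p^29*q^5 + 438090033356976*p^28*q^6 + 7593035532331392*p^27*q^7 + 102612827212436304*p^26*q^8 + 1082097874196447328*p^25*q^9 + 8845954323402528432*p^24*q^10 + 55217389387390046784*p^23*q^11 + 256270956938254938768*p^22*q^12 + 845733834885768577056*p^21*q^13 + 1837460638428581402352*p^20*q^14 + 2273634198856458282240*p^19*q^15 + 1189061436518471704752*p^18*q^16 + 304976934643786108704*p^17*q^17 + 32520945686111139408*p^16*q^18 + (-1921180285704360384)*p^15*q^19 + (-799384086788730768)*p^14*q^20 + (-161063150390939808)*p^13*q^21 + 16633724163615504*p^12*q^22 + (-2703531946591872)*p^11*q^23 + 683370447559536*p^10*q^24 + (-65797315135200)*p^9*q^25 + 6301084511376*p^8*q^26 + (-566342618688)*p^7*q^27 + 28007782704*p^6*q^28 + (-1365278112)*p^5*q^29 + 54663504*p^4*q^30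
def faa16 (p q : R) : R := 4845*p^36 + 1023264*p^35*q + 101899632*p^34*q^2 + 6342351840*p^33*q^3 + 275863503960*p^32*q^4 + 8884287165600*p^31*q^5 + 219040359049680*p^30*q^6 + 4216397800998240*p^29*q^7 + 64050358621728300*p^28*q^8 + 770807404698613920*p^27*q^9 + 7332593562647345520*p^26*q^10 + 54669165766923910752*p^25*q^11 + 314290917538332456936*p^24*q^12 + 1356087813976847746080*p^23*q^13 + 4202747180584251082320*p^22*q^14 + 8689692321526208018400*p^21*q^15 + 10491497608124413808910*p^20*q^16 + 5782438554772493386080*p^19*q^17 + 1681753834350858536400*p^18*q^18 + 236519825106018817440*p^17*q^19 + 1493195126335288680*p^16*q^20 + (-5199347998078790688)*p^15*q^21 + (-422308993530430224)*p^14*q^22 + (-125846808371681760)*p^13*q^23 + 25539584790898860*p^12*q^24 + (-2896970086375200)*p^11*q^25 + 521101220934480*p^10*q^26 + (-50131902728160)*p^9*q^27 + 3847192176600*p^8*q^28 + (-309538104480)*p^7*q^29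 + 14584496880*p^6*q^30 + (-586894176)*p^5*q^31 + 23751597*p^4*q^32
def faa17 (p q : R) : R := 1140*p^38 + 255816*p^37*q + 27175044*p^36*q^2 + 1812362112*p^35*q^3 + 84896945952*p^34*q^4 + 2961871704000*p^33*q^5 + 79649604821280*p^32*q^6 + 1685917682570880*p^31*q^7 + 28437381916001520*p^30*q^8 + 384578229453850080*p^29*q^9 + 4173311846172840240*p^28*q^10 + 36185159341993419648*p^27*q^11 + 248215075583516718432*p^26*q^12 + 1324202733993045842496*p^25*q^13 + 5346538283814433589856*p^24*q^14 + 15645823600449309379200*p^23*q^15 + 30908071259236792237560*p^22*q^16 + 36427943758676026019760*p^21*q^17 + 20831552696512101364440*p^20*q^18 + 6742956824593095173760*p^19*q^19 + 1194345184306474126560*p^18*q^20 + 59383957525543683648*p^17*q^21 + (-15248294639112507168)*p^16*q^22 + (-4334063368763170944)*p^15*q^23 + 108007886178739056*p^14*q^24 + (-84058409978848800)*p^13*q^25 + 20302268299439280*p^12*q^26 + (-2109608311029120)*p^11*q^27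 + 278318808181920*p^10*q^28 + (-25914493408320)*p^9*q^29 + 1704386412960*p^8*q^30 + (-120920621184)*p^7*q^31 + 5516955444*p^6*q^32 + (-185414328)*p^5*q^33 + 7571652*p^4*q^34
def faa18 (p q : R) : R := 190*p^40 + 45144*p^39*q + 5095620*p^38*q^2 + 362518200*p^37*q^3 + 18195149790*p^36*q^4 + 683596393920*p^35*q^5 + 19912093433952*p^34*q^6 + 459649655847360*p^33*q^7 + 8523976229590680*p^32*q^8 + 127972363085471520*p^31*q^9 + 1560106116680753520*p^30*q^10 + 15424075920415342752*p^29*q^11 + 122960487507437766840*p^28*q^12 + 781823940596165586240*p^27*q^13 + 3895244823572483179680*p^26*q^14 + 14794683157994620541760*p^25*q^15 + 41040434908323641652516*p^24*q^16 + 77592128909519093688720*p^23*q^17 + 88972718143433955806360*p^22*q^18 + 51767183995994968197840*p^21*q^19 + 18294346551100443276420*p^20*q^20 + 3873063950977251742272*p^19*q^21 + 395964572777834908320*p^18*q^22 + (-33748432308125853120)*p^17*q^23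 + (-9844074461138772360)*p^16*q^24 + (-1967947236964700640)*p^15*q^25 + 243462549023953776*p^14*q^26 + (-44490892447916640)*p^13*q^27 + 9609791772766680*p^12*q^28 + (-968547414415680)*p^11*q^29 + 99695991135840*p^10*q^30 + (-8757117078336)*p^9*q^31 + 516250414350*p^8*q^32 + (-32067173160)*p^7*q^33 + 1431490500*p^6*q^34 + (-40641480)*p^5*q^35 + 1672462*p^4*q^36
def faa19 (p q : R) : R := 20*p^42 + 5016*p^41*q + 599516*p^40*q^2 + 45319824*p^39*q^3 + 2426363820*p^38*q^4 + 97667463960*p^37*q^5 + 3063357918948*p^36*q^6 + 76587639942528*p^35*q^7 + 1548715711539792*p^34*q^8 + 25558375824764640*p^33*q^9 + 345821244265165680*p^32*q^10 + 3839719301760120768*p^31*q^11 + 34886125991801056368*p^30*q^12 + 257594820975393229152*p^29*q^13 + 1527722211892812188880*p^28*q^14 + 7145129060949015987840*p^27*q^15 + 25627733895521142108504*p^26*q^16 + 67523916011812107076944*p^25*q^17 + 122012409429799151868616*p^24*q^18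 + 134951380061026753546080*p^23*q^19 + 77838852722045626004200*p^22*q^20 + 29669127052326904148688*p^21*q^21 + 7347857827187069271288*p^20*q^22 + 988080062102856277632*p^19*q^23 + 39753559853191549200*p^18*q^24 + (-26641864528954884000)*p^17*q^25 + (-1976478086285702736)*p^16*q^26 + (-526541819412856896)*p^15*q^27 + 115191385798910256*p^14*q^28 + (-14909927189398560)*p^13*q^29 + 2582851012001040*p^12*q^30 + (-253728248552064)*p^11*q^31 + 21559954544436*p^10*q^32 + (-1753064646696)*p^9*q^33 + 95504494140*p^8*q^34 + (-5183552880)*p^7*q^35 + 227957708*p^6*q^36 + (-5526312)*p^5*q^37 + 228932*p^4*q^38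
def faa20 (p q : R) : R := 1*p^44 + 264*p^43*q + 33308*p^42*q^2 + 2666136*p^41*q^3 + 151666702*p^40*q^4 + 6511796280*p^39*q^5 + 218808711132*p^38*q^6 + 5889994266024*p^37*q^7 + 128982122683293*p^36*q^8 + 2320751889647136*p^35*q^9 + 34510996112019504*p^34*q^10 + 425186942795268192*p^33*q^11 + 4336931078332517544*p^32*q^12 + 36477266414722471008*p^31*q^13 + 251022103544635023216*p^30*q^14 + 1395695637595144876320*p^29*q^15 + 6151174496535310484946*p^28*q^16 + 20879179821372697186032*p^27*q^17 + 52222476243727846644104*p^26*q^18 + 89688864822505909710288*p^25*q^19 + 94192694790537059154196*p^24*q^20 + 52219866288160221387792*p^23*q^21 + 22159778236525783726664*p^22*q^22 + 5644985474492645429808*p^21*q^23 + 1139633870319337903026*p^20*q^24 + 61690246379808631200*p^19*q^25 + (-2233301248826309904)*p^18*q^26 + (-5444379704865439008)*p^17*q^27 + 25484174271035304*p^16*q^28 + (-70952753191475232)*p^15*q^29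 + 19370465928529584*p^14*q^30 + (-2224445689943136)*p^13*q^31 + 306012125659053*p^12*q^32 + (-29019757787064)*p^11*q^33 + 2128940958012*p^10*q^34 + (-158170236840)*p^9*q^35 + 8133104782*p^8*q^36 + (-386171016)*p^7*q^37 + 16807868*p^6*q^38 + (-351384)*p^5*q^39 + 14641*p^4*q^40

def fcc0 (p q : R) : R := 1*q^4
def fcc1 (p q : R) : R := (-28)*p^2*q^4 + (-264)*p*q^5 + 20*q^6
def fcc2 (p q : R) : R := 142*p^4*q^4 + 4488*p^3*q^5 + 32804*p^2*q^6 + (-5016)*p*q^7 + 190*q^8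
def fcc3 (p q : R) : R := 1572*p^6*q^4 + 11880*p^5*q^5 + (-301140)*p^4*q^6 + (-2589840)*p^3*q^7 + 595260*p^2*q^8 + (-45144)*p*q^9 + 1140*q^10
def fcc4 (p q : R) : R := (-6243)*p^8*q^4 + (-284328)*p^7*q^5 + (-2740452)*p^6*q^6 + 9658440*p^5*q^7 + 146829150*p^4*q^8 + (-44713944)*p^3*q^9 + 5073276*p^2*q^10 + (-255816)*p*q^11 + 4845*q^12
def fcc5 (p q : R) : R := (-73776)*p^10*q^4 + (-1479456)*p^9*q^5 + 4223568*p^8*q^6 + 181501056*p^7*q^7 + (-2568288)*p^6*q^8 + (-6368345280)*p^5*q^9 + 2390337312*p^4*q^10 + (-359542656)*p^3*q^11 + 27093648*p^2*q^12 + (-1023264)*p*q^13 + 15504*q^14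
def fcc6 (p q : R) : R := (-87384)*p^12*q^4 + 3202848*p^11*q^5 + 117144720*p^10*q^6 + 474677280*p^9*q^7 + (-6688420200)*p^8*q^8 + (-15329096640)*p^7*q^9 + 219061382880*p^6*q^10 + (-96676113600)*p^5*q^11 + 18030351960*p^4*q^12 + (-1802291040)*p^3*q^13 + 101682576*p^2*q^14 + (-3069792)*p*q^15 + 38760*q^16
def fcc7 (p q : R) : R := 1339536*p^14*q^4 + 58300704*p^13*q^5 + 659133552*p^12*q^6 + (-882560448)*p^11*q^7 + (-29519368560)*p^10*q^8 + 151589322720*p^9*q^9 + 849646587120*p^8*q^10 + (-6105918487680)*p^7*q^11 + 3065590636080*p^6*q^12 + (-679408884000)*p^5*q^13 + 84381763536*p^4*q^14 + (-6317631936)*p^3*q^15 + 284863152*p^2*q^16 + (-7162848)*p*q^17 + 77520*q^18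
def fcc8 (p q : R) : R := 8714706*p^16*q^4 + 287670240*p^15*q^5 + 2346492720*p^14*q^6 + (-5597111520)*p^13*q^7 + (-23161444680)*p^12*q^8 + 915671310048*p^11*q^9 + (-1841462706480)*p^10*q^10 + (-28469307921120)*p^9*q^11 + 139701124404780*p^8*q^12 + (-77898892088160)*p^7*q^13 + 19921921206096*p^6*q^14 + (-2949891104160)*p^5*q^15 + 274709231160*p^4*q^16 + (-16442506080)*p^3*q^17 + 617438640*p^2*q^18 + (-13302432)*p*q^19 + 125970*q^20
def fcc9 (p q : R) : R := 29067896*p^18*q^4 + 863690256*p^17*q^5 + 6420060504*p^16*q^6 + 788261760*p^15*q^7 + 227483007840*p^14*q^8 + 2082336873408*p^13*q^9 + (-18380080343712)*p^12*q^10 + (-6349075843968)*p^11*q^11 + 694517907764880*p^10*q^12 + (-2643781933441440)*p^9*q^13 + 1607700681669456*p^8*q^14 + (-464353845081984)*p^7*q^15 + 79676844190944*p^6*q^16 + (-8860073302080)*p^5*q^17 + 660052055520*p^4*q^18 + (-32908816512)*p^3*q^19 + 1058768568*p^2*q^20 + (-19953648)*p*q^21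 + 167960*q^22
def fcc10 (p q : R) : R := 65186836*p^20*q^4 + 1826668272*p^19*q^5 + 14341230904*p^18*q^6 + 68071159728*p^17*q^7 + 1111585547556*p^16*q^8 + 2403421606080*p^15*q^9 + (-45337976621664)*p^14*q^10 + 256443764905152*p^13*q^11 + 852265294069224*p^12*q^12 + (-13135310702138592)*p^11*q^13 + 41550877471267152*p^10*q^14 + (-27159751993527648)*p^9*q^15 + 8714140053553704*p^8*q^16 + (-1696966355253312)*p^7*q^17 + 219091227697056*p^6*q^18 + (-19507399179840)*p^5*q^19 + 1211077743876*p^4*q^20 + (-51741909648)*p^3*q^21 + 1456130104*p^2*q^22 + (-24387792)*p*q^23 + 184756*q^24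
def fcc11 (p q : R) : R := 106930616*p^22*q^4 + 2884026288*p^21*q^5 + 26204687080*p^20*q^6 + 252122201760*p^19*q^7 + 2903021719400*p^18*q^8 + 3241297073520*p^17*q^9 + (-28439191685640)*p^16*q^10 + 824371801545600*p^15*q^11 + (-2283044738905680)*p^14*q^12 + (-21917062120805280)*p^13*q^13 + 198154173429201552*p^12*q^14 + (-542967503945891904)*p^11*q^15 + 376926509231676240*p^10*q^16 + (-132560189995796640)*p^9*q^17 + 28831201675359600*p^8*q^18 + (-4233827130698880)*p^7*q^19 + 438153560833560*p^6*q^20 + (-32530458589200)*p^5*q^21 + 1731163782920*p^4*q^22 + (-64704662880)*p^3*q^23 + 1618209736*p^2*q^24 + (-24387792)*p*q^25 + 167960*q^26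
def fcc12 (p q : R) : R := 133146546*p^24*q^4 + 3494606544*p^23*q^5 + 38495805192*p^22*q^6 + 526135504752*p^21*q^7 + 5307600131460*p^20*q^8 + 12068791709040*p^19*q^9 + 114037385888040*p^18*q^10 + 1353777610735440*p^17*q^11 + (-9002017839835890)*p^16*q^12 + 7676933760064800*p^15*q^13 + 362992925749074192*p^14*q^14 + (-2414379813973202592)*p^13*q^15 + 5889285470998860984*p^12*q^16 + (-4297120554202968096)*p^11*q^17 + 1638017732011297680*p^10*q^18 + (-392790921368139360)*p^9*q^19 + 64576676305905390*p^8*q^20 + (-7610503242616560)*p^7*q^21 + 657197692368360*p^6*q^22 + (-41842344258000)*p^5*q^23 + 1948480558596*p^4*q^24 + (-64726483536)*p^3*q^25 + 1456600392*p^2*q^26 + (-19953648)*p*q^27 + 125970*q^28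
def fcc13 (p q : R) : R := 127950096*p^26*q^4 + 3289983840*p^25*q^5 + 44685273360*p^24*q^6 + 744492228480*p^23*q^7 + 7314288248160*p^22*q^8 + 34047655950528*p^21*q^9 + 381042161130720*p^20*q^10 + 1621865407282560*p^19*q^11 + (-11301163519385040)*p^18*q^12 + 86104224441528480*p^17*q^13 + 144948775491383472*p^16*q^14 + (-4446313984112267520)*p^15*q^15 + 23812925120161012800*p^14*q^16 + (-52743146027379096960)*p^13*q^17 + 40089051311104100160*p^12*q^18 + (-16403549643656296704)*p^11*q^19 + 4290294530028029040*p^10*q^20 + (-779688912822668640)*p^9*q^21 + 103008046686702960*p^8*q^22 + (-10137390069755520)*p^7*q^23 + 751053964922976*p^6*q^24 + (-41855924784960)*p^5*q^25 + 1732637967840*p^4*q^26 + (-51795469440)*p^3*q^27 + 1059474000*p^2*q^28 + (-13302432)*p*q^29 + 77520*q^30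
def fcc14 (p q : R) : R := 95286696*p^28*q^4 + 2410996896*p^27*q^5 + 40395011664*p^26*q^6 + 758060503200*p^25*q^7 + 7755188713080*p^24*q^8 + 58561683162048*p^23*q^9 + 628320970268448*p^22*q^10 + 2024457711198912*p^21*q^11 + (-813136556059800)*p^20*q^12 + 154548319663473120*p^19*q^13 + (-476561827492331088)*p^18*q^14 + (-3004665846714547488)*p^17*q^15 + 41913499542005436408*p^16*q^16 + (-188968912087802014080)*p^15*q^17 + 386154721147245405120*p^14*q^18 + (-303493306497771164544)*p^13*q^19 + 132180871781450665656*p^12*q^20 + (-37360107949339064736)*p^11*q^21 + 7426225497911440560*p^10*q^22 + (-1086047550770482080)*p^9*q^23 + 119912895765080616*p^8*q^24 + (-10129896366917184)*p^7*q^25 + 657151793005344*p^6*q^26 + (-32563055004480)*p^5*q^27 + 1213221904440*p^4*q^28 + (-32968327392)*p^3*q^29 + 618089808*p^2*q^30 + (-7162848)*p*q^31 + 38760*q^32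
def fcc15 (p q : R) : R := 54663504*p^30*q^4 + 1365278112*p^29*q^5 + 28007782704*p^28*q^6 + 566342618688*p^27*q^7 + 6301084511376*p^26*q^8 + 65797315135200*p^25*q^9 + 683370447559536*p^24*q^10 + 2703531946591872*p^23*q^11 + 16633724163615504*p^22*q^12 + 161063150390939808*p^21*q^13 + (-799384086788730768)*p^20*q^14 + 1921180285704360384*p^19*q^15 + 32520945686111139408*p^18*q^16 + (-304976934643786108704)*p^17*q^17 + 1189061436518471704752*p^16*q^18 + (-2273634198856458282240)*p^15*q^19 + 1837460638428581402352*p^14*q^20 + (-845733834885768577056)*p^13*q^21 + 256270956938254938768*p^12*q^22 + (-55217389387390046784)*p^11*q^23 + 8845954323402528432*p^10*q^24 + (-1082097874196447328)*p^9*q^25 + 102612827212436304*p^8*q^26 + (-7593035532331392)*p^7*q^27 + 438090033356976*p^6*q^28 + (-19541978295840)*p^5*q^29 + 661928024016*p^4*q^30 + (-16487368128)*p^3*q^31 + 285297264*p^2*q^32 + (-3069792)*p*q^33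 + 15504*q^34
def fcc16 (p q : R) : R := 23751597*p^32*q^4 + 586894176*p^31*q^5 + 14584496880*p^30*q^6 + 309538104480*p^29*q^7 + 3847192176600*p^28*q^8 + 50131902728160*p^27*q^9 + 521101220934480*p^26*q^10 + 2896970086375200*p^25*q^11 + 25539584790898860*p^24*q^12 + 125846808371681760*p^23*q^13 + (-422308993530430224)*p^22*q^14 + 5199347998078790688*p^21*q^15 + 1493195126335288680*p^20*q^16 + (-236519825106018817440)*p^19*q^17 + 1681753834350858536400*p^18*q^18 + (-5782438554772493386080)*p^17*q^19 + 10491497608124413808910*p^16*q^20 + (-8689692321526208018400)*p^15*q^21 + 4202747180584251082320*p^14*q^22 + (-1356087813976847746080)*p^13*q^23 + 314290917538332456936*p^12*q^24 + (-54669165766923910752)*p^11*q^25 + 7332593562647345520*p^10*q^26 + (-770807404698613920)*p^9*q^27 + 64050358621728300*p^8*q^28 + (-4216397800998240)*p^7*q^29 + 219040359049680*p^6*q^30 + (-8884287165600)*p^5*q^31 + 275863503960*p^4*q^32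 + (-6342351840)*p^3*q^33 + 101899632*p^2*q^34 + (-1023264)*p*q^35 + 4845*q^36
def fcc17 (p q : R) : R := 7571652*p^34*q^4 + 185414328*p^33*q^5 + 5516955444*p^32*q^6 + 120920621184*p^31*q^7 + 1704386412960*p^30*q^8 + 25914493408320*p^29*q^9 + 278318808181920*p^28*q^10 + 2109608311029120*p^27*q^11 + 20302268299439280*p^26*q^12 + 84058409978848800*p^25*q^13 + 108007886178739056*p^24*q^14 + 4334063368763170944*p^23*q^15 + (-15248294639112507168)*p^22*q^16 + (-59383957525543683648)*p^21*q^17 + 1194345184306474126560*p^20*q^18 + (-6742956824593095173760)*p^19*q^19 + 20831552696512101364440*p^18*q^20 + (-36427943758676026019760)*p^17*q^21 + 30908071259236792237560*p^16*q^22 + (-15645823600449309379200)*p^15*q^23 + 5346538283814433589856*p^14*q^24 + (-1324202733993045842496)*p^13*q^25 + 248215075583516718432*p^12*q^26 + (-36185159341993419648)*p^11*q^27 + 4173311846172840240*p^10*q^28 + (-384578229453850080)*p^9*q^29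 + 28437381916001520*p^8*q^30 + (-1685917682570880)*p^7*q^31 + 79649604821280*p^6*q^32 + (-2961871704000)*p^5*q^33 + 84896945952*p^4*q^34 + (-1812362112)*p^3*q^35 + 27175044*p^2*q^36 + (-255816)*p*q^37 + 1140*q^38
def fcc18 (p q : R) : R := 1672462*p^36*q^4 + 40641480*p^35*q^5 + 1431490500*p^34*q^6 + 32067173160*p^33*q^7 + 516250414350*p^32*q^8 + 8757117078336*p^31*q^9 + 99695991135840*p^30*q^10 + 968547414415680*p^29*q^11 + 9609791772766680*p^28*q^12 + 44490892447916640*p^27*q^13 + 243462549023953776*p^26*q^14 + 1967947236964700640*p^25*q^15 + (-9844074461138772360)*p^24*q^16 + 33748432308125853120*p^23*q^17 + 395964572777834908320*p^22*q^18 + (-3873063950977251742272)*p^21*q^19 + 18294346551100443276420*p^20*q^20 + (-51767183995994968197840)*p^19*q^21 + 88972718143433955806360*p^18*q^22 + (-77592128909519093688720)*p^17*q^23 + 41040434908323641652516*p^16*q^24 + (-14794683157994620541760)*p^15*q^25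 + 3895244823572483179680*p^14*q^26 + (-781823940596165586240)*p^13*q^27 + 122960487507437766840*p^12*q^28 + (-15424075920415342752)*p^11*q^29 + 1560106116680753520*p^10*q^30 + (-127972363085471520)*p^9*q^31 + 8523976229590680*p^8*q^32 + (-459649655847360)*p^7*q^33 + 19912093433952*p^6*q^34 + (-683596393920)*p^5*q^35 + 18195149790*p^4*q^36 + (-362518200)*p^3*q^37 + 5095620*p^2*q^38 + (-45144)*p*q^39 + 190*q^40
def fcc19 (p q : R) : R := 228932*p^38*q^4 + 5526312*p^37*q^5 + 227957708*p^36*q^6 + 5183552880*p^35*q^7 + 95504494140*p^34*q^8 + 1753064646696*p^33*q^9 + 21559954544436*p^32*q^10 + 253728248552064*p^31*q^11 + 2582851012001040*p^30*q^12 + 14909927189398560*p^29*q^13 + 115191385798910256*p^28*q^14 + 526541819412856896*p^27*q^15 + (-1976478086285702736)*p^26*q^16 + 26641864528954884000*p^25*q^17 + 39753559853191549200*p^24*q^18 + (-988080062102856277632)*p^23*q^19 + 7347857827187069271288*p^22*q^20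 + (-29669127052326904148688)*p^21*q^21 + 77838852722045626004200*p^20*q^22 + (-134951380061026753546080)*p^19*q^23 + 122012409429799151868616*p^18*q^24 + (-67523916011812107076944)*p^17*q^25 + 25627733895521142108504*p^16*q^26 + (-7145129060949015987840)*p^15*q^27 + 1527722211892812188880*p^14*q^28 + (-257594820975393229152)*p^13*q^29 + 34886125991801056368*p^12*q^30 + (-3839719301760120768)*p^11*q^31 + 345821244265165680*p^10*q^32 + (-25558375824764640)*p^9*q^33 + 1548715711539792*p^8*q^34 + (-76587639942528)*p^7*q^35 + 3063357918948*p^6*q^36 + (-97667463960)*p^5*q^37 + 2426363820*p^4*q^38 + (-45319824)*p^3*q^39 + 599516*p^2*q^40 + (-5016)*p*q^41 + 20*q^42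
def fcc20 (p q : R) : R := 14641*p^40*q^4 + 351384*p^39*q^5 + 16807868*p^38*q^6 + 386171016*p^37*q^7 + 8133104782*p^36*q^8 + 158170236840*p^35*q^9 + 2128940958012*p^34*q^10 + 29019757787064*p^33*q^11 + 306012125659053*p^32*q^12 + 2224445689943136*p^31*q^13 + 19370465928529584*p^30*q^14 + 70952753191475232*p^29*q^15 + 25484174271035304*p^28*q^16 + 5444379704865439008*p^27*q^17 + (-2233301248826309904)*p^26*q^18 + (-61690246379808631200)*p^25*q^19 + 1139633870319337903026*p^24*q^20 + (-5644985474492645429808)*p^23*q^21 + 22159778236525783726664*p^22*q^22 + (-52219866288160221387792)*p^21*q^23 + 94192694790537059154196*p^20*q^24 + (-89688864822505909710288)*p^19*q^25 + 52222476243727846644104*p^18*q^26 + (-20879179821372697186032)*p^17*q^27 + 6151174496535310484946*p^16*q^28 + (-1395695637595144876320)*p^15*q^29 + 251022103544635023216*p^14*q^30 + (-36477266414722471008)*p^13*q^31 + 4336931078332517544*p^12*q^32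 + (-425186942795268192)*p^11*q^33 + 34510996112019504*p^10*q^34 + (-2320751889647136)*p^9*q^35 + 128982122683293*p^8*q^36 + (-5889994266024)*p^7*q^37 + 218808711132*p^6*q^38 + (-6511796280)*p^5*q^39 + 151666702*p^4*q^40 + (-2666136)*p^3*q^41 + 33308*p^2*q^42 + (-264)*p*q^43 + 1*q^44

theorem pp_eq (l m p q : R) : pp l m p q = l^5*fp0 p q + l^4*m*fp1 p q + l^3*m^2*fp2 p q + l^2*m^3*fp3 p q + l*m^4*fp4 p q + m^5*fp5 p q := by
  simp only [pp, E5, O5, LL, fp0, fp1, fp2, fp3, fp4, fp5]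
  ring

theorem qq_eq (l m p q : R) : qq l m p q = l^5*fq0 p q + l^4*m*fq1 p q + l^3*m^2*fq2 p q + l^2*m^3*fq3 p q + l*m^4*fq4 p q + m^5*fq5 p q := by
  simp only [qq, E5, O5, LL, fq0, fq1, fq2, fq3, fq4, fq5]
  ring

theorem fa_cf0 (p q : R) : fp0 p q*fp0 p q = fa0 p q := by
  simp only [fa0, fp0]; ring
theorem fa_cf1 (p q : R) : fp0 p q*fp1 p q + fp1 p q*fp0 p q = fa1 p q := by
  simp only [fa1, fp0, fp1]; ring
theorem fa_cf2 (p q : R) : fp0 p q*fp2 p q + fp1 p q*fp1 p q + fp2 p q*fp0 p q = fa2 p q := by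
  simp only [fa2, fp0, fp1, fp2]; ring
theorem fa_cf3 (p q : R) : fp0 p q*fp3 p q + fp1 p q*fp2 p q + fp2 p q*fp1 p q + fp3 p q*fp0 p q = fa3 p q := by
  simp only [fa3, fp0, fp1, fp2, fp3]; ring
theorem fa_cf4 (p q : R) : fp0 p q*fp4 p q + fp1 p q*fp3 p q + fp2 p q*fp2 p q + fp3 p q*fp1 p q + fp4 p q*fp0 p q = fa4 p q := by
  simp only [fa4, fp0, fp1, fp2, fp3, fp4]; ring
theorem fa_cf5 (p q : R) : fp0 p q*fp5 p q + fp1 p q*fp4 p q + fp2 p q*fp3 p q + fp3 p q*fp2 p q + fp4 p q*fp1 p q + fp5 p q*fp0 p q = fa5 p q := by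
  simp only [fa5, fp0, fp1, fp2, fp3, fp4, fp5]; ring
theorem fa_cf6 (p q : R) : fp1 p q*fp5 p q + fp2 p q*fp4 p q + fp3 p q*fp3 p q + fp4 p q*fp2 p q + fp5 p q*fp1 p q = fa6 p q := by
  simp only [fa6, fp1, fp2, fp3, fp4, fp5]; ring
theorem fa_cf7 (p q : R) : fp2 p q*fp5 p q + fp3 p q*fp4 p q + fp4 p q*fp3 p q + fp5 p q*fp2 p q = fa7 p q := by
  simp only [fa7, fp2, fp3, fp4, fp5]; ring
theorem fa_cf8 (p q : R) : fp3 p q*fp5 p q + fp4 p q*fp4 p q + fp5 p q*fp3 p q = fa8 p q := by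
  simp only [fa8, fp3, fp4, fp5]; ring
theorem fa_cf9 (p q : R) : fp4 p q*fp5 p q + fp5 p q*fp4 p q = fa9 p q := by
  simp only [fa9, fp4, fp5]; ring
theorem fa_cf10 (p q : R) : fp5 p q*fp5 p q = fa10 p q := by
  simp only [fa10, fp5]; ring
theorem fa_eq (l m p q : R) : pp l m p q * pp l m p q = l^10*fa0 p q + l^9*m*fa1 p q + l^8*m^2*fa2 p q + l^7*m^3*fa3 p q + l^6*m^4*fa4 p q + l^5*m^5*fa5 p q + l^4*m^6*fa6 p q + l^3*m^7*fa7 p q + l^2*m^8*fa8 p q + l*m^9*fa9 p q + m^10*fa10 p q := by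
  rw [pp_eq]
  linear_combination l^10*fa_cf0 p q + l^9*m*fa_cf1 p q + l^8*m^2*fa_cf2 p q + l^7*m^3*fa_cf3 p q + l^6*m^4*fa_cf4 p q + l^5*m^5*fa_cf5 p q + l^4*m^6*fa_cf6 p q + l^3*m^7*fa_cf7 p q + l^2*m^8*fa_cf8 p q + l*m^9*fa_cf9 p q + m^10*fa_cf10 p q

theorem fb_cf0 (p q : R) : fp0 p q*fq0 p q = fb0 p q := by
  simp only [fb0, fp0, fq0]; ring
theorem fb_cf1 (p q : R) : fp0 p q*fq1 p q + fp1 p q*fq0 p q = fb1 p q := by
  simp only [fb1, fp0, fp1, fq0, fq1]; ring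
theorem fb_cf2 (p q : R) : fp0 p q*fq2 p q + fp1 p q*fq1 p q + fp2 p q*fq0 p q = fb2 p q := by
  simp only [fb2, fp0, fp1, fp2, fq0, fq1, fq2]; ring
theorem fb_cf3 (p q : R) : fp0 p q*fq3 p q + fp1 p q*fq2 p q + fp2 p q*fq1 p q + fp3 p q*fq0 p q = fb3 p q := by
  simp only [fb3, fp0, fp1, fp2, fp3, fq0, fq1, fq2, fq3]; ring
theorem fb_cf4 (p q : R) : fp0 p q*fq4 p q + fp1 p q*fq3 p q + fp2 p q*fq2 p q + fp3 p q*fq1 p q + fp4 p q*fq0 p q = fb4 p q := by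
  simp only [fb4, fp0, fp1, fp2, fp3, fp4, fq0, fq1, fq2, fq3, fq4]; ring
theorem fb_cf5 (p q : R) : fp0 p q*fq5 p q + fp1 p q*fq4 p q + fp2 p q*fq3 p q + fp3 p q*fq2 p q + fp4 p q*fq1 p q + fp5 p q*fq0 p q = fb5 p q := by
  simp only [fb5, fp0, fp1, fp2, fp3, fp4, fp5, fq0, fq1, fq2, fq3, fq4, fq5]; ring
theorem fb_cf6 (p q : R) : fp1 p q*fq5 p q + fp2 p q*fq4 p q + fp3 p q*fq3 p q + fp4 p q*fq2 p q + fp5 p q*fq1 p q = fb6 p q := by
  simp only [fb6, fp1, fp2, fp3, fp4, fp5, fq1, fq2, fq3, fq4, fq5]; ring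
theorem fb_cf7 (p q : R) : fp2 p q*fq5 p q + fp3 p q*fq4 p q + fp4 p q*fq3 p q + fp5 p q*fq2 p q = fb7 p q := by
  simp only [fb7, fp2, fp3, fp4, fp5, fq2, fq3, fq4, fq5]; ring
theorem fb_cf8 (p q : R) : fp3 p q*fq5 p q + fp4 p q*fq4 p q + fp5 p q*fq3 p q = fb8 p q := by
  simp only [fb8, fp3, fp4, fp5, fq3, fq4, fq5]; ring
theorem fb_cf9 (p q : R) : fp4 p q*fq5 p q + fp5 p q*fq4 p q = fb9 p q := by
  simp only [fb9, fp4, fp5, fq4, fq5]; ring
theorem fb_cf10 (p q : R) : fp5 p q*fq5 p q = fb10 p q := by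
  simp only [fb10, fp5, fq5]; ring
theorem fb_eq (l m p q : R) : pp l m p q * qq l m p q = l^10*fb0 p q + l^9*m*fb1 p q + l^8*m^2*fb2 p q + l^7*m^3*fb3 p q + l^6*m^4*fb4 p q + l^5*m^5*fb5 p q + l^4*m^6*fb6 p q + l^3*m^7*fb7 p q + l^2*m^8*fb8 p q + l*m^9*fb9 p q + m^10*fb10 p q := by
  rw [pp_eq, qq_eq]
  linear_combination l^10*fb_cf0 p q + l^9*m*fb_cf1 p q + l^8*m^2*fb_cf2 p q + l^7*m^3*fb_cf3 p q + l^6*m^4*fb_cf4 p q + l^5*m^5*fb_cf5 p q + l^4*m^6*fb_cf6 p q + l^3*m^7*fb_cf7 p q + l^2*m^8*fb_cf8 p q + l*m^9*fb_cf9 p q + m^10*fb_cf10 p q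

theorem fc_cf0 (p q : R) : fq0 p q*fq0 p q = fc0 p q := by
  simp only [fc0, fq0]; ring
theorem fc_cf1 (p q : R) : fq0 p q*fq1 p q + fq1 p q*fq0 p q = fc1 p q := by
  simp only [fc1, fq0, fq1]; ring
theorem fc_cf2 (p q : R) : fq0 p q*fq2 p q + fq1 p q*fq1 p q + fq2 p q*fq0 p q = fc2 p q := by
  simp only [fc2, fq0, fq1, fq2]; ring
theorem fc_cf3 (p q : R) : fq0 p q*fq3 p q + fq1 p q*fq2 p q + fq2 p q*fq1 p q + fq3 p q*fq0 p q = fc3 p q := by
  simp only [fc3, fq0, fq1, fq2, fq3]; ring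
theorem fc_cf4 (p q : R) : fq0 p q*fq4 p q + fq1 p q*fq3 p q + fq2 p q*fq2 p q + fq3 p q*fq1 p q + fq4 p q*fq0 p q = fc4 p q := by
  simp only [fc4, fq0, fq1, fq2, fq3, fq4]; ring
theorem fc_cf5 (p q : R) : fq0 p q*fq5 p q + fq1 p q*fq4 p q + fq2 p q*fq3 p q + fq3 p q*fq2 p q + fq4 p q*fq1 p q + fq5 p q*fq0 p q = fc5 p q := by
  simp only [fc5, fq0, fq1, fq2, fq3, fq4, fq5]; ring
theorem fc_cf6 (p q : R) : fq1 p q*fq5 p q + fq2 p q*fq4 p q + fq3 p q*fq3 p q + fq4 p q*fq2 p q + fq5 p q*fq1 p q = fc6 p q := by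
  simp only [fc6, fq1, fq2, fq3, fq4, fq5]; ring
theorem fc_cf7 (p q : R) : fq2 p q*fq5 p q + fq3 p q*fq4 p q + fq4 p q*fq3 p q + fq5 p q*fq2 p q = fc7 p q := by
  simp only [fc7, fq2, fq3, fq4, fq5]; ring
theorem fc_cf8 (p q : R) : fq3 p q*fq5 p q + fq4 p q*fq4 p q + fq5 p q*fq3 p q = fc8 p q := by
  simp only [fc8, fq3, fq4, fq5]; ring
theorem fc_cf9 (p q : R) : fq4 p q*fq5 p q + fq5 p q*fq4 p q = fc9 p q := by
  simp only [fc9, fq4, fq5]; ring
theorem fc_cf10 (p q : R) : fq5 p q*fq5 p q = fc10 p q := by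
  simp only [fc10, fq5]; ring
theorem fc_eq (l m p q : R) : qq l m p q * qq l m p q = l^10*fc0 p q + l^9*m*fc1 p q + l^8*m^2*fc2 p q + l^7*m^3*fc3 p q + l^6*m^4*fc4 p q + l^5*m^5*fc5 p q + l^4*m^6*fc6 p q + l^3*m^7*fc7 p q + l^2*m^8*fc8 p q + l*m^9*fc9 p q + m^10*fc10 p q := by
  rw [qq_eq]
  linear_combination l^10*fc_cf0 p q + l^9*m*fc_cf1 p q + l^8*m^2*fc_cf2 p q + l^7*m^3*fc_cf3 p q + l^6*m^4*fc_cf4 p q + l^5*m^5*fc_cf5 p q + l^4*m^6*fc_cf6 p q + l^3*m^7*fc_cf7 p q + l^2*m^8*fc_cf8 p q + l*m^9*fc_cf9 p q + m^10*fc_cf10 p q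

theorem faa_cf0 (p q : R) : fa0 p q*fa0 p q = faa0 p q := by
  simp only [faa0, fa0]; ring
theorem faa_cf1 (p q : R) : fa0 p q*fa1 p q + fa1 p q*fa0 p q = faa1 p q := by
  simp only [faa1, fa0, fa1]; ring
theorem faa_cf2 (p q : R) : fa0 p q*fa2 p q + fa1 p q*fa1 p q + fa2 p q*fa0 p q = faa2 p q := by
  simp only [faa2, fa0, fa1, fa2]; ring
theorem faa_cf3 (p q : R) : fa0 p q*fa3 p q + fa1 p q*fa2 p q + fa2 p q*fa1 p q + fa3 p q*fa0 p q = faa3 p q := by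
  simp only [faa3, fa0, fa1, fa2, fa3]; ring
theorem faa_cf4 (p q : R) : fa0 p q*fa4 p q + fa1 p q*fa3 p q + fa2 p q*fa2 p q + fa3 p q*fa1 p q + fa4 p q*fa0 p q = faa4 p q := by
  simp only [faa4, fa0, fa1, fa2, fa3, fa4]; ring
theorem faa_cf5 (p q : R) : fa0 p q*fa5 p q + fa1 p q*fa4 p q + fa2 p q*fa3 p q + fa3 p q*fa2 p q + fa4 p q*fa1 p q + fa5 p q*fa0 p q = faa5 p q := by
  simp only [faa5, fa0, fa1, fa2, fa3, fa4, fa5]; ring
theorem faa_cf6 (p q : R) : fa0 p q*fa6 p q + fa1 p q*fa5 p q + fa2 p q*fa4 p q + fa3 p q*fa3 p q + fa4 p q*fa2 p q + fa5 p q*fa1 p q + fa6 p q*fa0 p q = faa6 p q := by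
  simp only [faa6, fa0, fa1, fa2, fa3, fa4, fa5, fa6]; ring
theorem faa_cf7 (p q : R) : fa0 p q*fa7 p q + fa1 p q*fa6 p q + fa2 p q*fa5 p q + fa3 p q*fa4 p q + fa4 p q*fa3 p q + fa5 p q*fa2 p q + fa6 p q*fa1 p q + fa7 p q*fa0 p q = faa7 p q := by
  simp only [faa7, fa0, fa1, fa2, fa3, fa4, fa5, fa6, fa7]; ring
theorem faa_cf8 (p q : R) : fa0 p q*fa8 p q + fa1 p q*fa7 p q + fa2 p q*fa6 p q + fa3 p q*fa5 p q + fa4 p q*fa4 p q + fa5 p q*fa3 p q + fa6 p q*fa2 p q + fa7 p q*fa1 p q + fa8 p q*fa0 p q = faa8 p q := by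
  simp only [faa8, fa0, fa1, fa2, fa3, fa4, fa5, fa6, fa7, fa8]; ring
theorem faa_cf9 (p q : R) : fa0 p q*fa9 p q + fa1 p q*fa8 p q + fa2 p q*fa7 p q + fa3 p q*fa6 p q + fa4 p q*fa5 p q + fa5 p q*fa4 p q + fa6 p q*fa3 p q + fa7 p q*fa2 p q + fa8 p q*fa1 p q + fa9 p q*fa0 p q = faa9 p q := by
  simp only [faa9, fa0, fa1, fa2, fa3, fa4, fa5, fa6, fa7, fa8, fa9]; ring
theorem faa_cf10 (p q : R) : fa0 p q*fa10 p q + fa1 p q*fa9 p q + fa2 p q*fa8 p q + fa3 p q*fa7 p q + fa4 p q*fa6 p q + fa5 p q*fa5 p q + fa6 p q*fa4 p q + fa7 p q*fa3 p q + fa8 p q*fa2 p q + fa9 p q*fa1 p q + fa10 p q*fa0 p q = faa10 p q := by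
  simp only [faa10, fa0, fa1, fa10, fa2, fa3, fa4, fa5, fa6, fa7, fa8, fa9]; ring
theorem faa_cf11 (p q : R) : fa1 p q*fa10 p q + fa2 p q*fa9 p q + fa3 p q*fa8 p q + fa4 p q*fa7 p q + fa5 p q*fa6 p q + fa6 p q*fa5 p q + fa7 p q*fa4 p q + fa8 p q*fa3 p q + fa9 p q*fa2 p q + fa10 p q*fa1 p q = faa11 p q := by
  simp only [faa11, fa1, fa10, fa2, fa3, fa4, fa5, fa6, fa7, fa8, fa9]; ring
theorem faa_cf12 (p q : R) : fa2 p q*fa10 p q + fa3 p q*fa9 p q + fa4 p q*fa8 p q + fa5 p q*fa7 p q + fa6 p q*fa6 p q + fa7 p q*fa5 p q + fa8 p q*fa4 p q + fa9 p q*fa3 p q + fa10 p q*fa2 p q = faa12 p q := by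
  simp only [faa12, fa10, fa2, fa3, fa4, fa5, fa6, fa7, fa8, fa9]; ring
theorem faa_cf13 (p q : R) : fa3 p q*fa10 p q + fa4 p q*fa9 p q + fa5 p q*fa8 p q + fa6 p q*fa7 p q + fa7 p q*fa6 p q + fa8 p q*fa5 p q + fa9 p q*fa4 p q + fa10 p q*fa3 p q = faa13 p q := by
  simp only [faa13, fa10, fa3, fa4, fa5, fa6, fa7, fa8, fa9]; ring
theorem faa_cf14 (p q : R) : fa4 p q*fa10 p q + fa5 p q*fa9 p q + fa6 p q*fa8 p q + fa7 p q*fa7 p q + fa8 p q*fa6 p q + fa9 p q*fa5 p q + fa10 p q*fa4 p q = faa14 p q := by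
  simp only [faa14, fa10, fa4, fa5, fa6, fa7, fa8, fa9]; ring
theorem faa_cf15 (p q : R) : fa5 p q*fa10 p q + fa6 p q*fa9 p q + fa7 p q*fa8 p q + fa8 p q*fa7 p q + fa9 p q*fa6 p q + fa10 p q*fa5 p q = faa15 p q := by
  simp only [faa15, fa10, fa5, fa6, fa7, fa8, fa9]; ring
theorem faa_cf16 (p q : R) : fa6 p q*fa10 p q + fa7 p q*fa9 p q + fa8 p q*fa8 p q + fa9 p q*fa7 p q + fa10 p q*fa6 p q = faa16 p q := by
  simp only [faa16, fa10, fa6, fa7, fa8, fa9]; ring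
theorem faa_cf17 (p q : R) : fa7 p q*fa10 p q + fa8 p q*fa9 p q + fa9 p q*fa8 p q + fa10 p q*fa7 p q = faa17 p q := by
  simp only [faa17, fa10, fa7, fa8, fa9]; ring
theorem faa_cf18 (p q : R) : fa8 p q*fa10 p q + fa9 p q*fa9 p q + fa10 p q*fa8 p q = faa18 p q := by
  simp only [faa18, fa10, fa8, fa9]; ring
theorem faa_cf19 (p q : R) : fa9 p q*fa10 p q + fa10 p q*fa9 p q = faa19 p q := by
  simp only [faa19, fa10, fa9]; ring
theorem faa_cf20 (p q : R) : fa10 p q*fa10 p q = faa20 p q := by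
  simp only [faa20, fa10]; ring
theorem faa_eq (l m p q : R) : (pp l m p q * pp l m p q) * (pp l m p q * pp l m p q) = l^20*faa0 p q + l^19*m*faa1 p q + l^18*m^2*faa2 p q + l^17*m^3*faa3 p q + l^16*m^4*faa4 p q + l^15*m^5*faa5 p q + l^14*m^6*faa6 p q + l^13*m^7*faa7 p q + l^12*m^8*faa8 p q + l^11*m^9*faa9 p q + l^10*m^10*faa10 p q + l^9*m^11*faa11 p q + l^8*m^12*faa12 p q + l^7*m^13*faa13 p q + l^6*m^14*faa14 p q + l^5*m^15*faa15 p q + l^4*m^16*faa16 p q + l^3*m^17*faa17 p q + l^2*m^18*faa18 p q + l*m^19*faa19 p q + m^20*faa20 p q := by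
  rw [fa_eq]
  linear_combination l^20*faa_cf0 p q + l^19*m*faa_cf1 p q + l^18*m^2*faa_cf2 p q + l^17*m^3*faa_cf3 p q + l^16*m^4*faa_cf4 p q + l^15*m^5*faa_cf5 p q + l^14*m^6*faa_cf6 p q + l^13*m^7*faa_cf7 p q + l^12*m^8*faa_cf8 p q + l^11*m^9*faa_cf9 p q + l^10*m^10*faa_cf10 p q + l^9*m^11*faa_cf11 p q + l^8*m^12*faa_cf12 p q + l^7*m^13*faa_cf13 p q + l^6*m^14*faa_cf14 p q + l^5*m^15*faa_cf15 p q + l^4*m^16*faa_cf16 p q + l^3*m^17*faa_cf17 p q + l^2*m^18*faa_cf18 p q + l*m^19*faa_cf19 p q + m^20*faa_cf20 p q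

theorem fcc_cf0 (p q : R) : fc0 p q*fc0 p q = fcc0 p q := by
  simp only [fcc0, fc0]; ring
theorem fcc_cf1 (p q : R) : fc0 p q*fc1 p q + fc1 p q*fc0 p q = fcc1 p q := by
  simp only [fcc1, fc0, fc1]; ring
theorem fcc_cf2 (p q : R) : fc0 p q*fc2 p q + fc1 p q*fc1 p q + fc2 p q*fc0 p q = fcc2 p q := by
  simp only [fcc2, fc0, fc1, fc2]; ring
theorem fcc_cf3 (p q : R) : fc0 p q*fc3 p q + fc1 p q*fc2 p q + fc2 p q*fc1 p q + fc3 p q*fc0 p q = fcc3 p q := by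
  simp only [fcc3, fc0, fc1, fc2, fc3]; ring
theorem fcc_cf4 (p q : R) : fc0 p q*fc4 p q + fc1 p q*fc3 p q + fc2 p q*fc2 p q + fc3 p q*fc1 p q + fc4 p q*fc0 p q = fcc4 p q := by
  simp only [fcc4, fc0, fc1, fc2, fc3, fc4]; ring
theorem fcc_cf5 (p q : R) : fc0 p q*fc5 p q + fc1 p q*fc4 p q + fc2 p q*fc3 p q + fc3 p q*fc2 p q + fc4 p q*fc1 p q + fc5 p q*fc0 p q = fcc5 p q := by
  simp only [fcc5, fc0, fc1, fc2, fc3, fc4, fc5]; ring
theorem fcc_cf6 (p q : R) : fc0 p q*fc6 p q + fc1 p q*fc5 p q + fc2 p q*fc4 p q + fc3 p q*fc3 p q + fc4 p q*fc2 p q + fc5 p q*fc1 p q + fc6 p q*fc0 p q = fcc6 p q := by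
  simp only [fcc6, fc0, fc1, fc2, fc3, fc4, fc5, fc6]; ring
theorem fcc_cf7 (p q : R) : fc0 p q*fc7 p q + fc1 p q*fc6 p q + fc2 p q*fc5 p q + fc3 p q*fc4 p q + fc4 p q*fc3 p q + fc5 p q*fc2 p q + fc6 p q*fc1 p q + fc7 p q*fc0 p q = fcc7 p q := by
  simp only [fcc7, fc0, fc1, fc2, fc3, fc4, fc5, fc6, fc7]; ring
theorem fcc_cf8 (p q : R) : fc0 p q*fc8 p q + fc1 p q*fc7 p q + fc2 p q*fc6 p q + fc3 p q*fc5 p q + fc4 p q*fc4 p q + fc5 p q*fc3 p q + fc6 p q*fc2 p q + fc7 p q*fc1 p q + fc8 p q*fc0 p q = fcc8 p q := by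
  simp only [fcc8, fc0, fc1, fc2, fc3, fc4, fc5, fc6, fc7, fc8]; ring
theorem fcc_cf9 (p q : R) : fc0 p q*fc9 p q + fc1 p q*fc8 p q + fc2 p q*fc7 p q + fc3 p q*fc6 p q + fc4 p q*fc5 p q + fc5 p q*fc4 p q + fc6 p q*fc3 p q + fc7 p q*fc2 p q + fc8 p q*fc1 p q + fc9 p q*fc0 p q = fcc9 p q := by
  simp only [fcc9, fc0, fc1, fc2, fc3, fc4, fc5, fc6, fc7, fc8, fc9]; ring
theorem fcc_cf10 (p q : R) : fc0 p q*fc10 p q + fc1 p q*fc9 p q + fc2 p q*fc8 p q + fc3 p q*fc7 p q + fc4 p q*fc6 p q + fc5 p q*fc5 p q + fc6 p q*fc4 p q + fc7 p q*fc3 p q + fc8 p q*fc2 p q + fc9 p q*fc1 p q + fc10 p q*fc0 p q = fcc10 p q := by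
  simp only [fcc10, fc0, fc1, fc10, fc2, fc3, fc4, fc5, fc6, fc7, fc8, fc9]; ring
theorem fcc_cf11 (p q : R) : fc1 p q*fc10 p q + fc2 p q*fc9 p q + fc3 p q*fc8 p q + fc4 p q*fc7 p q + fc5 p q*fc6 p q + fc6 p q*fc5 p q + fc7 p q*fc4 p q + fc8 p q*fc3 p q + fc9 p q*fc2 p q + fc10 p q*fc1 p q = fcc11 p q := by
  simp only [fcc11, fc1, fc10, fc2, fc3, fc4, fc5, fc6, fc7, fc8, fc9]; ring
theorem fcc_cf12 (p q : R) : fc2 p q*fc10 p q + fc3 p q*fc9 p q + fc4 p q*fc8 p q + fc5 p q*fc7 p q + fc6 p q*fc6 p q + fc7 p q*fc5 p q + fc8 p q*fc4 p q + fc9 p q*fc3 p q + fc10 p q*fc2 p q = fcc12 p q := by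
  simp only [fcc12, fc10, fc2, fc3, fc4, fc5, fc6, fc7, fc8, fc9]; ring
theorem fcc_cf13 (p q : R) : fc3 p q*fc10 p q + fc4 p q*fc9 p q + fc5 p q*fc8 p q + fc6 p q*fc7 p q + fc7 p q*fc6 p q + fc8 p q*fc5 p q + fc9 p q*fc4 p q + fc10 p q*fc3 p q = fcc13 p q := by
  simp only [fcc13, fc10, fc3, fc4, fc5, fc6, fc7, fc8, fc9]; ring
theorem fcc_cf14 (p q : R) : fc4 p q*fc10 p q + fc5 p q*fc9 p q + fc6 p q*fc8 p q + fc7 p q*fc7 p q + fc8 p q*fc6 p q + fc9 p q*fc5 p q + fc10 p q*fc4 p q = fcc14 p q := by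
  simp only [fcc14, fc10, fc4, fc5, fc6, fc7, fc8, fc9]; ring
theorem fcc_cf15 (p q : R) : fc5 p q*fc10 p q + fc6 p q*fc9 p q + fc7 p q*fc8 p q + fc8 p q*fc7 p q + fc9 p q*fc6 p q + fc10 p q*fc5 p q = fcc15 p q := by
  simp only [fcc15, fc10, fc5, fc6, fc7, fc8, fc9]; ring
theorem fcc_cf16 (p q : R) : fc6 p q*fc10 p q + fc7 p q*fc9 p q + fc8 p q*fc8 p q + fc9 p q*fc7 p q + fc10 p q*fc6 p q = fcc16 p q := by
  simp only [fcc16, fc10, fc6, fc7, fc8, fc9]; ring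
theorem fcc_cf17 (p q : R) : fc7 p q*fc10 p q + fc8 p q*fc9 p q + fc9 p q*fc8 p q + fc10 p q*fc7 p q = fcc17 p q := by
  simp only [fcc17, fc10, fc7, fc8, fc9]; ring
theorem fcc_cf18 (p q : R) : fc8 p q*fc10 p q + fc9 p q*fc9 p q + fc10 p q*fc8 p q = fcc18 p q := by
  simp only [fcc18, fc10, fc8, fc9]; ring
theorem fcc_cf19 (p q : R) : fc9 p q*fc10 p q + fc10 p q*fc9 p q = fcc19 p q := by
  simp only [fcc19, fc10, fc9]; ring
theorem fcc_cf20 (p q : R) : fc10 p q*fc10 p q = fcc20 p q := by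
  simp only [fcc20, fc10]; ring
theorem fcc_eq (l m p q : R) : (qq l m p q * qq l m p q) * (qq l m p q * qq l m p q) = l^20*fcc0 p q + l^19*m*fcc1 p q + l^18*m^2*fcc2 p q + l^17*m^3*fcc3 p q + l^16*m^4*fcc4 p q + l^15*m^5*fcc5 p q + l^14*m^6*fcc6 p q + l^13*m^7*fcc7 p q + l^12*m^8*fcc8 p q + l^11*m^9*fcc9 p q + l^10*m^10*fcc10 p q + l^9*m^11*fcc11 p q + l^8*m^12*fcc12 p q + l^7*m^13*fcc13 p q + l^6*m^14*fcc14 p q + l^5*m^15*fcc15 p q + l^4*m^16*fcc16 p q + l^3*m^17*fcc17 p q + l^2*m^18*fcc18 p q + l*m^19*fcc19 p q + m^20*fcc20 p q := by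
  rw [fc_eq]
  linear_combination l^20*fcc_cf0 p q + l^19*m*fcc_cf1 p q + l^18*m^2*fcc_cf2 p q + l^17*m^3*fcc_cf3 p q + l^16*m^4*fcc_cf4 p q + l^15*m^5*fcc_cf5 p q + l^14*m^6*fcc_cf6 p q + l^13*m^7*fcc_cf7 p q + l^12*m^8*fcc_cf8 p q + l^11*m^9*fcc_cf9 p q + l^10*m^10*fcc_cf10 p q + l^9*m^11*fcc_cf11 p q + l^8*m^12*fcc_cf12 p q + l^7*m^13*fcc_cf13 p q + l^6*m^14*fcc_cf14 p q + l^5*m^15*fcc_cf15 p q + l^4*m^16*fcc_cf16 p q + l^3*m^17*fcc_cf17 p q + l^2*m^18*fcc_cf18 p q + l*m^19*fcc_cf19 p q + m^20*fcc_cf20 p q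

end Fermat.Agent.S52L.Ident
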