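import Fermat.Agent.S52.Ident1

/-!
# Verification of the polynomial identities for the 5-congruence family
(auto-generated; each identity is checked coefficientwise in `l, m`)
-/

set_option autoImplicit false
set_option linter.unusedVariables false
set_option linter.unusedSimpArgs false

namespace Fermat.Agent.S52L.Ident

variable {R : Type*} [CommRing R]

theorem C4_cf0 (p q : R) : faa0 p q + 12*(fa0 p q*fb0 p q) + 14*(fb0 p q*fb0 p q) - 12*(fb0 p q*fc0 p q) + fcc0 p q = C4_0 (c4T p q) (c6T p q) := by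
  simp only [faa0, fcc0, fa0, fb0, fc0, C4_0, c4T, c6T]; ring
theorem C4_cf1 (p q : R) : faa1 p q + 12*(fa0 p q*fb1 p q + fa1 p q*fb0 p q) + 14*(fb0 p q*fb1 p q + fb1 p q*fb0 p q) - 12*(fb0 p q*fc1 p q + fb1 p q*fc0 p q) + fcc1 p q = C4_1 (c4T p q) (c6T p q) := by
  simp only [faa1, fcc1, fa0, fa1, fb0, fb1, fc0, fc1, C4_1, c4T, c6T]; ring
theorem C4_cf2 (p q : R) : faa2 p q + 12*(fa0 p q*fb2 p q + fa1 p q*fb1 p q + fa2 p q*fb0 p q) + 14*(fb0 p q*fb2 p q + fb1 p q*fb1 p q + fb2 p q*fb0 p q) - 12*(fb0 p q*fc2 p q + fb1 p q*fc1 p q + fb2 p q*fc0 p q) + fcc2 p q = C4_2 (c4T p q) (c6T p q) := by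
  simp only [faa2, fcc2, fa0, fa1, fa2, fb0, fb1, fb2, fc0, fc1, fc2, C4_2, c4T, c6T]; ring
theorem C4_cf3 (p q : R) : faa3 p q + 12*(fa0 p q*fb3 p q + fa1 p q*fb2 p q + fa2 p q*fb1 p q + fa3 p q*fb0 p q) + 14*(fb0 p q*fb3 p q + fb1 p q*fb2 p q + fb2 p q*fb1 p q + fb3 p q*fb0 p q) - 12*(fb0 p q*fc3 p q + fb1 p q*fc2 p q + fb2 p q*fc1 p q + fb3 p q*fc0 p q) + fcc3 p q = C4_3 (c4T p q) (c6T p q) := by
  simp only [faa3, fcc3, fa0, fa1, fa2, fa3, fb0, fb1, fb2, fb3, fc0, fc1, fc2, fc3, C4_3, c4T, c6T]; ring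
theorem C4_cf4 (p q : R) : faa4 p q + 12*(fa0 p q*fb4 p q + fa1 p q*fb3 p q + fa2 p q*fb2 p q + fa3 p q*fb1 p q + fa4 p q*fb0 p q) + 14*(fb0 p q*fb4 p q + fb1 p q*fb3 p q + fb2 p q*fb2 p q + fb3 p q*fb1 p q + fb4 p q*fb0 p q) - 12*(fb0 p q*fc4 p q + fb1 p q*fc3 p q + fb2 p q*fc2 p q + fb3 p q*fc1 p q + fb4 p q*fc0 p q) + fcc4 p q = C4_4 (c4T p q) (c6T p q) := by
  simp only [faa4, fcc4, fa0, fa1, fa2, fa3, fa4, fb0, fb1, fb2, fb3, fb4, fc0, fc1, fc2, fc3, fc4, C4_4, c4T, c6T]; ring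
theorem C4_cf5 (p q : R) : faa5 p q + 12*(fa0 p q*fb5 p q + fa1 p q*fb4 p q + fa2 p q*fb3 p q + fa3 p q*fb2 p q + fa4 p q*fb1 p q + fa5 p q*fb0 p q) + 14*(fb0 p q*fb5 p q + fb1 p q*fb4 p q + fb2 p q*fb3 p q + fb3 p q*fb2 p q + fb4 p q*fb1 p q + fb5 p q*fb0 p q) - 12*(fb0 p q*fc5 p q + fb1 p q*fc4 p q + fb2 p q*fc3 p q + fb3 p q*fc2 p q + fb4 p q*fc1 p q + fb5 p q*fc0 p q) + fcc5 p q = C4_5 (c4T p q) (c6T p q) := by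
  simp only [faa5, fcc5, fa0, fa1, fa2, fa3, fa4, fa5, fb0, fb1, fb2, fb3, fb4, fb5, fc0, fc1, fc2, fc3, fc4, fc5, C4_5, c4T, c6T]; ring
theorem C4_cf6 (p q : R) : faa6 p q + 12*(fa0 p q*fb6 p q + fa1 p q*fb5 p q + fa2 p q*fb4 p q + fa3 p q*fb3 p q + fa4 p q*fb2 p q + fa5 p q*fb1 p q + fa6 p q*fb0 p q) + 14*(fb0 p q*fb6 p q + fb1 p q*fb5 p q + fb2 p q*fb4 p q + fb3 p q*fb3 p q + fb4 p q*fb2 p q + fb5 p q*fb1 p q + fb6 p q*fb0 p q) - 12*(fb0 p q*fc6 p q + fb1 p q*fc5 p q + fb2 p q*fc4 p q + fb3 p q*fc3 p q + fb4 p q*fc2 p q + fb5 p q*fc1 p q + fb6 p q*fc0 p q) + fcc6 p q = C4_6 (c4T p q) (c6T p q) := by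
  simp only [faa6, fcc6, fa0, fa1, fa2, fa3, fa4, fa5, fa6, fb0, fb1, fb2, fb3, fb4, fb5, fb6, fc0, fc1, fc2, fc3, fc4, fc5, fc6, C4_6, c4T, c6T]; ring
theorem C4_cf7 (p q : R) : faa7 p q + 12*(fa0 p q*fb7 p q + fa1 p q*fb6 p q + fa2 p q*fb5 p q + fa3 p q*fb4 p q + fa4 p q*fb3 p q + fa5 p q*fb2 p q + fa6 p q*fb1 p q + fa7 p q*fb0 p q) + 14*(fb0 p q*fb7 p q + fb1 p q*fb6 p q + fb2 p q*fb5 p q + fb3 p q*fb4 p q + fb4 p q*fb3 p q + fb5 p q*fb2 p q + fb6 p q*fb1 p q + fb7 p q*fb0 p q) - 12*(fb0 p q*fc7 p q + fb1 p q*fc6 p q + fb2 p q*fc5 p q + fb3 p q*fc4 p q + fb4 p q*fc3 p q + fb5 p q*fc2 p q + fb6 p q*fc1 p q + fb7 p q*fc0 p q) + fcc7 p q = C4_7 (c4T p q) (c6T p q) := by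
  simp only [faa7, fcc7, fa0, fa1, fa2, fa3, fa4, fa5, fa6, fa7, fb0, fb1, fb2, fb3, fb4, fb5, fb6, fb7, fc0, fc1, fc2, fc3, fc4, fc5, fc6, fc7, C4_7, c4T, c6T]; ring
theorem C4_cf8 (p q : R) : faa8 p q + 12*(fa0 p q*fb8 p q + fa1 p q*fb7 p q + fa2 p q*fb6 p q + fa3 p q*fb5 p q + fa4 p q*fb4 p q + fa5 p q*fb3 p q + fa6 p q*fb2 p q + fa7 p q*fb1 p q + fa8 p q*fb0 p q) + 14*(fb0 p q*fb8 p q + fb1 p q*fb7 p q + fb2 p q*fb6 p q + fb3 p q*fb5 p q + fb4 p q*fb4 p q + fb5 p q*fb3 p q + fb6 p q*fb2 p q + fb7 p q*fb1 p q + fb8 p q*fb0 p q) - 12*(fb0 p q*fc8 p q + fb1 p q*fc7 p q + fb2 p q*fc6 p q + fb3 p q*fc5 p q + fb4 p q*fc4 p q + fb5 p q*fc3 p q + fb6 p q*fc2 p q + fb7 p q*fc1 p q + fb8 p q*fc0 p q) + fcc8 p q = C4_8 (c4T p q) (c6T p q) := by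
  simp only [faa8, fcc8, fa0, fa1, fa2, fa3, fa4, fa5, fa6, fa7, fa8, fb0, fb1, fb2, fb3, fb4, fb5, fb6, fb7, fb8, fc0, fc1, fc2, fc3, fc4, fc5, fc6, fc7, fc8, C4_8, c4T, c6T]; ring
theorem C4_cf9 (p q : R) : faa9 p q + 12*(fa0 p q*fb9 p q + fa1 p q*fb8 p q + fa2 p q*fb7 p q + fa3 p q*fb6 p q + fa4 p q*fb5 p q + fa5 p q*fb4 p q + fa6 p q*fb3 p q + fa7 p q*fb2 p q + fa8 p q*fb1 p q + fa9 p q*fb0 p q) + 14*(fb0 p q*fb9 p q + fb1 p q*fb8 p q + fb2 p q*fb7 p q + fb3 p q*fb6 p q + fb4 p q*fb5 p q + fb5 p q*fb4 p q + fb6 p q*fb3 p q + fb7 p q*fb2 p q + fb8 p q*fb1 p q + fb9 p q*fb0 p q) - 12*(fb0 p q*fc9 p q + fb1 p q*fc8 p q + fb2 p q*fc7 p q + fb3 p q*fc6 p q + fb4 p q*fc5 p q + fb5 p q*fc4 p q + fb6 p q*fc3 p q + fb7 p q*fc2 p q + fb8 p q*fc1 p q + fb9 p q*fc0 p q) + fcc9 p q = C4_9 (c4T p q) (c6T p q) := by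
  simp only [faa9, fcc9, fa0, fa1, fa2, fa3, fa4, fa5, fa6, fa7, fa8, fa9, fb0, fb1, fb2, fb3, fb4, fb5, fb6, fb7, fb8, fb9, fc0, fc1, fc2, fc3, fc4, fc5, fc6, fc7, fc8, fc9, C4_9, c4T, c6T]; ring
theorem C4_cf10 (p q : R) : faa10 p q + 12*(fa0 p q*fb10 p q + fa1 p q*fb9 p q + fa2 p q*fb8 p q + fa3 p q*fb7 p q + fa4 p q*fb6 p q + fa5 p q*fb5 p q + fa6 p q*fb4 p q + fa7 p q*fb3 p q + fa8 p q*fb2 p q + fa9 p q*fb1 p q + fa10 p q*fb0 p q) + 14*(fb0 p q*fb10 p q + fb1 p q*fb9 p q + fb2 p q*fb8 p q + fb3 p q*fb7 p q + fb4 p q*fb6 p q + fb5 p q*fb5 p q + fb6 p q*fb4 p q + fb7 p q*fb3 p q + fb8 p q*fb2 p q + fb9 p q*fb1 p q + fb10 p q*fb0 p q) - 12*(fb0 p q*fc10 p q + fb1 p q*fc9 p q + fb2 p q*fc8 p q + fb3 p q*fc7 p q + fb4 p q*fc6 p q + fb5 p q*fc5 p q + fb6 p q*fc4 p q + fb7 p q*fc3 p q + fb8 p q*fc2 p q + fb9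 p q*fc1 p q + fb10 p q*fc0 p q) + fcc10 p q = C4_10 (c4T p q) (c6T p q) := by
  simp only [faa10, fcc10, fa0, fa1, fa2, fa3, fa4, fa5, fa6, fa7, fa8, fa9, fa10, fb0, fb1, fb2, fb3, fb4, fb5, fb6, fb7, fb8, fb9, fb10, fc0, fc1, fc2, fc3, fc4, fc5, fc6, fc7, fc8, fc9, fc10, C4_10, c4T, c6T]; ring
theorem C4_cf11 (p q : R) : faa11 p q + 12*(fa1 p q*fb10 p q + fa2 p q*fb9 p q + fa3 p q*fb8 p q + fa4 p q*fb7 p q + fa5 p q*fb6 p q + fa6 p q*fb5 p q + fa7 p q*fb4 p q + fa8 p q*fb3 p q + fa9 p q*fb2 p q + fa10 p q*fb1 p q) + 14*(fb1 p q*fb10 p q + fb2 p q*fb9 p q + fb3 p q*fb8 p q + fb4 p q*fb7 p q + fb5 p q*fb6 p q + fb6 p q*fb5 p q + fb7 p q*fb4 p q + fb8 p q*fb3 p q + fb9 p q*fb2 p q + fb10 p q*fb1 p q) - 12*(fb1 p q*fc10 p q + fb2 p q*fc9 p q + fb3 p q*fc8 p q + fb4 p q*fc7 p q + fb5 p q*fc6 p q + fb6 p q*fc5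 p q + fb7 p q*fc4 p q + fb8 p q*fc3 p q + fb9 p q*fc2 p q + fb10 p q*fc1 p q) + fcc11 p q = C4_11 (c4T p q) (c6T p q) := by
  simp only [faa11, fcc11, fa1, fa2, fa3, fa4, fa5, fa6, fa7, fa8, fa9, fa10, fb1, fb2, fb3, fb4, fb5, fb6, fb7, fb8, fb9, fb10, fc1, fc2, fc3, fc4, fc5, fc6, fc7, fc8, fc9, fc10, C4_11, c4T, c6T]; ring
theorem C4_cf12 (p q : R) : faa12 p q + 12*(fa2 p q*fb10 p q + fa3 p q*fb9 p q + fa4 p q*fb8 p q + fa5 p q*fb7 p q + fa6 p q*fb6 p q + fa7 p q*fb5 p q + fa8 p q*fb4 p q + fa9 p q*fb3 p q + fa10 p q*fb2 p q) + 14*(fb2 p q*fb10 p q + fb3 p q*fb9 p q + fb4 p q*fb8 p q + fb5 p q*fb7 p q + fb6 p q*fb6 p q + fb7 p q*fb5 p q + fb8 p q*fb4 p q + fb9 p q*fb3 p q + fb10 p q*fb2 p q) - 12*(fb2 p q*fc10 p q + fb3 p q*fc9 p q + fb4 p q*fc8 p q + fb5 p q*fc7 p q + fb6 p q*fc6 p q + fb7 p q*fc5 p q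 + fb8 p q*fc4 p q + fb9 p q*fc3 p q + fb10 p q*fc2 p q) + fcc12 p q = C4_12 (c4T p q) (c6T p q) := by
  simp only [faa12, fcc12, fa2, fa3, fa4, fa5, fa6, fa7, fa8, fa9, fa10, fb2, fb3, fb4, fb5, fb6, fb7, fb8, fb9, fb10, fc2, fc3, fc4, fc5, fc6, fc7, fc8, fc9, fc10, C4_12, c4T, c6T]; ring
theorem C4_cf13 (p q : R) : faa13 p q + 12*(fa3 p q*fb10 p q + fa4 p q*fb9 p q + fa5 p q*fb8 p q + fa6 p q*fb7 p q + fa7 p q*fb6 p q + fa8 p q*fb5 p q + fa9 p q*fb4 p q + fa10 p q*fb3 p q) + 14*(fb3 p q*fb10 p q + fb4 p q*fb9 p q + fb5 p q*fb8 p q + fb6 p q*fb7 p q + fb7 p q*fb6 p q + fb8 p q*fb5 p q + fb9 p q*fb4 p q + fb10 p q*fb3 p q) - 12*(fb3 p q*fc10 p q + fb4 p q*fc9 p q + fb5 p q*fc8 p q + fb6 p q*fc7 p q + fb7 p q*fc6 p q + fb8 p q*fc5 p q + fb9 p q*fc4 p q + fb10 p q*fc3 p q) + fcc13 p q = C4_13 (c4T p q) (c6T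 p q) := by
  simp only [faa13, fcc13, fa3, fa4, fa5, fa6, fa7, fa8, fa9, fa10, fb3, fb4, fb5, fb6, fb7, fb8, fb9, fb10, fc3, fc4, fc5, fc6, fc7, fc8, fc9, fc10, C4_13, c4T, c6T]; ring
theorem C4_cf14 (p q : R) : faa14 p q + 12*(fa4 p q*fb10 p q + fa5 p q*fb9 p q + fa6 p q*fb8 p q + fa7 p q*fb7 p q + fa8 p q*fb6 p q + fa9 p q*fb5 p q + fa10 p q*fb4 p q) + 14*(fb4 p q*fb10 p q + fb5 p q*fb9 p q + fb6 p q*fb8 p q + fb7 p q*fb7 p q + fb8 p q*fb6 p q + fb9 p q*fb5 p q + fb10 p q*fb4 p q) - 12*(fb4 p q*fc10 p q + fb5 p q*fc9 p q + fb6 p q*fc8 p q + fb7 p q*fc7 p q + fb8 p q*fc6 p q + fb9 p q*fc5 p q + fb10 p q*fc4 p q) + fcc14 p q = C4_14 (c4T p q) (c6T p q) := by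
  simp only [faa14, fcc14, fa4, fa5, fa6, fa7, fa8, fa9, fa10, fb4, fb5, fb6, fb7, fb8, fb9, fb10, fc4, fc5, fc6, fc7, fc8, fc9, fc10, C4_14, c4T, c6T]; ring
theorem C4_cf15 (p q : R) : faa15 p q + 12*(fa5 p q*fb10 p q + fa6 p q*fb9 p q + fa7 p q*fb8 p q + fa8 p q*fb7 p q + fa9 p q*fb6 p q + fa10 p q*fb5 p q) + 14*(fb5 p q*fb10 p q + fb6 p q*fb9 p q + fb7 p q*fb8 p q + fb8 p q*fb7 p q + fb9 p q*fb6 p q + fb10 p q*fb5 p q) - 12*(fb5 p q*fc10 p q + fb6 p q*fc9 p q + fb7 p q*fc8 p q + fb8 p q*fc7 p q + fb9 p q*fc6 p q + fb10 p q*fc5 p q) + fcc15 p q = C4_15 (c4T p q) (c6T p q) := by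
  simp only [faa15, fcc15, fa5, fa6, fa7, fa8, fa9, fa10, fb5, fb6, fb7, fb8, fb9, fb10, fc5, fc6, fc7, fc8, fc9, fc10, C4_15, c4T, c6T]; ring
theorem C4_cf16 (p q : R) : faa16 p q + 12*(fa6 p q*fb10 p q + fa7 p q*fb9 p q + fa8 p q*fb8 p q + fa9 p q*fb7 p q + fa10 p q*fb6 p q) + 14*(fb6 p q*fb10 p q + fb7 p q*fb9 p q + fb8 p q*fb8 p q + fb9 p q*fb7 p q + fb10 p q*fb6 p q) - 12*(fb6 p q*fc10 p q + fb7 p q*fc9 p q + fb8 p q*fc8 p q + fb9 p q*fc7 p q + fb10 p q*fc6 p q) + fcc16 p q = C4_16 (c4T p q) (c6T p q) := by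
  simp only [faa16, fcc16, fa6, fa7, fa8, fa9, fa10, fb6, fb7, fb8, fb9, fb10, fc6, fc7, fc8, fc9, fc10, C4_16, c4T, c6T]; ring
theorem C4_cf17 (p q : R) : faa17 p q + 12*(fa7 p q*fb10 p q + fa8 p q*fb9 p q + fa9 p q*fb8 p q + fa10 p q*fb7 p q) + 14*(fb7 p q*fb10 p q + fb8 p q*fb9 p q + fb9 p q*fb8 p q + fb10 p q*fb7 p q) - 12*(fb7 p q*fc10 p q + fb8 p q*fc9 p q + fb9 p q*fc8 p q + fb10 p q*fc7 p q) + fcc17 p q = C4_17 (c4T p q) (c6T p q) := by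
  simp only [faa17, fcc17, fa7, fa8, fa9, fa10, fb7, fb8, fb9, fb10, fc7, fc8, fc9, fc10, C4_17, c4T, c6T]; ring
theorem C4_cf18 (p q : R) : faa18 p q + 12*(fa8 p q*fb10 p q + fa9 p q*fb9 p q + fa10 p q*fb8 p q) + 14*(fb8 p q*fb10 p q + fb9 p q*fb9 p q + fb10 p q*fb8 p q) - 12*(fb8 p q*fc10 p q + fb9 p q*fc9 p q + fb10 p q*fc8 p q) + fcc18 p q = C4_18 (c4T p q) (c6T p q) := by
  simp only [faa18, fcc18, fa8, fa9, fa10, fb8, fb9, fb10, fc8, fc9, fc10, C4_18, c4T, c6T]; ring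
theorem C4_cf19 (p q : R) : faa19 p q + 12*(fa9 p q*fb10 p q + fa10 p q*fb9 p q) + 14*(fb9 p q*fb10 p q + fb10 p q*fb9 p q) - 12*(fb9 p q*fc10 p q + fb10 p q*fc9 p q) + fcc19 p q = C4_19 (c4T p q) (c6T p q) := by
  simp only [faa19, fcc19, fa9, fa10, fb9, fb10, fc9, fc10, C4_19, c4T, c6T]; ring
theorem C4_cf20 (p q : R) : faa20 p q + 12*(fa10 p q*fb10 p q) + 14*(fb10 p q*fb10 p q) - 12*(fb10 p q*fc10 p q) + fcc20 p q = C4_20 (c4T p q) (c6T p q) := by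
  simp only [faa20, fcc20, fa10, fb10, fc10, C4_20, c4T, c6T]; ring
theorem C4_T (l m p q : R) :
    C4 l m (c4T p q) (c6T p q) = c4T (pp l m p q) (qq l m p q) := by
  have h1 : c4T (pp l m p q) (qq l m p q) =
      (pp l m p q * pp l m p q) * (pp l m p q * pp l m p q)
      + 12*((pp l m p q * pp l m p q)*(pp l m p q * qq l m p q))
      + 14*((pp l m p q * qq l m p q)*(pp l m p q * qq l m p q))
      - 12*((pp l m p q * qq l m p q)*(qq l m p q * qq l m p q))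
      + (qq l m p q * qq l m p q) * (qq l m p q * qq l m p q) := by
    unfold c4T; ring
  rw [h1, faa_eq, fcc_eq, fa_eq, fb_eq, fc_eq]
  simp only [C4, C4p0, C4p1, C4p2, C4p3]
  linear_combination (-1)*(l^20*C4_cf0 p q + l^19*m*C4_cf1 p q + l^18*m^2*C4_cf2 p q + l^17*m^3*C4_cf3 p q + l^16*m^4*C4_cf4 p q + l^15*m^5*C4_cf5 p q + l^14*m^6*C4_cf6 p q + l^13*m^7*C4_cf7 p q + l^12*m^8*C4_cf8 p q + l^11*m^9*C4_cf9 p q + l^10*m^10*C4_cf10 p q + l^9*m^11*C4_cf11 p q + l^8*m^12*C4_cf12 p q + l^7*m^13*C4_cf13 p q + l^6*m^14*C4_cf14 p q + l^5*m^15*C4_cf15 p q + l^4*m^16*C4_cf16 p q + l^3*m^17*C4_cf17 p q + l^2*m^18*C4_cf18 p q + l*m^19*C4_cf19 p q + m^20*C4_cf20 p q)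

end Fermat.Agent.S52L.Ident
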