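import Fermat.Agent.S52.Ident1

/-!
# Verification of the polynomial identities for the 5-congruence family
(auto-generated; each identity is checked coefficientwise in `l, m`)
-/

set_option autoImplicit false
set_option linter.unusedVariables false
set_option linter.unusedSimpArgs false

namespace Fermat.Agent.S52L.Ident

variable {R : Type*} [CommRing R]

def fu0 (p q : R) : R := 1*p^2 + 18*p*q + 75*q^2
def fu1 (p q : R) : R := 10*p^4 + 96*p^3*q + (-1064)*p^2*q^2 + (-9936)*p*q^3 + 750*q^4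
def fu2 (p q : R) : R := 45*p^6 + 54*p^5*q + (-8451)*p^4*q^2 + 16020*p^3*q^3 + 601479*p^2*q^4 + (-90234)*p*q^5 + 3375*q^6
def fu3 (p q : R) : R := 120*p^8 + (-864)*p^7*q + (-20304)*p^6*q^2 + 304416*p^5*q^3 + 880992*p^4*q^4 + (-21725856)*p^3*q^5 + 4850256*p^2*q^6 + (-362016)*p*q^7 + 9000*q^8
def fu4 (p q : R) : R := 210*p^10 + (-3276)*p^9*q + (-10626)*p^8*q^2 + 847728*p^7*q^3 + (-6399468)*p^6*q^4 + (-56864520)*p^5*q^5 + 519296412*p^4*q^6 + (-152521488)*p^3*q^7 + 17020794*p^2*q^8 + (-845964)*p*q^9 + 15750*q^10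
def fu5 (p q : R) : R := 252*p^12 + (-6048)*p^11*q + 42336*p^10*q^2 + 842688*p^9*q^3 + (-23309316)*p^8*q^4 + 41418432*p^7*q^5 + 1550124576*p^6*q^6 + (-8607088512)*p^5*q^7 + 3096803124*p^4*q^8 + (-458000928)*p^3*q^9 + 34086528*p^2*q^10 + (-1270080)*p*q^11 + 18900*q^12
def fu6 (p q : R) : R := 210*p^14 + (-6804)*p^13*q + 102186*p^12*q^2 + (-221256)*p^11*q^3 + (-31728870)*p^10*q^4 + 305971380*p^9*q^5 + 842203410*p^8*q^6 + (-24703628400)*p^7*q^7 + 100213117110*p^6*q^8 + (-42171823980)*p^5*q^9 + 7725996990*p^4*q^10 + (-763696584)*p^3*q^11 + 42641886*p^2*q^12 + (-1270836)*p*q^13 + 15750*q^14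
def fu7 (p q : R) : R := 120*p^16 + (-4896)*p^15*q + 108624*p^14*q^2 + (-1280160)*p^13*q^3 + (-19026576)*p^12*q^4 + 427762656*p^11*q^5 + (-1916073840)*p^10*q^6 + (-21660043680)*p^9*q^7 + 245419738080*p^8*q^8 + (-807169857120)*p^7*q^9 + 385223946480*p^6*q^10 + (-83764352736)*p^5*q^11 + 10290576144*p^4*q^12 + (-763912800)*p^3*q^13 + 34131504*p^2*q^14 + (-847584)*p*q^15 + 9000*q^16
def fu8 (p q : R) : R := 45*p^18 + (-2214)*p^17*q + 64071*p^16*q^2 + (-1215504)*p^15*q^3 + (-2121228)*p^14*q^4 + 260895384*p^13*q^5 + (-2987881524)*p^12*q^6 + (-549025776)*p^11*q^7 + 196136459910*p^10*q^8 + (-1525134075300)*p^9*q^9 + 4290709222530*p^8*q^10 + (-2272886350704)*p^7*q^11 + 569989946916*p^6*q^12 + (-83473640424)*p^5*q^13 + 7713069372*p^4*q^14 + (-458433936)*p^3*q^15 + 17072181*p^2*q^16 + (-363366)*p*q^17 + 3375*q^18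
def fu9 (p q : R) : R := 10*p^20 + (-576)*p^19*q + 20424*p^18*q^2 + (-515952)*p^17*q^3 + 2709702*p^16*q^4 + 65468160*p^15*q^5 + (-1527497088)*p^14*q^6 + 7190413632*p^13*q^7 + 41484220164*p^12*q^8 + (-883340786304)*p^11*q^9 + 5602604095440*p^10*q^10 + (-13603440527136)*p^9*q^11 + 7848644526444*p^8*q^12 + (-2223279643392)*p^7*q^13 + 377371645632*p^6*q^14 + (-41649393600)*p^5*q^15 + 3083926482*p^4*q^16 + (-152831808)*p^3*q^17 + 4879144*p^2*q^18 + (-90864)*p*q^19 + 750*q^20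
def fu10 (p q : R) : R := 1*p^22 + (-66)*p^21*q + 2761*p^20*q^2 + (-85932)*p^19*q^3 + 903639*p^18*q^4 + 3011382*p^17*q^5 + (-262217769)*p^16*q^6 + 2328095088*p^15*q^7 + (-6365827446)*p^14*q^8 + (-123661899108)*p^13*q^9 + 1727218253178*p^12*q^10 + (-9763333382664)*p^11*q^11 + 19727508772686*p^10*q^12 + (-12100271620932)*p^9*q^13 + 3802489540014*p^8*q^14 + (-732818951568)*p^7*q^15 + 93949031781*p^6*q^16 + (-8318201562)*p^5*q^17 + 513832429*p^4*q^18 + (-21835308)*p^3*q^19 + 610027*p^2*q^20 + (-10098)*p*q^21 + 75*q^22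

def fv0 (p q : R) : R := 75*p^2 + (-18)*p*q + 1*q^2
def fv1 (p q : R) : R := 750*p^4 + 9936*p^3*q + (-1064)*p^2*q^2 + (-96)*p*q^3 + 10*q^4
def fv2 (p q : R) : R := 3375*p^6 + 90234*p^5*q + 601479*p^4*q^2 + (-16020)*p^3*q^3 + (-8451)*p^2*q^4 + (-54)*p*q^5 + 45*q^6
def fv3 (p q : R) : R := 9000*p^8 + 362016*p^7*q + 4850256*p^6*q^2 + 21725856*p^5*q^3 + 880992*p^4*q^4 + (-304416)*p^3*q^5 + (-20304)*p^2*q^6 + 864*p*q^7 + 120*q^8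
def fv4 (p q : R) : R := 15750*p^10 + 845964*p^9*q + 17020794*p^8*q^2 + 152521488*p^7*q^3 + 519296412*p^6*q^4 + 56864520*p^5*q^5 + (-6399468)*p^4*q^6 + (-847728)*p^3*q^7 + (-10626)*p^2*q^8 + 3276*p*q^9 + 210*q^10
def fv5 (p q : R) : R := 18900*p^12 + 1270080*p^11*q + 34086528*p^10*q^2 + 458000928*p^9*q^3 + 3096803124*p^8*q^4 + 8607088512*p^7*q^5 + 1550124576*p^6*q^6 + (-41418432)*p^5*q^7 + (-23309316)*p^4*q^8 + (-842688)*p^3*q^9 + 42336*p^2*q^10 + 6048*p*q^11 + 252*q^12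
def fv6 (p q : R) : R := 15750*p^14 + 1270836*p^13*q + 42641886*p^12*q^2 + 763696584*p^11*q^3 + 7725996990*p^10*q^4 + 42171823980*p^9*q^5 + 100213117110*p^8*q^6 + 24703628400*p^7*q^7 + 842203410*p^6*q^8 + (-305971380)*p^5*q^9 + (-31728870)*p^4*q^10 + 221256*p^3*q^11 + 102186*p^2*q^12 + 6804*p*q^13 + 210*q^14
def fv7 (p q : R) : R := 9000*p^16 + 847584*p^15*q + 34131504*p^14*q^2 + 763912800*p^13*q^3 + 10290576144*p^12*q^4 + 83764352736*p^11*q^5 + 385223946480*p^10*q^6 + 807169857120*p^9*q^7 + 245419738080*p^8*q^8 + 21660043680*p^7*q^9 + (-1916073840)*p^6*q^10 + (-427762656)*p^5*q^11 + (-19026576)*p^4*q^12 + 1280160*p^3*q^13 + 108624*p^2*q^14 + 4896*p*q^15 + 120*q^16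
def fv8 (p q : R) : R := 3375*p^18 + 363366*p^17*q + 17072181*p^16*q^2 + 458433936*p^15*q^3 + 7713069372*p^14*q^4 + 83473640424*p^13*q^5 + 569989946916*p^12*q^6 + 2272886350704*p^11*q^7 + 4290709222530*p^10*q^8 + 1525134075300*p^9*q^9 + 196136459910*p^8*q^10 + 549025776*p^7*q^11 + (-2987881524)*p^6*q^12 + (-260895384)*p^5*q^13 + (-2121228)*p^4*q^14 + 1215504*p^3*q^15 + 64071*p^2*q^16 + 2214*p*q^17 + 45*q^18
def fv9 (p q : R) : R := 750*p^20 + 90864*p^19*q + 4879144*p^18*q^2 + 152831808*p^17*q^3 + 3083926482*p^16*q^4 + 41649393600*p^15*q^5 + 377371645632*p^14*q^6 + 2223279643392*p^13*q^7 + 7848644526444*p^12*q^8 + 13603440527136*p^11*q^9 + 5602604095440*p^10*q^10 + 883340786304*p^9*q^11 + 41484220164*p^8*q^12 + (-7190413632)*p^7*q^13 + (-1527497088)*p^6*q^14 + (-65468160)*p^5*q^15 + 2709702*p^4*q^16 + 515952*p^3*q^17 + 20424*p^2*q^18 + 576*p*q^19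 + 10*q^20
def fv10 (p q : R) : R := 75*p^22 + 10098*p^21*q + 610027*p^20*q^2 + 21835308*p^19*q^3 + 513832429*p^18*q^4 + 8318201562*p^17*q^5 + 93949031781*p^16*q^6 + 732818951568*p^15*q^7 + 3802489540014*p^14*q^8 + 12100271620932*p^13*q^9 + 19727508772686*p^12*q^10 + 9763333382664*p^11*q^11 + 1727218253178*p^10*q^12 + 123661899108*p^9*q^13 + (-6365827446)*p^8*q^14 + (-2328095088)*p^7*q^15 + (-262217769)*p^6*q^16 + (-3011382)*p^5*q^17 + 903639*p^4*q^18 + 85932*p^3*q^19 + 2761*p^2*q^20 + 66*p*q^21 + 1*q^22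

theorem fu_cf0 (p q : R) : fa0 p q + 18*fb0 p q + 75*fc0 p q = fu0 p q := by simp only [fa0, fb0, fc0, fu0]; ring
theorem fv_cf0 (p q : R) : 75*fa0 p q - 18*fb0 p q + fc0 p q = fv0 p q := by simp only [fa0, fb0, fc0, fv0]; ring
theorem fu_cf1 (p q : R) : fa1 p q + 18*fb1 p q + 75*fc1 p q = fu1 p q := by simp only [fa1, fb1, fc1, fu1]; ring
theorem fv_cf1 (p q : R) : 75*fa1 p q - 18*fb1 p q + fc1 p q = fv1 p q := by simp only [fa1, fb1, fc1, fv1]; ring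
theorem fu_cf2 (p q : R) : fa2 p q + 18*fb2 p q + 75*fc2 p q = fu2 p q := by simp only [fa2, fb2, fc2, fu2]; ring
theorem fv_cf2 (p q : R) : 75*fa2 p q - 18*fb2 p q + fc2 p q = fv2 p q := by simp only [fa2, fb2, fc2, fv2]; ring
theorem fu_cf3 (p q : R) : fa3 p q + 18*fb3 p q + 75*fc3 p q = fu3 p q := by simp only [fa3, fb3, fc3, fu3]; ring
theorem fv_cf3 (p q : R) : 75*fa3 p q - 18*fb3 p q + fc3 p q = fv3 p q := by simp only [fa3, fb3, fc3, fv3]; ring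
theorem fu_cf4 (p q : R) : fa4 p q + 18*fb4 p q + 75*fc4 p q = fu4 p q := by simp only [fa4, fb4, fc4, fu4]; ring
theorem fv_cf4 (p q : R) : 75*fa4 p q - 18*fb4 p q + fc4 p q = fv4 p q := by simp only [fa4, fb4, fc4, fv4]; ring
theorem fu_cf5 (p q : R) : fa5 p q + 18*fb5 p q + 75*fc5 p q = fu5 p q := by simp only [fa5, fb5, fc5, fu5]; ring
theorem fv_cf5 (p q : R) : 75*fa5 p q - 18*fb5 p q + fc5 p q = fv5 p q := by simp only [fa5, fb5, fc5, fv5]; ring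
theorem fu_cf6 (p q : R) : fa6 p q + 18*fb6 p q + 75*fc6 p q = fu6 p q := by simp only [fa6, fb6, fc6, fu6]; ring
theorem fv_cf6 (p q : R) : 75*fa6 p q - 18*fb6 p q + fc6 p q = fv6 p q := by simp only [fa6, fb6, fc6, fv6]; ring
theorem fu_cf7 (p q : R) : fa7 p q + 18*fb7 p q + 75*fc7 p q = fu7 p q := by simp only [fa7, fb7, fc7, fu7]; ring
theorem fv_cf7 (p q : R) : 75*fa7 p q - 18*fb7 p q + fc7 p q = fv7 p q := by simp only [fa7, fb7, fc7, fv7]; ring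
theorem fu_cf8 (p q : R) : fa8 p q + 18*fb8 p q + 75*fc8 p q = fu8 p q := by simp only [fa8, fb8, fc8, fu8]; ring
theorem fv_cf8 (p q : R) : 75*fa8 p q - 18*fb8 p q + fc8 p q = fv8 p q := by simp only [fa8, fb8, fc8, fv8]; ring
theorem fu_cf9 (p q : R) : fa9 p q + 18*fb9 p q + 75*fc9 p q = fu9 p q := by simp only [fa9, fb9, fc9, fu9]; ring
theorem fv_cf9 (p q : R) : 75*fa9 p q - 18*fb9 p q + fc9 p q = fv9 p q := by simp only [fa9, fb9, fc9, fv9]; ring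
theorem fu_cf10 (p q : R) : fa10 p q + 18*fb10 p q + 75*fc10 p q = fu10 p q := by simp only [fa10, fb10, fc10, fu10]; ring
theorem fv_cf10 (p q : R) : 75*fa10 p q - 18*fb10 p q + fc10 p q = fv10 p q := by simp only [fa10, fb10, fc10, fv10]; ring
theorem fu_eq (l m p q : R) : pp l m p q * pp l m p q + 18*(pp l m p q * qq l m p q) + 75*(qq l m p q * qq l m p q) = l^10*fu0 p q + l^9*m*fu1 p q + l^8*m^2*fu2 p q + l^7*m^3*fu3 p q + l^6*m^4*fu4 p q + l^5*m^5*fu5 p q + l^4*m^6*fu6 p q + l^3*m^7*fu7 p q + l^2*m^8*fu8 p q + l*m^9*fu9 p q + m^10*fu10 p q := by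
  rw [fa_eq, fb_eq, fc_eq]
  linear_combination l^10*fu_cf0 p q + l^9*m*fu_cf1 p q + l^8*m^2*fu_cf2 p q + l^7*m^3*fu_cf3 p q + l^6*m^4*fu_cf4 p q + l^5*m^5*fu_cf5 p q + l^4*m^6*fu_cf6 p q + l^3*m^7*fu_cf7 p q + l^2*m^8*fu_cf8 p q + l*m^9*fu_cf9 p q + m^10*fu_cf10 p q
theorem fv_eq (l m p q : R) : 75*(pp l m p q * pp l m p q) - 18*(pp l m p q * qq l m p q) + (qq l m p q * qq l m p q) = l^10*fv0 p q + l^9*m*fv1 p q + l^8*m^2*fv2 p q + l^7*m^3*fv3 p q + l^6*m^4*fv4 p q + l^5*m^5*fv5 p q + l^4*m^6*fv6 p q + l^3*m^7*fv7 p q + l^2*m^8*fv8 p q + l*m^9*fv9 p q + m^10*fv10 p q := by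
  rw [fa_eq, fb_eq, fc_eq]
  linear_combination l^10*fv_cf0 p q + l^9*m*fv_cf1 p q + l^8*m^2*fv_cf2 p q + l^7*m^3*fv_cf3 p q + l^6*m^4*fv_cf4 p q + l^5*m^5*fv_cf5 p q + l^4*m^6*fv_cf6 p q + l^3*m^7*fv_cf7 p q + l^2*m^8*fv_cf8 p q + l*m^9*fv_cf9 p q + m^10*fv_cf10 p q

theorem C6_cf0 (p q : R) : -((faa0 p q*fu0 p q) + (fcc0 p q*fv0 p q)) = C6_0 (c4T p q) (c6T p q) := by
  simp only [faa0, fcc0, fu0, fv0, C6_0, c4T, c6T]; ring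
theorem C6_cf2 (p q : R) : -((faa0 p q*fu2 p q + faa1 p q*fu1 p q + faa2 p q*fu0 p q) + (fcc0 p q*fv2 p q + fcc1 p q*fv1 p q + fcc2 p q*fv0 p q)) = C6_2 (c4T p q) (c6T p q) := by
  simp only [faa0, faa1, faa2, fcc0, fcc1, fcc2, fu2, fu1, fu0, fv2, fv1, fv0, C6_2, c4T, c6T]; ring
theorem C6_cf4 (p q : R) : -((faa0 p q*fu4 p q + faa1 p q*fu3 p q + faa2 p q*fu2 p q + faa3 p q*fu1 p q + faa4 p q*fu0 p q) + (fcc0 p q*fv4 p q + fcc1 p q*fv3 p q + fcc2 p q*fv2 p q + fcc3 p q*fv1 p q + fcc4 p q*fv0 p q)) = C6_4 (c4T p q) (c6T p q) := by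
  simp only [faa0, faa1, faa2, faa3, faa4, fcc0, fcc1, fcc2, fcc3, fcc4, fu4, fu3, fu2, fu1, fu0, fv4, fv3, fv2, fv1, fv0, C6_4, c4T, c6T]; ring
theorem C6_cf6 (p q : R) : -((faa0 p q*fu6 p q + faa1 p q*fu5 p q + faa2 p q*fu4 p q + faa3 p q*fu3 p q + faa4 p q*fu2 p q + faa5 p q*fu1 p q + faa6 p q*fu0 p q) + (fcc0 p q*fv6 p q + fcc1 p q*fv5 p q + fcc2 p q*fv4 p q + fcc3 p q*fv3 p q + fcc4 p q*fv2 p q + fcc5 p q*fv1 p q + fcc6 p q*fv0 p q)) = C6_6 (c4T p q) (c6T p q) := by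
  simp only [faa0, faa1, faa2, faa3, faa4, faa5, faa6, fcc0, fcc1, fcc2, fcc3, fcc4, fcc5, fcc6, fu6, fu5, fu4, fu3, fu2, fu1, fu0, fv6, fv5, fv4, fv3, fv2, fv1, fv0, C6_6, c4T, c6T]; ring
theorem C6_cf8 (p q : R) : -((faa0 p q*fu8 p q + faa1 p q*fu7 p q + faa2 p q*fu6 p q + faa3 p q*fu5 p q + faa4 p q*fu4 p q + faa5 p q*fu3 p q + faa6 p q*fu2 p q + faa7 p q*fu1 p q + faa8 p q*fu0 p q) + (fcc0 p q*fv8 p q + fcc1 p q*fv7 p q + fcc2 p q*fv6 p q + fcc3 p q*fv5 p q + fcc4 p q*fv4 p q + fcc5 p q*fv3 p q + fcc6 p q*fv2 p q + fcc7 p q*fv1 p q + fcc8 p q*fv0 p q)) = C6_8 (c4T p q) (c6T p q) := by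
  simp only [faa0, faa1, faa2, faa3, faa4, faa5, faa6, faa7, faa8, fcc0, fcc1, fcc2, fcc3, fcc4, fcc5, fcc6, fcc7, fcc8, fu8, fu7, fu6, fu5, fu4, fu3, fu2, fu1, fu0, fv8, fv7, fv6, fv5, fv4, fv3, fv2, fv1, fv0, C6_8, c4T, c6T]; ring
theorem C6_cf10 (p q : R) : -((faa0 p q*fu10 p q + faa1 p q*fu9 p q + faa2 p q*fu8 p q + faa3 p q*fu7 p q + faa4 p q*fu6 p q + faa5 p q*fu5 p q + faa6 p q*fu4 p q + faa7 p q*fu3 p q + faa8 p q*fu2 p q + faa9 p q*fu1 p q + faa10 p q*fu0 p q) + (fcc0 p q*fv10 p q + fcc1 p q*fv9 p q + fcc2 p q*fv8 p q + fcc3 p q*fv7 p q + fcc4 p q*fv6 p q + fcc5 p q*fv5 p q + fcc6 p q*fv4 p q + fcc7 p q*fv3 p q + fcc8 p q*fv2 p q + fcc9 p q*fv1 p q + fcc10 p q*fv0 p q)) = C6_10 (c4T p q) (c6T p q) := by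
  simp only [faa0, faa1, faa2, faa3, faa4, faa5, faa6, faa7, faa8, faa9, faa10, fcc0, fcc1, fcc2, fcc3, fcc4, fcc5, fcc6, fcc7, fcc8, fcc9, fcc10, fu10, fu9, fu8, fu7, fu6, fu5, fu4, fu3, fu2, fu1, fu0, fv10, fv9, fv8, fv7, fv6, fv5, fv4, fv3, fv2, fv1, fv0, C6_10, c4T, c6T]; ring
theorem C6_cf12 (p q : R) : -((faa2 p q*fu10 p q + faa3 p q*fu9 p q + faa4 p q*fu8 p q + faa5 p q*fu7 p q + faa6 p q*fu6 p q + faa7 p q*fu5 p q + faa8 p q*fu4 p q + faa9 p q*fu3 p q + faa10 p q*fu2 p q + faa11 p q*fu1 p q + faa12 p q*fu0 p q) + (fcc2 p q*fv10 p q + fcc3 p q*fv9 p q + fcc4 p q*fv8 p q + fcc5 p q*fv7 p q + fcc6 p q*fv6 p q + fcc7 p q*fv5 p q + fcc8 p q*fv4 p q + fcc9 p q*fv3 p q + fcc10 p q*fv2 p q + fcc11 p q*fv1 p q + fcc12 p q*fv0 p q)) = C6_12 (c4T p q) (c6T p q) := by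
  simp only [faa2, faa3, faa4, faa5, faa6, faa7, faa8, faa9, faa10, faa11, faa12, fcc2, fcc3, fcc4, fcc5, fcc6, fcc7, fcc8, fcc9, fcc10, fcc11, fcc12, fu10, fu9, fu8, fu7, fu6, fu5, fu4, fu3, fu2, fu1, fu0, fv10, fv9, fv8, fv7, fv6, fv5, fv4, fv3, fv2, fv1, fv0, C6_12, c4T, c6T]; ring
theorem C6_cf14 (p q : R) : -((faa4 p q*fu10 p q + faa5 p q*fu9 p q + faa6 p q*fu8 p q + faa7 p q*fu7 p q + faa8 p q*fu6 p q + faa9 p q*fu5 p q + faa10 p q*fu4 p q + faa11 p q*fu3 p q + faa12 p q*fu2 p q + faa13 p q*fu1 p q + faa14 p q*fu0 p q) + (fcc4 p q*fv10 p q + fcc5 p q*fv9 p q + fcc6 p q*fv8 p q + fcc7 p q*fv7 p q + fcc8 p q*fv6 p q + fcc9 p q*fv5 p q + fcc10 p q*fv4 p q + fcc11 p q*fv3 p q + fcc12 p q*fv2 p q + fcc13 p q*fv1 p q + fcc14 p q*fv0 p q)) = C6_14 (c4T p q) (c6T p q) := by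
  simp only [faa4, faa5, faa6, faa7, faa8, faa9, faa10, faa11, faa12, faa13, faa14, fcc4, fcc5, fcc6, fcc7, fcc8, fcc9, fcc10, fcc11, fcc12, fcc13, fcc14, fu10, fu9, fu8, fu7, fu6, fu5, fu4, fu3, fu2, fu1, fu0, fv10, fv9, fv8, fv7, fv6, fv5, fv4, fv3, fv2, fv1, fv0, C6_14, c4T, c6T]; ring
theorem C6_cf16 (p q : R) : -((faa6 p q*fu10 p q + faa7 p q*fu9 p q + faa8 p q*fu8 p q + faa9 p q*fu7 p q + faa10 p q*fu6 p q + faa11 p q*fu5 p q + faa12 p q*fu4 p q + faa13 p q*fu3 p q + faa14 p q*fu2 p q + faa15 p q*fu1 p q + faa16 p q*fu0 p q) + (fcc6 p q*fv10 p q + fcc7 p q*fv9 p q + fcc8 p q*fv8 p q + fcc9 p q*fv7 p q + fcc10 p q*fv6 p q + fcc11 p q*fv5 p q + fcc12 p q*fv4 p q + fcc13 p q*fv3 p q + fcc14 p q*fv2 p q + fcc15 p q*fv1 p q + fcc16 p q*fv0 p q)) = C6_16 (c4T p q) (c6T p q) := by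
  simp only [faa6, faa7, faa8, faa9, faa10, faa11, faa12, faa13, faa14, faa15, faa16, fcc6, fcc7, fcc8, fcc9, fcc10, fcc11, fcc12, fcc13, fcc14, fcc15, fcc16, fu10, fu9, fu8, fu7, fu6, fu5, fu4, fu3, fu2, fu1, fu0, fv10, fv9, fv8, fv7, fv6, fv5, fv4, fv3, fv2, fv1, fv0, C6_16, c4T, c6T]; ring
theorem C6_cf18 (p q : R) : -((faa8 p q*fu10 p q + faa9 p q*fu9 p q + faa10 p q*fu8 p q + faa11 p q*fu7 p q + faa12 p q*fu6 p q + faa13 p q*fu5 p q + faa14 p q*fu4 p q + faa15 p q*fu3 p q + faa16 p q*fu2 p q + faa17 p q*fu1 p q + faa18 p q*fu0 p q) + (fcc8 p q*fv10 p q + fcc9 p q*fv9 p q + fcc10 p q*fv8 p q + fcc11 p q*fv7 p q + fcc12 p q*fv6 p q + fcc13 p q*fv5 p q + fcc14 p q*fv4 p q + fcc15 p q*fv3 p q + fcc16 p q*fv2 p q + fcc17 p q*fv1 p q + fcc18 p q*fv0 p q)) = C6_18 (c4T p q) (c6T p q) := by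
  simp only [faa8, faa9, faa10, faa11, faa12, faa13, faa14, faa15, faa16, faa17, faa18, fcc8, fcc9, fcc10, fcc11, fcc12, fcc13, fcc14, fcc15, fcc16, fcc17, fcc18, fu10, fu9, fu8, fu7, fu6, fu5, fu4, fu3, fu2, fu1, fu0, fv10, fv9, fv8, fv7, fv6, fv5, fv4, fv3, fv2, fv1, fv0, C6_18, c4T, c6T]; ring
theorem C6_cf20 (p q : R) : -((faa10 p q*fu10 p q + faa11 p q*fu9 p q + faa12 p q*fu8 p q + faa13 p q*fu7 p q + faa14 p q*fu6 p q + faa15 p q*fu5 p q + faa16 p q*fu4 p q + faa17 p q*fu3 p q + faa18 p q*fu2 p q + faa19 p q*fu1 p q + faa20 p q*fu0 p q) + (fcc10 p q*fv10 p q + fcc11 p q*fv9 p q + fcc12 p q*fv8 p q + fcc13 p q*fv7 p q + fcc14 p q*fv6 p q + fcc15 p q*fv5 p q + fcc16 p q*fv4 p q + fcc17 p q*fv3 p q + fcc18 p q*fv2 p q + fcc19 p q*fv1 p q + fcc20 p q*fv0 p q)) = C6_20 (c4T p q) (c6T p q) := by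
  simp only [faa10, faa11, faa12, faa13, faa14, faa15, faa16, faa17, faa18, faa19, faa20, fcc10, fcc11, fcc12, fcc13, fcc14, fcc15, fcc16, fcc17, fcc18, fcc19, fcc20, fu10, fu9, fu8, fu7, fu6, fu5, fu4, fu3, fu2, fu1, fu0, fv10, fv9, fv8, fv7, fv6, fv5, fv4, fv3, fv2, fv1, fv0, C6_20, c4T, c6T]; ring
theorem C6_cf22 (p q : R) : -((faa12 p q*fu10 p q + faa13 p q*fu9 p q + faa14 p q*fu8 p q + faa15 p q*fu7 p q + faa16 p q*fu6 p q + faa17 p q*fu5 p q + faa18 p q*fu4 p q + faa19 p q*fu3 p q + faa20 p q*fu2 p q) + (fcc12 p q*fv10 p q + fcc13 p q*fv9 p q + fcc14 p q*fv8 p q + fcc15 p q*fv7 p q + fcc16 p q*fv6 p q + fcc17 p q*fv5 p q + fcc18 p q*fv4 p q + fcc19 p q*fv3 p q + fcc20 p q*fv2 p q)) = C6_22 (c4T p q) (c6T p q) := by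
  simp only [faa12, faa13, faa14, faa15, faa16, faa17, faa18, faa19, faa20, fcc12, fcc13, fcc14, fcc15, fcc16, fcc17, fcc18, fcc19, fcc20, fu10, fu9, fu8, fu7, fu6, fu5, fu4, fu3, fu2, fv10, fv9, fv8, fv7, fv6, fv5, fv4, fv3, fv2, C6_22, c4T, c6T]; ring
theorem C6_cf24 (p q : R) : -((faa14 p q*fu10 p q + faa15 p q*fu9 p q + faa16 p q*fu8 p q + faa17 p q*fu7 p q + faa18 p q*fu6 p q + faa19 p q*fu5 p q + faa20 p q*fu4 p q) + (fcc14 p q*fv10 p q + fcc15 p q*fv9 p q + fcc16 p q*fv8 p q + fcc17 p q*fv7 p q + fcc18 p q*fv6 p q + fcc19 p q*fv5 p q + fcc20 p q*fv4 p q)) = C6_24 (c4T p q) (c6T p q) := by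
  simp only [faa14, faa15, faa16, faa17, faa18, faa19, faa20, fcc14, fcc15, fcc16, fcc17, fcc18, fcc19, fcc20, fu10, fu9, fu8, fu7, fu6, fu5, fu4, fv10, fv9, fv8, fv7, fv6, fv5, fv4, C6_24, c4T, c6T]; ring
theorem C6_cf26 (p q : R) : -((faa16 p q*fu10 p q + faa17 p q*fu9 p q + faa18 p q*fu8 p q + faa19 p q*fu7 p q + faa20 p q*fu6 p q) + (fcc16 p q*fv10 p q + fcc17 p q*fv9 p q + fcc18 p q*fv8 p q + fcc19 p q*fv7 p q + fcc20 p q*fv6 p q)) = C6_26 (c4T p q) (c6T p q) := by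
  simp only [faa16, faa17, faa18, faa19, faa20, fcc16, fcc17, fcc18, fcc19, fcc20, fu10, fu9, fu8, fu7, fu6, fv10, fv9, fv8, fv7, fv6, C6_26, c4T, c6T]; ring
theorem C6_cf28 (p q : R) : -((faa18 p q*fu10 p q + faa19 p q*fu9 p q + faa20 p q*fu8 p q) + (fcc18 p q*fv10 p q + fcc19 p q*fv9 p q + fcc20 p q*fv8 p q)) = C6_28 (c4T p q) (c6T p q) := by
  simp only [faa18, faa19, faa20, fcc18, fcc19, fcc20, fu10, fu9, fu8, fv10, fv9, fv8, C6_28, c4T, c6T]; ring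
theorem C6_cf30 (p q : R) : -((faa20 p q*fu10 p q) + (fcc20 p q*fv10 p q)) = C6_30 (c4T p q) (c6T p q) := by
  simp only [faa20, fcc20, fu10, fv10, C6_30, c4T, c6T]; ring
end Fermat.Agent.S52L.Ident
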