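import Mathlib

/-!
# The place `X = t` of the rational function field `k(X)`
-/

set_option autoImplicit false

open Polynomial

namespace Fermat.Agent.S52T

variable {k : Type*} [Field k] (t : k)

theorem denom_eval_neg {x : RatFunc k} (hx : (x.denom).eval₂ (RingHom.id k) t ≠ 0) :
    ((-x).denom).eval₂ (RingHom.id k) t ≠ 0 := by
  have h : (-x) = algebraMap k[X] (RatFunc k) (-1) * x := by simp
  have h2 : (-x).denom ∣ x.denom := by
    have := RatFunc.denom_mul_dvd (algebraMap k[X] (RatFunc k) (-1)) x
    rwa [← h, RatFunc.denom_algebraMap, one_mul] at this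
  intro h0
  exact hx (eval₂_eq_zero_of_dvd_of_eval₂_eq_zero _ _ h2 h0)

/-- The valuation subring of rational functions regular at `t`. -/
noncomputable def place : ValuationSubring (RatFunc k) where
  carrier := {x | (x.denom).eval₂ (RingHom.id k) t ≠ 0}
  mul_mem' {x y} hx hy := by
    simp only [Set.mem_ofPred_eq] at hx hy ⊢
    intro h0
    have := eval₂_eq_zero_of_dvd_of_eval₂_eq_zero (RingHom.id k) t (RatFunc.denom_mul_dvd x y) h0
    rw [eval₂_mul] at this
    exact (mul_ne_zero hx hy) this
  one_mem' := by
    simp [RatFunc.denom_one]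
  add_mem' {x y} hx hy := by
    simp only [Set.mem_ofPred_eq] at hx hy ⊢
    intro h0
    have := eval₂_eq_zero_of_dvd_of_eval₂_eq_zero (RingHom.id k) t (RatFunc.denom_add_dvd x y) h0
    rw [eval₂_mul] at this
    exact (mul_ne_zero hx hy) this
  zero_mem' := by
    simp [RatFunc.denom_zero]
  neg_mem' {x} hx := denom_eval_neg t hx
  mem_or_inv_mem' x := by
    simp only [Set.mem_ofPred_eq]
    by_cases hx : x = 0
    · left; subst hx; simp [RatFunc.denom_zero]
    · by_cases h : (x.denom).eval₂ (RingHom.id k) t = 0
      · right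
        intro h'
        have h1 := eval₂_eq_zero_of_dvd_of_eval₂_eq_zero (RingHom.id k) t
          (RatFunc.associated_denom_inv hx).dvd h'
        obtain ⟨a, b, hab⟩ := RatFunc.isCoprime_num_denom x
        have := congrArg (eval₂ (RingHom.id k) t) hab
        rw [eval₂_add, eval₂_mul, eval₂_mul, h, h1, eval₂_one] at this
        simp at this
      · left; exact h

theorem mem_place {x : RatFunc k} : x ∈ place t ↔ (x.denom).eval₂ (RingHom.id k) t ≠ 0 := Iff.rfl

/-- Evaluation at `t`. -/
noncomputable def placeEval : place t →+* k where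
  toFun x := RatFunc.eval (RingHom.id k) t x.1
  map_one' := RatFunc.eval_one _ _
  map_zero' := RatFunc.eval_zero _ _
  map_mul' x y := RatFunc.eval_mul _ _ x.2 y.2
  map_add' x y := RatFunc.eval_add _ _ x.2 y.2

theorem algebraMap_mem_place (P : k[X]) : algebraMap k[X] (RatFunc k) P ∈ place t := by
  rw [mem_place, RatFunc.denom_algebraMap]; simp

theorem placeEval_algebraMap (P : k[X]) :
    placeEval t ⟨algebraMap k[X] (RatFunc k) P, algebraMap_mem_place t P⟩ = P.eval t := by
  change RatFunc.eval (RingHom.id k) t (algebraMap k[X] (RatFunc k) P) = _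
  rw [RatFunc.eval, RatFunc.num_algebraMap, RatFunc.denom_algebraMap]
  simp [Polynomial.eval₂_id]

instance isLocalHom_placeEval : IsLocalHom (placeEval t) where
  map_nonunit x hx := by
    have hne : placeEval t x ≠ 0 := hx.ne_zero
    have hx0 : x.1 ≠ 0 := by
      intro h
      apply hne
      have : x = 0 := Subtype.ext h
      rw [this, map_zero]
    have hinv : x.1⁻¹ ∈ place t := by
      rw [mem_place]
      intro h'
      have h1 := eval₂_eq_zero_of_dvd_of_eval₂_eq_zero (RingHom.id k) t
        (RatFunc.associated_denom_inv hx0).dvd h'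
      apply hne
      change RatFunc.eval (RingHom.id k) t x.1 = 0
      rw [RatFunc.eval, h1, zero_div]
    exact ⟨⟨x, ⟨x.1⁻¹, hinv⟩, Subtype.ext (mul_inv_cancel₀ hx0),
      Subtype.ext (inv_mul_cancel₀ hx0)⟩, rfl⟩

end Fermat.Agent.S52T
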