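import Fermat.Agent.S52.Assembly
import Fermat.Agent.S01Final.ViaP2

/-!
# The 3-5 switch, keeping `2 ∣ Δ`
-/

set_option autoImplicit false

open WeierstrassCurve

namespace Fermat.Agent.S52.Model

open Fermat.Agent.S52L

attribute [local irreducible] C4 C6 DD

/-- **The 3-5 switch**, keeping the parity of the discriminant. -/
theorem switch_even (W : WeierstrassCurve ℤ) (hΔ : W.Δ ≠ 0) (hW : W.IsSemistableModel) :
    ∃ W' : WeierstrassCurve ℤ, W'.Δ ≠ 0 ∧ W'.IsSemistableModel ∧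
      ((2 : ℤ) ∣ W'.Δ ↔ (2 : ℤ) ∣ W.Δ) ∧ W'.ModRepIsIrreducible 3 ∧
      ∀ ℓ : ℕ, ℓ.Prime → W.IsGoodPrimeFor ℓ → W'.IsGoodPrimeFor ℓ → ℓ ≠ 5 →
        (5 : ℤ) ∣ (W'.apOfModel ℓ - W.apOfModel ℓ) := by
  have hrel := W.c_relation
  set a : ℤ := W.c₄ with ha
  set b : ℤ := W.c₆ with hb
  obtain ⟨M, hMdef⟩ : ∃ M : ℤ, M = 1728 * (30 * W.Δ) := ⟨_, rfl⟩
  have hM : M ≠ 0 := by rw [hMdef]; exact mul_ne_zero (by norm_num) (mul_ne_zero (by norm_num) hΔ)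
  have hab : (a : ℚ) ^ 3 ≠ (b : ℚ) ^ 2 := by
    intro h
    have h' : a ^ 3 = b ^ 2 := by exact_mod_cast h
    rw [h', sub_self] at hrel
    exact hΔ ((mul_eq_zero.1 hrel).resolve_left (by norm_num))
  obtain ⟨n, hn⟩ := exists_param_quartic (M := (M : ℚ)) (by exact_mod_cast hM) hab
  obtain ⟨l, hl⟩ : ∃ l : ℤ, l = 1 + M * (n : ℤ) := ⟨_, rfl⟩
  -- the integral values
  have e4 : ((C4 l M a b : ℤ) : ℚ) = C4 (1 + (M : ℚ) * n) (M : ℚ) (a : ℚ) (b : ℚ) := by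
    have := map_C4 (Int.castRingHom ℚ) l M a b
    simpa [hl] using this
  have e6 : ((C6 l M a b : ℤ) : ℚ) = C6 (1 + (M : ℚ) * n) (M : ℚ) (a : ℚ) (b : ℚ) := by
    have := map_C6 (Int.castRingHom ℚ) l M a b
    simpa [hl] using this
  have hquart : ∀ x : ℤ, x ^ 4 - 6 * C4 l M a b * x ^ 2 - 8 * C6 l M a b * x
      - 3 * C4 l M a b ^ 2 ≠ 0 := by
    intro x hx
    apply hn x
    rw [← e4, ← e6]
    exact_mod_cast hx
  obtain ⟨x, hx⟩ : M ∣ C4 l M a b - a := by rw [hl]; exact dvd_C4_sub _ _ _ _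
  obtain ⟨y, hy⟩ : M ∣ C6 l M a b - b := by rw [hl]; exact dvd_C6_sub _ _ _ _
  obtain ⟨s, hs⟩ : ∃ s : ℤ, s = 30 * W.Δ * x := ⟨_, rfl⟩
  obtain ⟨t, ht⟩ : ∃ t : ℤ, t = 30 * W.Δ * (2 * y) := ⟨_, rfl⟩
  have hc4 : (shift W s t).c₄ = C4 l M a b := by
    rw [shift_c₄, hs, ← ha]
    linear_combination -hx - x * hMdef
  have hc6 : (shift W s t).c₆ = C6 l M a b := by
    rw [shift_c₆, ht, ← hb]
    linear_combination -hy - y * hMdef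
  have hquart' : ∀ x : ℤ, x ^ 4 - 6 * (shift W s t).c₄ * x ^ 2 - 8 * (shift W s t).c₆ * x
      - 3 * (shift W s t).c₄ ^ 2 ≠ 0 := by
    rw [hc4, hc6]; exact hquart
  have hΔ' : (shift W s t).Δ ≠ 0 := Δ_ne_zero_of_quartic _ hquart'
  have hrel' : 1728 * (shift W s t).Δ = C4 l M a b ^ 3 - C6 l M a b ^ 2 := by
    rw [← hc4, ← hc6]; exact (shift W s t).c_relation
  have hds : ∀ {ℓ : ℕ}, (ℓ : ℤ) ∣ 30 * W.Δ → (ℓ : ℤ) ∣ s ∧ (ℓ : ℤ) ∣ t := by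
    intro ℓ h
    rw [hs, ht]
    exact ⟨h.mul_right _, h.mul_right _⟩
  have hprime : ∀ {ℓ : ℕ}, ℓ.Prime → ¬ (ℓ : ℤ) ∣ 30 * W.Δ →
      ¬ (ℓ : ℤ) ∣ 30 ∧ ¬ (ℓ : ℤ) ∣ a ^ 3 - b ^ 2 ∧ ¬ (ℓ : ℤ) ∣ M := by
    intro ℓ hℓ h
    have hℓp : Prime (ℓ : ℤ) := Nat.prime_iff_prime_int.1 hℓ
    have h30 : ¬ (ℓ : ℤ) ∣ 30 := fun h' => h (h'.mul_right _)
    have hΔℓ : ¬ (ℓ : ℤ) ∣ W.Δ := fun h' => h (h'.mul_left _)
    have h1728 : ¬ (ℓ : ℤ) ∣ 1728 := by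
      intro h'
      have e : (1728 : ℤ) = 2 ^ 6 * 3 ^ 3 := by norm_num
      rw [e] at h'
      rcases hℓp.dvd_or_dvd h' with h' | h'
      · exact h30 ((hℓp.dvd_of_dvd_pow h').trans ⟨15, by norm_num⟩)
      · exact h30 ((hℓp.dvd_of_dvd_pow h').trans ⟨10, by norm_num⟩)
    refine ⟨h30, ?_, ?_⟩
    · rw [← hrel]
      intro h'
      exact (hℓp.dvd_or_dvd h').elim h1728 hΔℓ
    · rw [hMdef]
      intro h'
      exact (hℓp.dvd_or_dvd h').elim h1728 h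
  have h2st : ((2 : ℕ) : ℤ) ∣ s ∧ ((2 : ℕ) : ℤ) ∣ t :=
    hds ⟨15 * W.Δ, by push_cast; ring⟩
  have heven : (2 : ℤ) ∣ (shift W s t).Δ ↔ (2 : ℤ) ∣ W.Δ := by
    have e1 := dvd_Δ_iff (shift W s t) 2
    have e2 := dvd_Δ_iff W 2
    rw [reductionMod_shift W h2st.1 h2st.2] at e1
    exact_mod_cast e1.trans e2.symm
  refine ⟨shift W s t, hΔ', ?_, heven, ?_, ?_⟩
  · intro ℓ hℓ hd
    by_cases h : (ℓ : ℤ) ∣ 30 * W.Δ
    · exact shift_semistable_at W hW hℓ (hds h).1 (hds h).2 hd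
    · obtain ⟨h30, hab', hM'⟩ := hprime hℓ h
      rw [hc4]
      exact semistable_at_other hℓ h30 hab' hM' hrel' hd
  · exact S52H.modRepIsIrreducible_three _ hΔ' hquart'
  · intro ℓ hℓ hg hg' hℓ5
    by_cases h : (ℓ : ℤ) ∣ 30 * W.Δ
    · rw [apOfModel_shift W (hds h).1 (hds h).2, sub_self]
      exact dvd_zero _
    · obtain ⟨h30, -, -⟩ := hprime hℓ h
      refine S52T.five_dvd_apOfModel_sub ℓ hℓ ?_ ?_ hℓ5 W (shift W s t) l M rfl rfl rfl hc4 hc6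
        hg hg'
      · rintro rfl; exact h30 ⟨15, by norm_num⟩
      · rintro rfl; exact h30 ⟨10, by norm_num⟩

theorem s52Even : Fermat.Agent.S01Final.S52Even := fun W hΔ hW h2 _ => by
  obtain ⟨W', h1, h3, h4, h5, h6⟩ := switch_even W hΔ hW
  exact ⟨W', h1, h3, h4.mpr h2, h5, h6⟩

end Fermat.Agent.S52.Model
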