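import Mathlib

/-!
# Explicit points of order 5 on a Weierstrass curve

For a Weierstrass curve `W` over a field in which `6` is invertible and `p, q` with
`c₄(W) = p⁴+12p³q+14p²q²-12pq³+q⁴` and `c₆(W) = -(p⁶+18p⁵q+75p⁴q²+75p²q⁴-18pq⁵+q⁶)` we give
the explicit point `T5 W p q` of order 5 (Tate normal form), and conversely each point of order 5
comes from such a pair.
-/

set_option autoImplicit false

open WeierstrassCurve WeierstrassCurve.Affine

namespace Fermat.Agent.S52T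

/-- The `c₄`-form of Tate's normal form for a point of order 5. -/
def c4f {R : Type*} [CommRing R] (p q : R) : R :=
  p ^ 4 + 12 * p ^ 3 * q + 14 * p ^ 2 * q ^ 2 - 12 * p * q ^ 3 + q ^ 4

/-- The `c₆`-form of Tate's normal form for a point of order 5. -/
def c6f {R : Type*} [CommRing R] (p q : R) : R :=
  -(p ^ 6 + 18 * p ^ 5 * q + 75 * p ^ 4 * q ^ 2 + 75 * p ^ 2 * q ^ 4 - 18 * p * q ^ 5 + q ^ 6)

theorem c4f_c6f {R : Type*} [CommRing R] (p q : R) :
    c4f p q ^ 3 - c6f p q ^ 2 = 1728 * (p ^ 5 * q ^ 5 * (q ^ 2 - 11 * p * q - p ^ 2)) := by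
  simp only [c4f, c6f]; ring

theorem c4f_swap {R : Type*} [CommRing R] (p q : R) : c4f q (-p) = c4f p q := by
  simp only [c4f]; ring

theorem c6f_swap {R : Type*} [CommRing R] (p q : R) : c6f q (-p) = c6f p q := by
  simp only [c6f]; ring

theorem map_c4f {R S : Type*} [CommRing R] [CommRing S] (f : R →+* S) (p q : R) :
    f (c4f p q) = c4f (f p) (f q) := by
  simp only [c4f, map_add, map_sub, map_mul, map_pow, map_ofNat]

theorem map_c6f {R S : Type*} [CommRing R] [CommRing S] (f : R →+* S) (p q : R) :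
    f (c6f p q) = c6f (f p) (f q) := by
  simp only [c6f, map_add, map_sub, map_mul, map_pow, map_ofNat, map_neg]

variable {F : Type*} [Field F]

/-- `x`-coordinate of the point of order 5. -/
def tx (W : WeierstrassCurve F) (p q : F) : F := (p ^ 2 - 6 * p * q + q ^ 2 - W.b₂) / 12

/-- `y`-coordinate of the point of order 5. -/
def ty (W : WeierstrassCurve F) (p q : F) : F := (-(p ^ 2 * q) - W.a₁ * tx W p q - W.a₃) / 2

/-- The pair `(p,q)` parametrizes a point of order 5 on `W`. -/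
structure IsParam {R : Type*} [CommRing R] (W : WeierstrassCurve R) (p q : R) : Prop where
  c4 : W.c₄ = c4f p q
  c6 : W.c₆ = c6f p q

theorem IsParam.map {R S : Type*} [CommRing R] [CommRing S] {W : WeierstrassCurve R} {p q : R}
    (h : IsParam W p q) (f : R →+* S) : IsParam (W.map f) (f p) (f q) :=
  ⟨by rw [WeierstrassCurve.map_c₄, h.c4, map_c4f], by rw [WeierstrassCurve.map_c₆, h.c6, map_c6f]⟩

theorem IsParam.swap {R : Type*} [CommRing R] {W : WeierstrassCurve R} {p q : R}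
    (h : IsParam W p q) : IsParam W q (-p) :=
  ⟨h.c4.trans (c4f_swap p q).symm, h.c6.trans (c6f_swap p q).symm⟩

section

variable {W : WeierstrassCurve F} {p q : F}

theorem IsParam.ne_zero (h : IsParam W p q) (hΔ : W.Δ ≠ 0) (h6 : (6 : F) ≠ 0) :
    p ≠ 0 ∧ q ≠ 0 := by
  have h1728 : (1728 : F) ≠ 0 := by
    have : (1728 : F) = 6 ^ 3 * 8 := by norm_num
    rw [this]
    have h8 : (8 : F) ≠ 0 := by
      have h2 : (2 : F) ≠ 0 := fun h => h6 (by linear_combination 3 * h)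
      have : (8 : F) = 2 ^ 3 := by norm_num
      rw [this]; exact pow_ne_zero _ h2
    exact mul_ne_zero (pow_ne_zero _ h6) h8
  have key : 1728 * W.Δ = 1728 * (p ^ 5 * q ^ 5 * (q ^ 2 - 11 * p * q - p ^ 2)) := by
    rw [← c4f_c6f, ← h.c4, ← h.c6, W.c_relation]
  have key2 : W.Δ = p ^ 5 * q ^ 5 * (q ^ 2 - 11 * p * q - p ^ 2) := mul_left_cancel₀ h1728 key
  constructor
  · rintro rfl; apply hΔ; rw [key2]; ring
  · rintro rfl; apply hΔ; rw [key2]; ring

theorem IsParam.equation (h : IsParam W p q) (h6 : (6 : F) ≠ 0) :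
    W.toAffine.Equation (tx W p q) (ty W p q) := by
  have h2 : (2 : F) ≠ 0 := fun h => h6 (by linear_combination 3 * h)
  have h3 : (3 : F) ≠ 0 := fun h => h6 (by linear_combination 2 * h)
  have h12 : (12 : F) ≠ 0 := by
    have : (12 : F) = 6 * 2 := by norm_num
    rw [this]; exact mul_ne_zero h6 h2
  have h1728 : (1728 : F) ≠ 0 := by
    have : (1728 : F) = 12 ^ 3 := by norm_num
    rw [this]; exact pow_ne_zero _ h12
  rw [Affine.equation_iff]
  have e4 := h.c4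
  have e6 := h.c6
  simp only [WeierstrassCurve.c₄, WeierstrassCurve.c₆, WeierstrassCurve.b₂, WeierstrassCurve.b₄,
    WeierstrassCurve.b₆, c4f, c6f] at e4 e6
  have hx : 12 * tx W p q = p ^ 2 - 6 * p * q + q ^ 2 - W.b₂ := by
    rw [tx]; field_simp
  rw [WeierstrassCurve.b₂] at hx
  have hy : 2 * ty W p q = -(p ^ 2 * q) - W.a₁ * tx W p q - W.a₃ := by
    rw [ty]; field_simp
  generalize tx W p q = x at hx hy ⊢
  generalize ty W p q = y at hx hy ⊢
  apply mul_left_cancel₀ h1728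
  linear_combination 432 * (2 * y + W.a₁ * x + W.a₃ - p ^ 2 * q) * hy
    - ((12 * x + (W.a₁ ^ 2 + 4 * W.a₂)) ^ 2
        + (12 * x + (W.a₁ ^ 2 + 4 * W.a₂)) * (p ^ 2 - 6 * p * q + q ^ 2)
        + (p ^ 2 - 6 * p * q + q ^ 2) ^ 2
        - 3 * ((W.a₁ ^ 2 + 4 * W.a₂) ^ 2 - 24 * (2 * W.a₄ + W.a₁ * W.a₃))) * hx
    + 3 * (p ^ 2 - 6 * p * q + q ^ 2) * e4 + 2 * e6

theorem two_ne_zero_of_six (h6 : (6 : F) ≠ 0) : (2 : F) ≠ 0 :=
  fun h => h6 (by linear_combination 3 * h)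

theorem twelve_ne_zero_of_six (h6 : (6 : F) ≠ 0) : (12 : F) ≠ 0 := by
  have : (12 : F) = 6 * 2 := by norm_num
  rw [this]; exact mul_ne_zero h6 (two_ne_zero_of_six h6)

/-- The point of order 5 attached to `(p,q)`. -/
noncomputable def T5 (hΔ : W.Δ ≠ 0) (h6 : (6 : F) ≠ 0) (h : IsParam W p q) :
    W.toAffine.Point :=
  .some (tx W p q) (ty W p q)
    ((W.toAffine.equation_iff_nonsingular_of_Δ_ne_zero hΔ).mp (h.equation h6))

theorem T5_ne_zero (hΔ : W.Δ ≠ 0) (h6 : (6 : F) ≠ 0) (h : IsParam W p q) : T5 hΔ h6 h ≠ 0 :=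
  Point.some_ne_zero _

theorem mul_tx (h6 : (6 : F) ≠ 0) :
    12 * tx W p q = p ^ 2 - 6 * p * q + q ^ 2 - (W.a₁ ^ 2 + 4 * W.a₂) := by
  have h12 := twelve_ne_zero_of_six h6
  rw [tx, WeierstrassCurve.b₂]; field_simp

theorem mul_ty (h6 : (6 : F) ≠ 0) :
    2 * ty W p q = -(p ^ 2 * q) - W.a₁ * tx W p q - W.a₃ := by
  have h2 := two_ne_zero_of_six h6
  rw [ty]; field_simp

theorem T5_add_self [DecidableEq F] (hΔ : W.Δ ≠ 0) (h6 : (6 : F) ≠ 0) (h : IsParam W p q) :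
    T5 hΔ h6 h + T5 hΔ h6 h = T5 hΔ h6 h.swap := by
  have h2 := two_ne_zero_of_six h6
  have h12 := twelve_ne_zero_of_six h6
  obtain ⟨hp, hq⟩ := h.ne_zero hΔ h6
  have hx := mul_tx (W := W) (p := p) (q := q) h6
  have hy := mul_ty (W := W) (p := p) (q := q) h6
  have hx' := mul_tx (W := W) (p := q) (q := -p) h6
  have hy' := mul_ty (W := W) (p := q) (q := -p) h6
  have e4 := h.c4
  simp only [WeierstrassCurve.c₄, WeierstrassCurve.b₂, WeierstrassCurve.b₄, c4f] at e4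
  have hY : ty W p q - W.toAffine.negY (tx W p q) (ty W p q) = -(p ^ 2 * q) := by
    simp only [negY]; linear_combination hy
  have hne : ty W p q ≠ W.toAffine.negY (tx W p q) (ty W p q) := by
    rw [← sub_ne_zero, hY, neg_ne_zero]
    exact mul_ne_zero (pow_ne_zero _ hp) hq
  have hslope : W.toAffine.slope (tx W p q) (tx W p q) (ty W p q) (ty W p q)
      = (p - q - W.a₁) / 2 := by
    rw [slope_of_Y_ne rfl hne, hY, div_eq_div_iff (by
      rw [neg_ne_zero]; exact mul_ne_zero (pow_ne_zero _ hp) hq) h2]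
    generalize tx W p q = x at *
    generalize ty W p q = y at *
    have h24 : (24 : F) ≠ 0 := by
      have : (24 : F) = 12 * 2 := by norm_num
      rw [this]; exact mul_ne_zero h12 h2
    apply mul_left_cancel₀ h24
    linear_combination (-24 * W.a₁) * hy
      + (12 * x + (W.a₁ ^ 2 + 4 * W.a₂) + (p ^ 2 - 6 * p * q + q ^ 2)) * hx - e4
  rw [T5, Point.add_self_of_Y_ne hne, T5, Point.some.injEq, hslope]
  generalize tx W p q = x at *
  generalize ty W p q = y at *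
  generalize tx W q (-p) = x' at *
  generalize ty W q (-p) = y' at *
  have hX : W.toAffine.addX x x ((p - q - W.a₁) / 2) = x' := by
    simp only [addX]
    have h1 : 12 * (((p - q - W.a₁) / 2) ^ 2 + W.a₁ * ((p - q - W.a₁) / 2))
        = 3 * ((p - q) ^ 2 - W.a₁ ^ 2) := by
      field_simp; ring
    apply mul_left_cancel₀ h12
    linear_combination h1 - 2 * hx - hx'
  refine ⟨hX, ?_⟩
  rw [addY, negAddY, hX, negY]
  have hs : 2 * ((p - q - W.a₁) / 2) = p - q - W.a₁ := by field_simp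
  have h24 : (24 : F) ≠ 0 := by
    have : (24 : F) = 12 * 2 := by norm_num
    rw [this]; exact mul_ne_zero h12 h2
  apply mul_left_cancel₀ h24
  linear_combination -12 * (x' - x) * hs - 12 * hy - 12 * hy' - (p - q) * (hx' - hx)

theorem T5_swap_swap (hΔ : W.Δ ≠ 0) (h6 : (6 : F) ≠ 0) (h : IsParam W p q) :
    T5 hΔ h6 h.swap.swap = - T5 hΔ h6 h := by
  have h2 := two_ne_zero_of_six h6
  rw [T5, T5, Point.neg_some, Point.some.injEq]
  have hx : tx W (-p) (-q) = tx W p q := by simp only [tx]; ring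
  refine ⟨hx, ?_⟩
  simp only [negY]
  apply mul_left_cancel₀ h2
  have hy := mul_ty (W := W) (p := p) (q := q) h6
  have hy' := mul_ty (W := W) (p := -p) (q := -q) h6
  rw [hx] at hy'
  linear_combination hy + hy'

theorem five_nsmul_T5 [DecidableEq F] (hΔ : W.Δ ≠ 0) (h6 : (6 : F) ≠ 0) (h : IsParam W p q) :
    5 • T5 hΔ h6 h = 0 := by
  have h1 := T5_add_self hΔ h6 h
  have h2 := T5_add_self hΔ h6 h.swap
  rw [T5_swap_swap hΔ h6 h, ← h1] at h2
  have : 5 • T5 hΔ h6 h = (T5 hΔ h6 h + T5 hΔ h6 h + (T5 hΔ h6 h + T5 hΔ h6 h)) + T5 hΔ h6 h := by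
    abel
  rw [this, h2, neg_add_cancel]

theorem exists_param [DecidableEq F] (hΔ : W.Δ ≠ 0) (h6 : (6 : F) ≠ 0)
    (P : W.toAffine.Point) (hP : P ≠ 0) (h5 : 5 • P = 0) :
    ∃ p q, ∃ h : IsParam W p q, P = T5 hΔ h6 h := by
  have h2 := two_ne_zero_of_six h6
  have h12 := twelve_ne_zero_of_six h6
  have hPP : P + P ≠ 0 := by
    intro h
    apply hP
    have : 5 • P = (P + P) + (P + P) + P := by abel
    rwa [this, h, add_zero, zero_add] at h5
  have hPPP : P + P + P ≠ 0 := by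
    intro h
    apply hPP
    have : 5 • P = (P + P + P) + (P + P) := by abel
    rwa [this, h, zero_add] at h5
  have h3P : P + (P + P) = -(P + P) := by
    rw [eq_neg_iff_add_eq_zero, ← h5]; abel
  rcases P with _ | ⟨x₀, y₀, h₀⟩
  · exact absurd rfl hP
  have hY : y₀ ≠ W.toAffine.negY x₀ y₀ := fun h => hPP (Point.add_self_of_Y_eq h)
  have hPP' := Point.add_self_of_Y_ne (h₁ := h₀) hY
  set s := W.toAffine.slope x₀ x₀ y₀ y₀ with hs
  have hsl := slope_of_Y_ne (W := W.toAffine) (rfl : x₀ = x₀) hY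
  rw [← hs] at hsl
  have hY0 : y₀ - W.toAffine.negY x₀ y₀ ≠ 0 := sub_ne_zero.mpr hY
  have hsl2 : s * (y₀ - W.toAffine.negY x₀ y₀)
      = 3 * x₀ ^ 2 + 2 * W.a₂ * x₀ + W.a₄ - W.a₁ * y₀ := by
    rw [hsl, div_mul_cancel₀ _ hY0]
  set x₂ := W.toAffine.addX x₀ x₀ s with hx₂
  set y₂ := W.toAffine.addY x₀ x₀ y₀ s with hy₂
  have hxne : x₀ ≠ x₂ := by
    intro hx
    have := (Point.X_eq_iff (h₁ := h₀) (h₂ := nonsingular_add h₀ h₀ fun hxy => hY hxy.right)).mp hx
    rw [← hPP'] at this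
    rcases this with h | h
    · apply hP
      have h' : Point.some x₀ y₀ h₀ + 0 = Point.some x₀ y₀ h₀ + Point.some x₀ y₀ h₀ := by
        rw [add_zero]; exact h
      exact (add_left_cancel h').symm
    · apply hPPP
      generalize Point.some x₀ y₀ h₀ = P at h ⊢
      calc P + P + P = P + P + -(P + P) := by rw [← h]
        _ = 0 := add_neg_cancel _
  have hx₂' : x₂ = s ^ 2 + W.a₁ * s - W.a₂ - x₀ - x₀ := rfl
  have hy₂' : y₂ = -(s * (x₂ - x₀) + y₀) - W.a₁ * x₂ - W.a₃ := rfl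
  have hsub : x₀ - x₂ ≠ 0 := sub_ne_zero.mpr hxne
  obtain ⟨p, hp⟩ : ∃ p, p * (x₀ - x₂) = y₀ - W.toAffine.negY x₀ y₀ :=
    ⟨(y₀ - W.toAffine.negY x₀ y₀) / (x₀ - x₂), div_mul_cancel₀ _ hsub⟩
  rw [hPP', Point.add_of_X_ne hxne, Point.neg_some, Point.some.injEq] at h3P
  have hx3 := h3P.1
  rw [slope_of_X_ne hxne] at hx3
  obtain ⟨s₂, hs₂, hs₂'⟩ : ∃ s₂, s₂ * (x₀ - x₂) = y₀ - y₂ ∧ (y₀ - y₂) / (x₀ - x₂) = s₂ :=
    ⟨(y₀ - y₂) / (x₀ - x₂), div_mul_cancel₀ _ hsub, rfl⟩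
  rw [hs₂', addX] at hx3
  simp only [negY] at hp hsl2
  have hs₂p : s₂ = p - s - W.a₁ := by
    apply mul_right_cancel₀ hsub
    rw [hs₂, hy₂']
    linear_combination -hp
  obtain ⟨q, hq⟩ : ∃ q, q = p - W.a₁ - 2 * s := ⟨_, rfl⟩
  rw [hs₂p] at hx3
  have hpq : x₂ = x₀ + p * q := by
    linear_combination -hx3 - hx₂' - p * hq
  have hb2 : W.b₂ = p ^ 2 - 6 * p * q + q ^ 2 - 12 * x₀ := by
    rw [WeierstrassCurve.b₂]
    linear_combination 4 * hx₂' - 4 * hpq + (W.a₁ + 2 * s + p - q) * hq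
  have hb4 : W.b₄ = -(p ^ 2 * q * (p - q)) - 6 * x₀ ^ 2 - W.b₂ * x₀ := by
    rw [WeierstrassCurve.b₄, WeierstrassCurve.b₂]
    linear_combination -2 * hsl2 - (2 * s + W.a₁) * (p * hpq + hp) - p ^ 2 * q * hq
  have hb6 : W.b₆ = p ^ 4 * q ^ 2 - 4 * x₀ ^ 3 - W.b₂ * x₀ ^ 2 - 2 * W.b₄ * x₀ := by
    rw [WeierstrassCurve.b₆, WeierstrassCurve.b₄, WeierstrassCurve.b₂]
    have heq := (W.toAffine.equation_iff x₀ y₀).mp h₀.1
    linear_combination (2 * y₀ + W.a₁ * x₀ + W.a₃ - p ^ 2 * q) * (-p * hpq - hp) - 4 * heq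
  have hpar : IsParam W p q := by
    constructor
    · rw [WeierstrassCurve.c₄, hb4, hb2, c4f]; ring
    · rw [WeierstrassCurve.c₆, hb6, hb4, hb2, c6f]; ring
  refine ⟨p, q, hpar, ?_⟩
  have htx : tx W p q = x₀ := by
    rw [tx, hb2, div_eq_iff h12]; ring
  have hty : ty W p q = y₀ := by
    rw [ty, htx, div_eq_iff h2]
    linear_combination p * hpq + hp
  rw [T5, Point.some.injEq]
  exact ⟨htx.symm, hty.symm⟩

end

end Fermat.Agent.S52T
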