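import Fermat.Agent.S52.Tors5
import Fermat.Agent.S52.RatPlace
import Fermat.Agent.EllRed.GoodTorsion

/-!
# Transfer of relations between explicit points of order 5 along a family over `k[X]`
-/

set_option autoImplicit false

open Polynomial WeierstrassCurve WeierstrassCurve.Affine
open Fermat.Agent.RedHom Fermat.Agent.EllRed

namespace Fermat.Agent.S52T

section

variable {L k : Type*} [Field L] [Field k] {A : ValuationSubring L} {φ : A →+* k}
  [IsLocalHom φ] {V : WeierstrassCurve L} {U : WeierstrassCurve k}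

theorem redTo_tx (h : CurveRed φ V U) (h6 : (6 : k) ≠ 0) {p q : L} {p' q' : k}
    (hp : RedTo φ p p') (hq : RedTo φ q q') : RedTo φ (tx V p q) (tx U p' q') := by
  have hb : RedTo φ V.b₂ U.b₂ := by
    rw [WeierstrassCurve.b₂, WeierstrassCurve.b₂]
    exact (h.a₁.pow 2).add ((redTo_ofNat φ 4).mul h.a₂)
  exact ((((hp.pow 2).sub (((redTo_ofNat φ 6).mul hp).mul hq)).add (hq.pow 2)).sub hb).div
    (redTo_ofNat φ 12) (twelve_ne_zero_of_six h6)

theorem redTo_ty (h : CurveRed φ V U) (h6 : (6 : k) ≠ 0) {p q : L} {p' q' : k}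
    (hp : RedTo φ p p') (hq : RedTo φ q q') : RedTo φ (ty V p q) (ty U p' q') :=
  (((((hp.pow 2).mul hq).neg).sub (h.a₁.mul (redTo_tx h h6 hp hq))).sub h.a₃).div
    (redTo_ofNat φ 2) (two_ne_zero_of_six h6)

theorem pointRed_T5 (h : CurveRed φ V U) (h6 : (6 : k) ≠ 0) (h6' : (6 : L) ≠ 0)
    (hV : V.Δ ≠ 0) (hU : U.Δ ≠ 0) {p q : L} {p' q' : k}
    (hp : RedTo φ p p') (hq : RedTo φ q q') (hpar : IsParam V p q) (hpar' : IsParam U p' q') :
    PointRed φ (T5 hV h6' hpar) (T5 hU h6 hpar') := by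
  rw [T5, T5, pointRed_some_some_iff]
  exact ⟨redTo_tx h h6 hp hq, redTo_ty h h6 hp hq⟩

end

variable {k : Type*} [Field k]

theorem redTo_algebraMap (t : k) (P : k[X]) :
    RedTo (placeEval t) (algebraMap k[X] (RatFunc k) P) (P.eval t) :=
  ⟨algebraMap_mem_place t P, placeEval_algebraMap t P⟩

theorem curveRed_place (E : WeierstrassCurve k[X]) (t : k) :
    CurveRed (placeEval t) (E.map (algebraMap k[X] (RatFunc k))) (E.map (evalRingHom t)) where
  a₁ := redTo_algebraMap t _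
  a₂ := redTo_algebraMap t _
  a₃ := redTo_algebraMap t _
  a₄ := redTo_algebraMap t _
  a₆ := redTo_algebraMap t _

/-- Transfer of linear relations between points of order 5 from `X = 0` to `X = 1`. -/
theorem transfer [DecidableEq k] (h6 : (6 : k) ≠ 0) (h5 : (5 : k) ≠ 0)
    (E : WeierstrassCurve k[X])
    (hΔ0 : (E.map (evalRingHom 0)).Δ ≠ 0) (hΔ1 : (E.map (evalRingHom 1)).Δ ≠ 0)
    {ι : Type*} (s : Finset ι) (n : ι → ℤ) (p q : ι → k[X]) (h : ∀ i, IsParam E (p i) (q i))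
    (hsum : ∑ i ∈ s, n i • T5 hΔ0 h6 ((h i).map (evalRingHom 0)) = 0) :
    ∑ i ∈ s, n i • T5 hΔ1 h6 ((h i).map (evalRingHom 1)) = 0 := by
  classical
  have hEΔ : E.Δ ≠ 0 := by
    intro h0
    apply hΔ0
    rw [WeierstrassCurve.map_Δ, h0, map_zero]
  have hinj : Function.Injective (algebraMap k[X] (RatFunc k)) :=
    IsFractionRing.injective k[X] (RatFunc k)
  have hVΔ : (E.map (algebraMap k[X] (RatFunc k))).Δ ≠ 0 := by
    rw [WeierstrassCurve.map_Δ]
    exact (map_ne_zero_iff _ hinj).mpr hEΔ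
  have h6' : (6 : RatFunc k) ≠ 0 := by
    have h1 : (algebraMap k[X] (RatFunc k)) 6 = 6 := map_ofNat _ 6
    rw [← h1]
    apply (map_ne_zero_iff _ hinj).mpr
    have h2 : (C (6 : k) : k[X]) = 6 := map_ofNat C 6
    rw [← h2]
    exact C_ne_zero.mpr h6
  let V := E.map (algebraMap k[X] (RatFunc k))
  have : V.IsElliptic := ⟨isUnit_iff_ne_zero.mpr hVΔ⟩
  have hpV : ∀ i, IsParam V _ _ := fun i => (h i).map (algebraMap k[X] (RatFunc k))
  have c0 := curveRed_place E 0
  have c1 := curveRed_place E 1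
  let u := ∑ i ∈ s, n i • T5 hVΔ h6' (hpV i)
  have hu5 : 5 • u = 0 := by
    rw [Finset.smul_sum]
    apply Finset.sum_eq_zero
    intro i _
    rw [smul_comm, five_nsmul_T5, smul_zero]
  have e0 : redHomOfGood c0 hΔ0 u = 0 := by
    rw [← hsum, map_sum]
    apply Finset.sum_congr rfl
    intro i _
    rw [map_zsmul]
    congr 1
    rw [redHomOfGood_eq_iff]
    exact pointRed_T5 c0 h6 h6' hVΔ hΔ0 (redTo_algebraMap 0 _) (redTo_algebraMap 0 _) _ _
  have hu : u = 0 := by
    apply eq_zero_of_pointRed_zero c0 (n := 5) (by exact_mod_cast h5) hu5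
    rw [← e0]
    exact pointRed_redHomOfGood c0 hΔ0 u
  have e1 : redHomOfGood c1 hΔ1 u = ∑ i ∈ s, n i • T5 hΔ1 h6 ((h i).map (evalRingHom 1)) := by
    rw [map_sum]
    apply Finset.sum_congr rfl
    intro i _
    rw [map_zsmul]
    congr 1
    rw [redHomOfGood_eq_iff]
    exact pointRed_T5 c1 h6 h6' hVΔ hΔ1 (redTo_algebraMap 1 _) (redTo_algebraMap 1 _) _ _
  rw [← e1, hu, map_zero]

end Fermat.Agent.S52T
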